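import Mathlib.Analysis.Fourier.FiniteAbelian.PontryaginDuality
import Mathlib.Algebra.Order.Chebyshev

/-!
# Additive energy of a map on a finite set

`energy A φ` counts the pairs in `A` with equal images. By orthogonality of characters the energy
of `(x, u) ↦ φ x + ∑ θ (u i)` on `H × T 1 × ⋯ × T s` is at most the sum over `i` of the energies
with all the `T` replaced by `T i`.
-/

set_option autoImplicit false

noncomputable section

namespace FA.Korobov

open Finset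

variable {ι κ G : Type*} [DecidableEq G]

/-- The number of pairs in `A` with the same image. -/
def energy (A : Finset ι) (φ : ι → G) : ℕ := ((A ×ˢ A).filter fun z => φ z.1 = φ z.2).card

/-- The size of a fibre in `A`. -/
def fibre (A : Finset ι) (φ : ι → G) (c : G) : ℕ := (A.filter fun x => φ x = c).card

theorem energy_eq_sum_fibre {A : Finset ι} {φ : ι → G} {T : Finset G} (hT : ∀ x ∈ A, φ x ∈ T) :
    energy A φ = ∑ c ∈ T, fibre A φ c ^ 2 := by
  rw [energy, card_eq_sum_card_fiberwise (f := fun z : ι × ι => φ z.1) (t := T)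
    fun z hz => hT _ (mem_product.1 (mem_filter.1 hz).1).1]
  refine sum_congr rfl fun c _ => ?_
  rw [fibre, sq, ← card_product]
  congr 1
  ext ⟨x, y⟩
  simp only [mem_filter, mem_product]
  exact ⟨fun h => ⟨⟨h.1.1.1, h.2⟩, h.1.1.2, h.1.2.symm.trans h.2⟩,
    fun h => ⟨⟨⟨h.1.1, h.2.1⟩, h.1.2.trans h.2.2.symm⟩, h.1.2⟩⟩

theorem energy_le_of_injOn {H : Type*} [DecidableEq H] {A : Finset ι} {B : Finset κ} {φ : ι → G}
    {ψ : κ → H} (e : ι → κ) (hm : ∀ x ∈ A, e x ∈ B) (he : Set.InjOn e A)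
    (h : ∀ x ∈ A, ∀ y ∈ A, φ x = φ y → ψ (e x) = ψ (e y)) : energy A φ ≤ energy B ψ := by
  refine card_le_card_of_injOn (Prod.map e e) (fun z hz => ?_) fun z hz w hw hzw => ?_
  · rw [mem_coe, mem_filter, mem_product] at hz
    rw [mem_coe, mem_filter, mem_product]
    exact ⟨⟨hm _ hz.1.1, hm _ hz.1.2⟩, h _ hz.1.1 _ hz.1.2 hz.2⟩
  · rw [mem_coe, mem_filter, mem_product] at hz hw
    exact Prod.ext (he hz.1.1 hw.1.1 (congrArg Prod.fst hzw))
      (he hz.1.2 hw.1.2 (congrArg Prod.snd hzw))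

theorem energy_mono {A B : Finset ι} (h : A ⊆ B) (φ : ι → G) : energy A φ ≤ energy B φ :=
  energy_le_of_injOn id h Function.injective_id.injOn fun _ _ _ _ e => e

theorem energy_le_sq_card (A : Finset ι) (φ : ι → G) : energy A φ ≤ A.card ^ 2 :=
  (card_filter_le _ _).trans (by rw [card_product, sq])

theorem sq_card_le_card_image_mul_energy (A : Finset ι) (φ : ι → G) :
    A.card ^ 2 ≤ (A.image φ).card * energy A φ := by
  rw [energy_eq_sum_fibre fun x hx => mem_image_of_mem φ hx,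
    card_eq_sum_card_image φ A]
  exact sq_sum_le_card_mul_sum_sq

/-- A union. -/
theorem energy_biUnion_le [DecidableEq ι] (I : Finset κ) (A : κ → Finset ι) (φ : ι → G) :
    energy (I.biUnion A) φ ≤ I.card * ∑ i ∈ I, energy (A i) φ := by
  obtain ⟨T, hT⟩ : ∃ T, T = (I.biUnion A).image φ := ⟨_, rfl⟩
  have hm : ∀ i ∈ I, ∀ x ∈ A i, φ x ∈ T := fun i hi x hx =>
    hT ▸ mem_image_of_mem φ (mem_biUnion.2 ⟨i, hi, hx⟩)
  rw [energy_eq_sum_fibre (T := T) fun x hx => hT ▸ mem_image_of_mem φ hx,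
    sum_congr rfl fun i hi => energy_eq_sum_fibre (hm i hi), sum_comm, mul_sum]
  refine sum_le_sum fun c _ => ?_
  refine (Nat.pow_le_pow_left ?_ 2).trans sq_sum_le_card_mul_sum_sq
  rw [fibre, filter_biUnion]
  exact card_biUnion_le

/-- Two pieces. -/
theorem energy_union_le [DecidableEq ι] (A B : Finset ι) (φ : ι → G) :
    energy (A ∪ B) φ ≤ 2 * (energy A φ + energy B φ) := by
  have h := energy_biUnion_le (univ : Finset Bool) (fun b => cond b A B) φ
  simpa [Finset.biUnion, Fintype.univ_bool] using h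

theorem card_sub_eq_le [AddCommGroup G] (A : Finset ι) (φ : ι → G) (d : G) :
    ((A ×ˢ A).filter fun z => φ z.1 - φ z.2 = d).card ≤ energy A φ := by
  obtain ⟨T, hT⟩ : ∃ T, T = A.image φ := ⟨_, rfl⟩
  have hm : ∀ x ∈ A, φ x ∈ T := fun x hx => hT ▸ mem_image_of_mem φ hx
  rw [energy_eq_sum_fibre hm, card_eq_sum_card_fiberwise (f := fun z : ι × ι => φ z.2) (t := T)
    fun z hz => hm _ (mem_product.1 (mem_filter.1 hz).1).2]
  have e : ∀ c ∈ T, (((A ×ˢ A).filter fun z => φ z.1 - φ z.2 = d).filter fun z => φ z.2 = c).card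
      = fibre A φ (c + d) * fibre A φ c := fun c _ => by
    rw [fibre, fibre, ← card_product]
    congr 1
    ext ⟨x, y⟩
    simp only [mem_filter, mem_product, sub_eq_iff_eq_add']
    exact ⟨fun h => ⟨⟨h.1.1.1, h.2 ▸ h.1.2⟩, h.1.1.2, h.2⟩,
      fun h => ⟨⟨⟨h.1.1, h.2.1⟩, h.2.2.symm ▸ h.1.2⟩, h.2.2⟩⟩
  rw [sum_congr rfl e]
  have hsh : ∑ c ∈ T, fibre A φ (c + d) ^ 2 ≤ ∑ c ∈ T, fibre A φ c ^ 2 := by
    rw [← sum_image (g := fun c => c + d) (f := fun c => fibre A φ c ^ 2)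
      fun a _ b _ h => add_right_cancel h, ← sum_filter_add_sum_filter_not _ (fun c => c ∈ T)]
    refine add_le_of_le_of_nonpos (sum_le_sum_of_subset fun c hc => (mem_filter.1 hc).2)
      (le_of_eq (sum_eq_zero fun c hc => ?_))
    rw [fibre, card_eq_zero.2 (filter_eq_empty_iff.2 fun x hx e => (mem_filter.1 hc).2
      ((show φ x = c from e) ▸ hm x hx)), zero_pow two_ne_zero]
  have h2 : 2 * ∑ c ∈ T, fibre A φ (c + d) * fibre A φ c ≤
      ∑ c ∈ T, fibre A φ (c + d) ^ 2 + ∑ c ∈ T, fibre A φ c ^ 2 := by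
    rw [mul_sum, ← sum_add_distrib]
    exact sum_le_sum fun c _ => by rw [← mul_assoc]; exact two_mul_le_add_sq _ _
  linarith

/-- **Orthogonality.** -/
theorem energy_mul_card [AddCommGroup G] [Fintype G] (A : Finset ι) (φ : ι → G) :
    (energy A φ : ℝ) * Fintype.card G = ∑ ψ : AddChar G ℂ, ‖∑ x ∈ A, ψ (φ x)‖ ^ 2 := by
  have e : ∀ ψ : AddChar G ℂ, ((‖∑ x ∈ A, ψ (φ x)‖ ^ 2 : ℝ) : ℂ) =
      ∑ z ∈ A ×ˢ A, ψ (φ z.1 - φ z.2) := fun ψ => by
    push_cast
    rw [← Complex.mul_conj', map_sum, sum_mul_sum, sum_product]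
    refine sum_congr rfl fun x _ => sum_congr rfl fun y _ => ?_
    rw [sub_eq_add_neg, AddChar.map_add_eq_mul, AddChar.map_neg_eq_conj]
  apply Complex.ofReal_injective
  rw [Complex.ofReal_sum, sum_congr rfl fun ψ _ => e ψ, sum_comm]
  simp only [AddChar.sum_apply_eq_ite, sub_eq_zero]
  rw [← sum_filter, sum_const, energy, nsmul_eq_mul]
  push_cast
  rfl

omit [DecidableEq G] in
theorem addChar_sum {α : Type*} [AddCommGroup G] (ψ : AddChar G ℂ) (S : Finset α) (f : α → G) :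
    ψ (∑ i ∈ S, f i) = ∏ i ∈ S, ψ (f i) :=
  map_prod ψ.toMonoidHom (fun i => Multiplicative.ofAdd (f i)) S

/-- Mixed boxes in a finite group. -/
theorem energy_pi_le_finite [AddCommGroup G] [Fintype G] {s : ℕ} (hs : 0 < s) (H : Finset ι)
    (φ : ι → G) (θ : κ → G) (T : Fin s → Finset κ) :
    energy (H ×ˢ Fintype.piFinset T) (fun z => φ z.1 + ∑ i, θ (z.2 i)) ≤
      ∑ i, energy (H ×ˢ Fintype.piFinset fun _ : Fin s => T i)
        (fun z => φ z.1 + ∑ l, θ (z.2 l)) := by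
  have hF : ∀ (U : Fin s → Finset κ) (ψ : AddChar G ℂ),
      ∑ z ∈ H ×ˢ Fintype.piFinset U, ψ (φ z.1 + ∑ l, θ (z.2 l)) =
        (∑ x ∈ H, ψ (φ x)) * ∏ l, ∑ u ∈ U l, ψ (θ u) := fun U ψ => by
    rw [prod_univ_sum, sum_mul_sum, sum_product]
    refine sum_congr rfl fun x _ => sum_congr rfl fun u _ => ?_
    rw [AddChar.map_add_eq_mul, addChar_sum]
  rw [← Nat.cast_le (α := ℝ),
    ← mul_le_mul_iff_of_pos_right (show (0 : ℝ) < Fintype.card G from
      Nat.cast_pos.2 Fintype.card_pos), Nat.cast_sum, sum_mul, energy_mul_card]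
  simp only [energy_mul_card, hF]
  rw [sum_comm (s := (univ : Finset (Fin s)))]
  refine sum_le_sum fun ψ _ => ?_
  simp only [norm_mul, mul_pow, ← mul_sum, norm_prod]
  refine mul_le_mul_of_nonneg_left ?_ (sq_nonneg _)
  have : Nonempty (Fin s) := ⟨⟨0, hs⟩⟩
  obtain ⟨m, -, hm⟩ := exists_max_image (univ : Finset (Fin s))
    (fun i => ‖∑ u ∈ T i, ψ (θ u)‖) univ_nonempty
  refine (pow_le_pow_left₀ (prod_nonneg fun i _ => norm_nonneg _)
    ((prod_le_prod (fun i _ => norm_nonneg _) fun i _ => hm i (mem_univ i))) 2).trans ?_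
  refine le_of_eq_of_le ?_ (single_le_sum (fun i _ => sq_nonneg _) (mem_univ m))
  rfl

variable {k : ℕ}

theorem exists_modulus (S : Finset (Fin k → ℤ)) : ∃ M, NeZero M ∧ ∀ u ∈ S, ∀ v ∈ S,
    (fun j => ((u j : ℤ) : ZMod M)) = (fun j => ((v j : ℤ) : ZMod M)) → u = v := by
  obtain ⟨B, hB⟩ : ∃ B : ℕ, B = ∑ u ∈ S, ∑ j, (u j).natAbs := ⟨_, rfl⟩
  refine ⟨2 * B + 1, ⟨by omega⟩, fun u hu v hv h => funext fun j => ?_⟩
  have hle : ∀ w ∈ S, (w j).natAbs ≤ B := fun w hw => hB ▸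
    (single_le_sum (f := fun j => (w j).natAbs) (fun _ _ => Nat.zero_le _) (mem_univ j)).trans
      (single_le_sum (f := fun w : Fin k → ℤ => ∑ j, (w j).natAbs) (fun _ _ => Nat.zero_le _) hw)
  have hd := (ZMod.intCast_eq_intCast_iff_dvd_sub _ _ _).1 (congrFun h j)
  have h1 := hle u hu
  have h2 := hle v hv
  by_contra hne
  have h3 : 2 * B + 1 ≤ (v j - u j).natAbs := by
    refine Nat.le_of_dvd ?_ (Int.natCast_dvd.1 hd)
    omega
  omega

/-- **Mixed boxes.** -/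
theorem energy_pi_le [DecidableEq ι] [DecidableEq κ] {s : ℕ} (hs : 0 < s) (H : Finset ι)
    (φ : ι → Fin k → ℤ) (θ : κ → Fin k → ℤ) (T : Fin s → Finset κ) :
    energy (H ×ˢ Fintype.piFinset T) (fun z => φ z.1 + ∑ i, θ (z.2 i)) ≤
      ∑ i, energy (H ×ˢ Fintype.piFinset fun _ : Fin s => T i)
        (fun z => φ z.1 + ∑ l, θ (z.2 l)) := by
  obtain ⟨W, hW⟩ : ∃ W, W = H ×ˢ Fintype.piFinset fun _ : Fin s => univ.biUnion T := ⟨_, rfl⟩
  obtain ⟨M, hM, hinj⟩ := exists_modulus (W.image fun z => φ z.1 + ∑ l, θ (z.2 l))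
  have hsub : ∀ i, (H ×ˢ Fintype.piFinset fun _ : Fin s => T i) ⊆ W := fun i z hz => by
    rw [mem_product, Fintype.mem_piFinset] at hz
    rw [hW, mem_product, Fintype.mem_piFinset]
    exact ⟨hz.1, fun l => mem_biUnion.2 ⟨i, mem_univ i, hz.2 l⟩⟩
  have hcast : ∀ z : ι × (Fin s → κ), (fun j => (((φ z.1 + ∑ l, θ (z.2 l)) j : ℤ) : ZMod M)) =
      (fun j => ((φ z.1 j : ℤ) : ZMod M)) + ∑ l, (fun j => ((θ (z.2 l) j : ℤ) : ZMod M)) :=
    fun z => funext fun j => by simp [Pi.add_apply, Finset.sum_apply]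
  refine (energy_le_of_injOn (ψ := fun z : ι × (Fin s → κ) =>
    (fun j => ((φ z.1 j : ℤ) : ZMod M)) + ∑ l, (fun j => ((θ (z.2 l) j : ℤ) : ZMod M))) id
      (fun _ hz => hz) Function.injective_id.injOn fun x _ y _ e => ?_).trans
    ((energy_pi_le_finite hs H (fun x => fun j => ((φ x j : ℤ) : ZMod M))
      (fun u => fun j => ((θ u j : ℤ) : ZMod M)) T).trans
      (sum_le_sum fun i _ => ?_))
  · rw [id, id, ← hcast, ← hcast, e]
  · refine energy_le_of_injOn id (fun _ hz => hz) Function.injective_id.injOn fun x hx y hy e => ?_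
    rw [id, id]
    refine hinj _ (mem_image_of_mem _ (hsub i hx)) _ (mem_image_of_mem _ (hsub i hy)) ?_
    rw [hcast, hcast]
    exact e

end FA.Korobov

end
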