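import Fermat.Agent.Korobov.ZetaBound
import Fermat.Agent.Hoheisel.Littlewood

/-!
# The zero-free region of Vinogradov and Korobov

Landau's lemma on discs of radius `(log L / L) ^ (2/3) / 2`, `L = ell t`: no zeros with
`re s ≥ 1 - c / (L ^ (2/3) (log L) ^ (1/3))`, and `ζ'/ζ = O (L ^ 2)` there.
-/

set_option autoImplicit false

noncomputable section

namespace FA.Korobov

open Complex Metric FA.ZeroFree
open scoped ArithmeticFunction.vonMangoldt

/-- `L ^ (2/3) (log L) ^ (1/3)`, `L = ell t`. -/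
def gauge (t : ℝ) : ℝ := ell t ^ (2 / 3 : ℝ) * Real.log (ell t) ^ (1 / 3 : ℝ)

theorem one_le_log_ell (t : ℝ) : 1 ≤ Real.log (ell t) := by
  rw [Real.le_log_iff_exp_le (ell_pos t)]
  linarith [four_le_ell t, Real.exp_one_lt_d9]

theorem gauge_bounds (t : ℝ) : 2 ≤ gauge t ∧ gauge t ≤ ell t ∧
    Real.log (ell t) ≤ gauge t := by
  obtain ⟨L, hL⟩ : ∃ L, L = ell t := ⟨_, rfl⟩
  have hL4 : 4 ≤ L := hL ▸ four_le_ell t
  have hl : 1 ≤ Real.log L := hL ▸ one_le_log_ell t
  have hlL : Real.log L ≤ L := Real.log_le_self (by linarith)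
  rw [gauge, ← hL]
  have h1 : (1 : ℝ) ≤ Real.log L ^ (1 / 3 : ℝ) := Real.one_le_rpow hl (by norm_num)
  have h2 : 2 ≤ L ^ (2 / 3 : ℝ) := by
    refine le_trans ?_ (Real.rpow_le_rpow (by norm_num) hL4 (by norm_num))
    rw [show (4 : ℝ) = 2 ^ (2 : ℕ) by norm_num, ← Real.rpow_natCast, ← Real.rpow_mul two_pos.le]
    refine le_trans (le_of_eq (Real.rpow_one 2).symm) ?_
    exact Real.rpow_le_rpow_of_exponent_le one_le_two (by norm_num)
  refine ⟨?_, ?_, ?_⟩
  · nlinarith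
  · calc L ^ (2 / 3 : ℝ) * Real.log L ^ (1 / 3 : ℝ) ≤ L ^ (2 / 3 : ℝ) * L ^ (1 / 3 : ℝ) := by
          gcongr
      _ = L := by rw [← Real.rpow_add (by linarith)]; norm_num
  · calc Real.log L = Real.log L ^ (2 / 3 : ℝ) * Real.log L ^ (1 / 3 : ℝ) := by
          rw [← Real.rpow_add (by linarith)]; norm_num
      _ ≤ _ := by gcongr

theorem gauge_pos (t : ℝ) : 0 < gauge t := by linarith [(gauge_bounds t).1]

theorem gauge_mono {s t : ℝ} (h : |s| ≤ |t|) : gauge s ≤ gauge t := by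
  have hl := one_le_log_ell s
  have h1 := ell_mono h
  refine mul_le_mul (Real.rpow_le_rpow (ell_pos s).le h1 (by norm_num))
    (Real.rpow_le_rpow (by linarith) (Real.log_le_log (ell_pos s) h1) (by norm_num))
    (Real.rpow_nonneg (by linarith) _) (Real.rpow_nonneg (ell_pos t).le _)

theorem gauge_near {s t : ℝ} (h : |s - t| ≤ 1) : gauge s ≤ 5 / 4 * gauge t := by
  have hls := one_le_log_ell s
  have hlt := one_le_log_ell t
  have h1 := ell_near h
  have h2 : Real.log (ell s) ≤ 5 / 4 * Real.log (ell t) := by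
    refine (Real.log_le_log (ell_pos s) h1).trans ?_
    rw [Real.log_mul (by norm_num) (ell_pos t).ne']
    linarith [Real.log_le_sub_one_of_pos (show (0 : ℝ) < 5 / 4 by norm_num)]
  calc gauge s ≤ (5 / 4 * ell t) ^ (2 / 3 : ℝ) * (5 / 4 * Real.log (ell t)) ^ (1 / 3 : ℝ) :=
        mul_le_mul (Real.rpow_le_rpow (ell_pos s).le h1 (by norm_num))
          (Real.rpow_le_rpow (by linarith) h2 (by norm_num)) (Real.rpow_nonneg (by linarith) _)
          (Real.rpow_nonneg (by linarith [ell_pos t]) _)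
    _ = (5 / 4 : ℝ) ^ (2 / 3 : ℝ) * (5 / 4 : ℝ) ^ (1 / 3 : ℝ) * gauge t := by
        rw [Real.mul_rpow (by norm_num) (ell_pos t).le,
          Real.mul_rpow (by norm_num) (by linarith), gauge]
        ring
    _ = _ := by rw [← Real.rpow_add (by norm_num)]; norm_num

/-- The radius of the discs. -/
def radius (t : ℝ) : ℝ := (Real.log (ell t) / ell t) ^ (2 / 3 : ℝ) / 2

theorem radius_facts (t : ℝ) : 0 < radius t ∧ radius t ≤ 1 / 2 ∧
    radius t * gauge t = Real.log (ell t) / 2 ∧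
    radius t ^ (3 / 2 : ℝ) ≤ Real.log (ell t) / ell t := by
  have hl := one_le_log_ell t
  have hL := ell_pos t
  have hq : Real.log (ell t) / ell t ≤ 1 := (div_le_one hL).2 (Real.log_le_self hL.le)
  refine ⟨by rw [radius]; positivity, ?_, ?_, ?_⟩
  · rw [radius]
    have := Real.rpow_le_one (show 0 ≤ Real.log (ell t) / ell t by positivity) hq
      (show (0 : ℝ) ≤ 2 / 3 by norm_num)
    linarith
  · rw [radius, gauge, Real.div_rpow (by linarith) hL.le]
    have e : Real.log (ell t) ^ (2 / 3 : ℝ) * Real.log (ell t) ^ (1 / 3 : ℝ) =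
        Real.log (ell t) := by
      rw [← Real.rpow_add (by linarith)]; norm_num
    have h0 : ell t ^ (2 / 3 : ℝ) ≠ 0 := (Real.rpow_pos_of_pos hL _).ne'
    field_simp
    linarith
  · refine (Real.rpow_le_rpow (by rw [radius]; positivity)
      (show radius t ≤ (Real.log (ell t) / ell t) ^ (2 / 3 : ℝ) from
        div_le_self (by positivity) one_le_two) (by norm_num)).trans (le_of_eq ?_)
    rw [← Real.rpow_mul (by positivity)]
    norm_num

theorem radius_le_third (t : ℝ) : radius t ≤ 1 / 3 := by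
  obtain ⟨L, hL⟩ : ∃ L, L = ell t := ⟨_, rfl⟩
  have hL4 : 4 ≤ L := hL ▸ four_le_ell t
  have he := Real.exp_one_gt_d9
  have hlog : Real.log L ≤ L / Real.exp 1 := by
    have h := Real.log_le_sub_one_of_pos (show 0 < L / Real.exp 1 by positivity)
    rw [Real.log_div (by linarith) (Real.exp_pos 1).ne', Real.log_exp] at h
    linarith
  have hq : Real.log L / L ≤ 2 / 5 := by
    rw [div_le_iff₀ (by linarith)]
    refine hlog.trans ?_
    rw [div_le_iff₀ (Real.exp_pos 1)]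
    nlinarith
  have h1 := Real.rpow_le_rpow (div_nonneg (Real.log_nonneg (by linarith)) (by linarith)) hq
    (show (0 : ℝ) ≤ 2 / 3 by norm_num)
  have h2 : (2 / 5 : ℝ) ^ (2 / 3 : ℝ) ≤ 2 / 3 := by
    refine le_of_pow_le_pow_left₀ (n := 3) (by norm_num) (by norm_num) ?_
    rw [← Real.rpow_natCast, ← Real.rpow_mul (by norm_num)]
    norm_num
  rw [radius, ← hL]
  linarith

/-- **The bound on the circles.** -/
theorem exists_circle_bound_of {f : ℂ → ℂ} {C : ℝ} (hC : 0 < C)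
    (h : ∀ s : ℂ, 3 ≤ |s.im| → 2 / 3 ≤ s.re → s.re ≤ 3 → ‖f s‖ ≤
      C * ell s.im ^ 41 * Real.exp (expConst * max (1 - s.re) 0 ^ (3 / 2 : ℝ) * ell s.im)) : ∃ (K : ℝ) (m : ℕ), 1 ≤ K ∧ ∀ (t u : ℝ) (z : ℂ) (δ : ℝ),
    4 ≤ |t| → (u = t ∨ u = 2 * t) → 0 ≤ δ → δ ≤ 1 → ‖z‖ = radius t →
      ‖f (((1 + δ : ℝ) : ℂ) + u * I + z)‖ ≤ K * ell t ^ m := by
  refine ⟨max 1 (C * 3 ^ 41), 41 + 5700, le_max_left _ _,
    fun t u z δ ht hu hδ hδ1 hz => ?_⟩
  obtain ⟨hr0, hr12, -, hr32⟩ := radius_facts t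
  have hr13 := radius_le_third t
  obtain ⟨s, hs⟩ : ∃ s : ℂ, s = ((1 + δ : ℝ) : ℂ) + u * I + z := ⟨_, rfl⟩
  have hre : s.re = 1 + δ + z.re := by simp [hs]
  have him : s.im = u + z.im := by simp [hs]
  have hzre := abs_le.1 ((abs_re_le_norm z).trans hz.le)
  have hzim := (abs_im_le_norm z).trans hz.le
  have hu4 : 4 ≤ |u| ∧ |u| ≤ 2 * |t| := by
    rcases hu with rfl | rfl
    · exact ⟨ht, by linarith⟩
    · rw [abs_mul, abs_two]; exact ⟨by linarith, le_rfl⟩
  have h3 : 3 ≤ |s.im| := by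
    rw [him]
    have := abs_add_le (u + z.im) (-z.im)
    rw [add_neg_cancel_right, abs_neg] at this
    linarith
  have hell : ell s.im ≤ 3 * ell t := by
    have h1 : ell s.im ≤ 5 / 4 * ell (2 * t) := by
      have h2 : ell s.im ≤ ell (|2 * t| + 1) := ell_mono (by
        rw [abs_of_nonneg (show 0 ≤ |2 * t| + 1 by positivity), abs_mul, abs_two, him]
        linarith [abs_add_le u z.im])
      refine h2.trans (le_trans (ell_near (t := |2 * t|) ?_) (le_of_eq ?_))
      · rw [add_sub_cancel_left, abs_one]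
      · rw [ell, ell, abs_abs]
    linarith [ell_two_mul t, ell_pos t]
  rw [← hs]
  refine (h s h3 (by linarith) (by linarith)).trans ?_
  have hθ : max (1 - s.re) 0 ≤ radius t := max_le (by linarith) hr0.le
  have hA : (0 : ℝ) ≤ expConst := by rw [expConst]; norm_num
  have hexp : Real.exp (expConst * max (1 - s.re) 0 ^ (3 / 2 : ℝ) * ell s.im) ≤
      ell t ^ 5700 := by
    rw [← Real.rpow_natCast, Real.rpow_def_of_pos (ell_pos t), Real.exp_le_exp]
    calc expConst * max (1 - s.re) 0 ^ (3 / 2 : ℝ) * ell s.im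
        ≤ expConst * (Real.log (ell t) / ell t) * (3 * ell t) := by
          refine mul_le_mul (mul_le_mul_of_nonneg_left
            ((Real.rpow_le_rpow (le_max_right _ _) hθ (by norm_num)).trans hr32) hA) hell
            (ell_pos _).le (mul_nonneg hA
              (div_nonneg (by linarith [one_le_log_ell t]) (ell_pos t).le))
      _ = _ := by
          have := (ell_pos t).ne'
          rw [expConst]
          field_simp
          ring
  calc C * ell s.im ^ 41 * Real.exp (expConst * max (1 - s.re) 0 ^ (3 / 2 : ℝ) * ell s.im)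
      ≤ C * (3 * ell t) ^ 41 * ell t ^ 5700 :=
        mul_le_mul (mul_le_mul_of_nonneg_left (pow_le_pow_left₀ (ell_pos _).le hell 41) hC.le)
          hexp (Real.exp_pos _).le (by positivity [ell_pos t])
    _ = C * 3 ^ 41 * ell t ^ (41 + 5700) := by rw [mul_pow, pow_add]; ring
    _ ≤ _ := mul_le_mul_of_nonneg_right (le_max_right _ _) (pow_nonneg (ell_pos t).le _)

/-- The circles of `ζ`. -/
theorem exists_circle_bound : ∃ (K : ℝ) (m : ℕ), 1 ≤ K ∧ ∀ (t u : ℝ) (z : ℂ) (δ : ℝ),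
    4 ≤ |t| → (u = t ∨ u = 2 * t) → 0 ≤ δ → δ ≤ 1 → ‖z‖ = radius t →
      ‖riemannZeta (((1 + δ : ℝ) : ℂ) + u * I + z)‖ ≤ K * ell t ^ m := by
  obtain ⟨C, hC, h⟩ := exists_zeta_bound
  exact exists_circle_bound_of hC fun s ht hσ hσ3 => h s ht (by linarith) hσ3

/-- The arithmetic of the `3-4-1` argument on the discs of radius `radius t`. -/
theorem exists_zero_gap {C K : ℝ} (m : ℕ) (hC : 0 ≤ C) (hK : 1 ≤ K) :
    ∃ c, 0 < c ∧ c ≤ 1 ∧ ∀ (β t : ℝ) (P₀ P₁ P₂ : ℝ → ℝ), β < 1 →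
      (∀ δ, 0 < δ → δ ≤ 1 → 0 ≤ 3 * P₀ δ + 4 * P₁ δ + P₂ δ ∧ P₀ δ ≤ 1 / δ + C) →
      (∀ δ B, 0 < δ → δ ≤ 1 → δ ≤ radius t → 0 ≤ B → B * (δ / 4) = K * ell t ^ m →
        P₂ δ ≤ 6 * Real.log B / radius t ∧ (1 + δ - β ≤ radius t / 3 →
          P₁ δ ≤ 6 * Real.log B / radius t - 1 / (1 + δ - β))) →
      β ≤ 1 - c / gauge t := by
  obtain ⟨E, hE⟩ : ∃ E, E = Real.log (4 * K) + m + 1 := ⟨_, rfl⟩
  have hE1 : 1 ≤ E := by
    have := Real.log_nonneg (show 1 ≤ 4 * K by linarith)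
    rw [hE]
    linarith [(Nat.cast_nonneg m : (0 : ℝ) ≤ m)]
  obtain ⟨R, hR⟩ : ∃ R, R = 1000 * (E + C + 1) := ⟨_, rfl⟩
  obtain ⟨A, hA⟩ : ∃ A, A = R ^ 2 := ⟨_, rfl⟩
  have hR1 : 1000 ≤ R := by rw [hR]; linarith
  have hA6 : 1000000 ≤ A := by rw [hA]; nlinarith
  refine ⟨1 / (7 * A), by positivity, by rw [div_le_one (by positivity)]; linarith,
    fun β t P₀ P₁ P₂ hβ hP hB' => ?_⟩
  obtain ⟨hg2, hgL, hlg⟩ := gauge_bounds t
  obtain ⟨hr0, hr12, hrg, -⟩ := radius_facts t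
  obtain ⟨l, hl⟩ : ∃ l, l = Real.log (ell t) := ⟨_, rfl⟩
  obtain ⟨w, hw⟩ : ∃ w, w = gauge t := ⟨_, rfl⟩
  obtain ⟨r, hr⟩ : ∃ r, r = radius t := ⟨_, rfl⟩
  rw [← hw] at hg2 hgL hlg hrg ⊢
  rw [← hr] at hr0 hr12 hrg
  rw [← hl] at hlg hrg
  have hl1 : 1 ≤ l := hl ▸ one_le_log_ell t
  obtain ⟨δ, hδ⟩ : ∃ δ, δ = 1 / (A * w) := ⟨_, rfl⟩
  have hδ0 : 0 < δ := by rw [hδ]; positivity
  have hδw : δ * (A * w) = 1 := by rw [hδ]; field_simp
  have hδr : 8 * δ ≤ r / 3 := by
    have h1 : 1 / 2 ≤ r * w := by rw [hrg]; linarith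
    by_contra hc
    have h2 : r / 3 * (A * w) < 8 * δ * (A * w) :=
      mul_lt_mul_of_pos_right (not_le.1 hc) (by positivity)
    nlinarith [mul_le_mul_of_nonneg_left h1 (show (0 : ℝ) ≤ A by linarith)]
  have hδ1 : δ ≤ 1 := by linarith
  have hfin : 1 / (7 * A) / w = δ / 7 := by rw [hδ]; field_simp
  rw [hfin]
  rcases lt_or_ge (r / 3) (1 + δ - β) with h | h
  · linarith
  have hd : 0 < 1 + δ - β := by linarith
  obtain ⟨B, hB⟩ : ∃ B, B = 4 * K * ell t ^ m / δ := ⟨_, rfl⟩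
  have hB0 : 0 ≤ B := hB ▸
    div_nonneg (mul_nonneg (by linarith) (pow_nonneg (ell_pos t).le _)) hδ0.le
  have hBeq : B * (δ / 4) = K * ell t ^ m := by
    rw [hB]
    field_simp
  obtain ⟨h341, h0⟩ := hP δ hδ0 hδ1
  obtain ⟨h2, h1⟩ := hB' δ B hδ0 hδ1 (hr ▸ (by linarith : δ ≤ r)) hB0 hBeq
  rw [← hr] at h1 h2
  replace h1 := h1 h
  have hlogA : Real.log A ≤ 2 * R := by
    rw [hA, Real.log_pow]
    push_cast
    linarith [Real.log_le_self (show 0 ≤ R by linarith)]
  have hlogB : Real.log B ≤ (E + 2 * R) * l + l := by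
    have e : B = 4 * K * ell t ^ m * (A * w) := by
      rw [hB, hδ]; field_simp
    rw [e, Real.log_mul (by positivity [ell_pos t]) (by positivity),
      Real.log_mul (by positivity) (pow_ne_zero _ (ell_pos t).ne'), Real.log_pow, ← hl,
      Real.log_mul (show A ≠ 0 by positivity) (show w ≠ 0 by linarith)]
    have h3 : Real.log w ≤ l := by
      rw [hl]; exact Real.log_le_log (by linarith) hgL
    have h4 := Real.log_nonneg (show 1 ≤ 4 * K by linarith)
    have h5 : Real.log (4 * K) ≤ Real.log (4 * K) * l := le_mul_of_one_le_right h4 hl1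
    have h6 : 2 * R ≤ 2 * R * l := le_mul_of_one_le_right (by linarith) hl1
    rw [hE]
    nlinarith
  have hterm : 6 * Real.log B / r ≤ 12 * (E + 2 * R + 1) * w := by
    rw [div_le_iff₀ hr0, mul_assoc _ w r, mul_comm w r, hrg]
    linarith
  have hδinv : 1 / δ = A * w := by rw [hδ, one_div_one_div]
  have hmain : 4 * (1 / (1 + δ - β)) ≤ 7 / 2 * (A * w) := by
    have hCw : C ≤ C * w := le_mul_of_one_le_right hC (by linarith)
    have hbud : 3 * C + 60 * (E + 2 * R + 1) ≤ A / 2 := by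
      rw [hA, hR]
      nlinarith
    have := mul_le_mul_of_nonneg_right hbud (show 0 ≤ w by linarith)
    linarith
  rw [mul_one_div, div_le_iff₀ hd] at hmain
  have hkey : 8 / 7 ≤ A * w * (1 + δ - β) := by linarith
  nlinarith

/-- **Zeros keep away from the line.** -/
theorem exists_region_high : ∃ c, 0 < c ∧ c ≤ 1 ∧ ∀ β t : ℝ, 4 ≤ |t| →
    riemannZeta ((β : ℂ) + t * I) = 0 → β ≤ 1 - c / gauge t := by
  obtain ⟨C, hC, hreal⟩ := FA.DLVP.exists_real_bound
  obtain ⟨K, m, hK, hcirc⟩ := exists_circle_bound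
  obtain ⟨c, hc, hc1, hgap⟩ := exists_zero_gap m hC hK
  refine ⟨c, hc, hc1, fun β t ht hz => hgap β t
    (fun δ => (LSeries (fun n => ((Λ n : ℝ) : ℂ)) ((1 + δ : ℝ) : ℂ)).re)
    (fun δ => (LSeries (fun n => ((Λ n : ℝ) : ℂ)) (((1 + δ : ℝ) : ℂ) + t * I)).re)
    (fun δ => (LSeries (fun n => ((Λ n : ℝ) : ℂ))
      (((1 + δ : ℝ) : ℂ) + ((2 * t : ℝ) : ℂ) * I)).re) ?_
    (fun δ hδ hδ1 => ⟨FA.DLVP.three_four_one_logDeriv (σ := 1 + δ) (by linarith) t,
      hreal δ hδ hδ1⟩)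
    fun δ B hδ hδ1 hδr hB0 hB => ?_⟩
  · by_contra hb
    exact riemannZeta_ne_zero_of_one_le_re (by simpa using not_lt.1 hb) hz
  obtain ⟨hr0, hr12, -, -⟩ := radius_facts t
  have hBb : ∀ u, (u = t ∨ u = 2 * t) → ∀ z : ℂ, ‖z‖ = radius t →
      ‖riemannZeta (((1 + δ : ℝ) : ℂ) + u * I + z)‖ ≤ B * (δ / 4) := fun u hu z hz =>
    hB ▸ hcirc t u z δ ht hu hδ.le hδ1 hz
  exact ⟨(FA.Hoheisel.landau_zeta_disc hδ hδr hr12 (t := 2 * t)
    (by rw [abs_mul, abs_two]; linarith) hB0 (hBb (2 * t) (Or.inr rfl))).1, fun h =>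
    (FA.Hoheisel.landau_zeta_disc hδ hδr hr12 (by linarith) hB0 (hBb t (Or.inl rfl))).2 β hz h⟩

/-- **The zero-free region.** -/
theorem exists_region : ∃ c, 0 < c ∧ c ≤ 1 ∧ ∀ s : ℂ,
    1 - c / gauge s.im ≤ s.re → riemannZeta₁ s ≠ 0 := by
  obtain ⟨c, hc, hc1, h⟩ := exists_region_high
  obtain ⟨a, ha, ha1, hlow⟩ := FA.DLVP.exists_zero_free_ell
  refine ⟨min (c / 2) (a / 5), lt_min (by positivity) (by positivity),
    (min_le_left _ _).trans (by linarith), fun s hs => ?_⟩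
  rcases le_or_gt 1 s.re with h1 | h1
  · exact riemannZeta₁_ne_zero_of_one_le h1
  have hg := (gauge_bounds s.im).1
  rcases le_or_gt |s.im| 4 with ht | ht
  · refine hlow s ?_
    have h5 : ell s.im ≤ 5 := by
      have h4 : ell s.im ≤ ell 4 := ell_mono (ht.trans_eq (by norm_num))
      refine h4.trans ?_
      unfold ell
      rw [Real.log_le_iff_le_exp (by positivity), abs_of_pos (by norm_num : (0 : ℝ) < 4)]
      calc (4 : ℝ) + 100 ≤ (2.7 : ℝ) ^ 5 := by norm_num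
        _ ≤ Real.exp 1 ^ 5 :=
          pow_le_pow_left₀ (by norm_num) (by linarith [Real.exp_one_gt_d9]) 5
        _ = _ := by rw [← Real.exp_nat_mul]; norm_num
    have h6 : min (c / 2) (a / 5) / gauge s.im ≤ a / 5 :=
      (div_le_self (le_min (by positivity) (by positivity)) (by linarith)).trans (min_le_right _ _)
    have h7 : a / 5 ≤ a / ell s.im := div_le_div_of_nonneg_left ha.le (ell_pos _) h5
    linarith
  · intro h0
    have hs1 : s ≠ 1 := fun hh => by simp [hh] at h1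
    have hz : riemannZeta s = 0 := by rw [riemannZeta_eq_inv_sub_mul hs1, h0, mul_zero]
    have hb := h s.re s.im ht.le (by rwa [Complex.re_add_im])
    have h2 : min (c / 2) (a / 5) / gauge s.im ≤ c / 2 / gauge s.im :=
      div_le_div_of_nonneg_right (min_le_left _ _) (by linarith)
    have h3 : c / gauge s.im = c / 2 / gauge s.im + c / 2 / gauge s.im := by ring
    have h4 : 0 < c / 2 / gauge s.im := div_pos (by positivity) (gauge_pos _)
    linarith

/-- A logarithmic derivative in a narrower region, at heights at least `5`. -/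
theorem exists_logDeriv_bound {f : ℂ → ℂ} {c D C : ℝ} (hc : 0 < c) (hc1 : c ≤ 1) (hD : 0 < D)
    (hC : 0 ≤ C)
    (hbound : ∀ s : ℂ, 3 ≤ |s.im| → 2 / 3 ≤ s.re → s.re ≤ 3 → ‖f s‖ ≤
      D * ell s.im ^ 41 * Real.exp (expConst * max (1 - s.re) 0 ^ (3 / 2 : ℝ) * ell s.im))
    (hdiff : ∀ s : ℂ, 3 ≤ |s.im| → DifferentiableAt ℂ f s)
    (hnz : ∀ s : ℂ, 3 ≤ |s.im| → 1 - c / gauge s.im ≤ s.re → f s ≠ 0)
    (hlower : ∀ δ t : ℝ, 0 < δ → δ ≤ 1 → δ / 4 ≤ ‖f (((1 + δ : ℝ) : ℂ) + t * I)‖)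
    (hreal : ∀ s : ℂ, 1 < s.re → s.re ≤ 2 → ‖deriv f s / f s‖ ≤ 1 / (s.re - 1) + C) :
    ∃ K, 0 ≤ K ∧ ∀ s : ℂ, 5 ≤ |s.im| → 1 - c / 5 / gauge s.im ≤ s.re → s.re ≤ 2 →
      ‖deriv f s / f s‖ ≤ K * ell s.im ^ 2 := by
  obtain ⟨U, hU⟩ : ∃ U, U = (D + 1) * (5 / 4) ^ 41 * Real.exp (2 * expConst) := ⟨_, rfl⟩
  have hU1 : 1 ≤ U := by
    rw [hU]
    have h1 : (1 : ℝ) ≤ Real.exp (2 * expConst) := Real.one_le_exp (by rw [expConst]; norm_num)
    have h2 : (1 : ℝ) ≤ (5 / 4) ^ 41 := one_le_pow₀ (by norm_num)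
    exact one_le_mul_of_one_le_of_one_le (one_le_mul_of_one_le_of_one_le (by linarith) h2) h1
  obtain ⟨W, hW⟩ : ∃ W, W = Real.log (25 * U / c) := ⟨_, rfl⟩
  have hW0 : 0 ≤ W := by
    rw [hW]
    refine Real.log_nonneg ?_
    rw [le_div_iff₀ hc]
    linarith
  refine ⟨(30 * W + 1300) / c + C, by positivity, fun s ht hs hs2 => ?_⟩
  obtain ⟨L, hL⟩ : ∃ L, L = ell s.im := ⟨_, rfl⟩
  obtain ⟨w, hw⟩ : ∃ w, w = gauge s.im := ⟨_, rfl⟩
  obtain ⟨hg2, hgL, -⟩ := gauge_bounds s.im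
  rw [← hL] at hgL ⊢
  rw [← hw] at hs hg2 hgL
  have hL4 : 4 ≤ L := hL ▸ four_le_ell _
  have hL2 : L ≤ L ^ 2 := le_self_pow₀ (by linarith) (by norm_num)
  obtain ⟨e, he⟩ : ∃ e, e = c / 5 / w := ⟨_, rfl⟩
  rw [← he] at hs
  have he0 : 0 < e := by rw [he]; positivity
  have he1 : e ≤ 1 / 10 := by
    rw [he, div_le_iff₀ (by linarith)]
    linarith
  have heinv : 1 / e = 5 * w / c := by rw [he]; field_simp
  rcases le_or_gt (1 + e) s.re with hσ | hσ
  · refine (hreal s (by linarith) hs2).trans ?_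
    have h2 : 1 / (s.re - 1) ≤ 5 * w / c :=
      heinv ▸ one_div_le_one_div_of_le he0 (by linarith)
    have h3 : 5 * w / c ≤ (30 * W + 1300) / c * L ^ 2 := by
      rw [div_mul_eq_mul_div]
      refine div_le_div_of_nonneg_right ?_ hc.le
      nlinarith [mul_nonneg hW0 (sq_nonneg L)]
    have h4 : C ≤ C * L ^ 2 := le_mul_of_one_le_right hC (by nlinarith)
    linarith
  obtain ⟨s₀, hs₀⟩ : ∃ s₀ : ℂ, s₀ = ((1 + e : ℝ) : ℂ) + s.im * I := ⟨_, rfl⟩
  have hre : s₀.re = 1 + e := by simp [hs₀]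
  have him : s₀.im = s.im := by simp [hs₀]
  obtain ⟨g₀, hf⟩ : ∃ g₀ : ℂ → ℂ, g₀ = fun z => f (s₀ + z) := ⟨_, rfl⟩
  have hball : ∀ z ∈ ball (0 : ℂ) (4 * e), 3 ≤ |(s₀ + z).im| ∧ f (s₀ + z) ≠ 0 ∧
      ‖f (s₀ + z)‖ ≤ U * L ^ 41 := by
    intro z hz
    rw [mem_ball_zero_iff] at hz
    have h1 := abs_le.1 ((abs_re_le_norm z).trans hz.le)
    have h2 : |(s₀ + z).im - s.im| ≤ 1 := by
      rw [add_im, him, add_sub_cancel_left]
      linarith [abs_im_le_norm z]
    have h3 : 3 ≤ |(s₀ + z).im| := by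
      have := abs_sub_abs_le_abs_sub s.im (s₀ + z).im
      rw [abs_sub_comm] at this
      linarith
    have hell : ell (s₀ + z).im ≤ 5 / 4 * L := hL ▸ ell_near h2
    have hgz : gauge (s₀ + z).im ≤ 5 / 4 * w := hw ▸ gauge_near h2
    have hpos := gauge_pos (s₀ + z).im
    have h3e : 3 * e ≤ c / gauge (s₀ + z).im := by
      rw [le_div_iff₀ hpos]
      calc 3 * e * gauge (s₀ + z).im ≤ 3 * e * (5 / 4 * w) := by gcongr
        _ = 3 / 4 * c := by rw [he]; field_simp
        _ ≤ c := by linarith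
    have hreg : 1 - c / gauge (s₀ + z).im ≤ (s₀ + z).re := by
      rw [add_re, hre]
      linarith
    refine ⟨h3, hnz _ h3 hreg, ?_⟩
    · refine (hbound _ h3 (by rw [add_re, hre]; linarith) (by rw [add_re, hre]; linarith)).trans ?_
      have hθ : max (1 - (s₀ + z).re) 0 ≤ 3 * e :=
        max_le (by rw [add_re, hre]; linarith) (by linarith)
      have hwe : (3 * e) ^ (3 / 2 : ℝ) * L ≤ 1 := by
        have h5 : 3 * e ≤ 1 / w := by
          rw [he, mul_div_assoc', div_le_div_iff_of_pos_right (by linarith)]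
          linarith
        have h6 : L ≤ w ^ (3 / 2 : ℝ) := by
          rw [hw, gauge, Real.mul_rpow (Real.rpow_nonneg (ell_pos _).le _)
            (Real.rpow_nonneg (by linarith [one_le_log_ell s.im]) _),
            ← Real.rpow_mul (ell_pos _).le, ← Real.rpow_mul (by linarith [one_le_log_ell s.im]),
            show (2 / 3 : ℝ) * (3 / 2) = 1 by norm_num, Real.rpow_one, hL]
          exact le_mul_of_one_le_right (ell_pos _).le
            (Real.one_le_rpow (one_le_log_ell _) (by norm_num))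
        refine (mul_le_mul (Real.rpow_le_rpow (by linarith) h5 (by norm_num)) h6 (by linarith)
          (by positivity)).trans (le_of_eq ?_)
        rw [← Real.mul_rpow (by positivity) (by linarith), one_div_mul_cancel (by linarith),
          Real.one_rpow]
      have hA : (0 : ℝ) ≤ expConst := by rw [expConst]; norm_num
      have hexp : Real.exp (expConst * max (1 - (s₀ + z).re) 0 ^ (3 / 2 : ℝ) * ell (s₀ + z).im) ≤
          Real.exp (2 * expConst) := by
        refine Real.exp_le_exp.2 ?_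
        calc expConst * max (1 - (s₀ + z).re) 0 ^ (3 / 2 : ℝ) * ell (s₀ + z).im
            ≤ expConst * (3 * e) ^ (3 / 2 : ℝ) * (5 / 4 * L) :=
              mul_le_mul (mul_le_mul_of_nonneg_left
                (Real.rpow_le_rpow (le_max_right _ _) hθ (by norm_num)) hA) hell
                (ell_pos _).le (by positivity)
          _ = 5 / 4 * expConst * ((3 * e) ^ (3 / 2 : ℝ) * L) := by ring
          _ ≤ 5 / 4 * expConst * 1 := mul_le_mul_of_nonneg_left hwe (by positivity)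
          _ ≤ _ := by linarith
      calc D * ell (s₀ + z).im ^ 41 *
            Real.exp (expConst * max (1 - (s₀ + z).re) 0 ^ (3 / 2 : ℝ) * ell (s₀ + z).im)
          ≤ (D + 1) * (5 / 4 * L) ^ 41 * Real.exp (2 * expConst) :=
            mul_le_mul (mul_le_mul (by linarith) (pow_le_pow_left₀ (ell_pos _).le hell 41)
              (pow_nonneg (ell_pos _).le _) (by positivity)) hexp (Real.exp_pos _).le
              (by positivity)
        _ = _ := by rw [hU, mul_pow]; ring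
  have hd : DifferentiableOn ℂ g₀ (ball 0 (4 * e)) := fun z hz => by
    rw [hf]
    exact ((hdiff _ (hball z hz).1).comp z
      (differentiableAt_id.const_add s₀)).differentiableWithinAt
  have hne : ∀ z ∈ ball (0 : ℂ) (4 * e), g₀ z ≠ 0 := fun z hz => hf ▸ (hball z hz).2.1
  obtain ⟨B, hB⟩ : ∃ B, B = 25 * U / c * (w * L ^ 41) := ⟨_, rfl⟩
  have hlow : e / 4 ≤ ‖g₀ 0‖ := by
    simpa [hf, hs₀] using hlower e s.im he0 (by linarith)
  have hwL : 1 ≤ w * L ^ 41 :=
    one_le_mul_of_one_le_of_one_le (by linarith) (one_le_pow₀ (by linarith))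
  have hB1 : 1 < B := by
    rw [hB]
    refine lt_of_lt_of_le ?_ (le_mul_of_one_le_right (by positivity) hwL)
    rw [lt_div_iff₀ hc]
    linarith
  have hb : ∀ z ∈ ball (0 : ℂ) (4 * e), ‖g₀ z‖ ≤ B * ‖g₀ 0‖ := fun z hz => by
    rw [hf]
    refine (hball z hz).2.2.trans ?_
    refine le_trans ?_ (mul_le_mul_of_nonneg_left (by simpa [hf] using hlow) (by linarith))
    rw [hB, he]
    field_simp
    nlinarith
  obtain ⟨g, hg, hgb⟩ := FA.DLVP.norm_log_le (by linarith) hd hne hB1 hb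
  obtain ⟨z₁, hz₁⟩ : ∃ z₁ : ℂ, z₁ = ((s.re - (1 + e) : ℝ) : ℂ) := ⟨_, rfl⟩
  have hz₁n : ‖z₁‖ ≤ 2 * e := by
    rw [hz₁, Complex.norm_real, Real.norm_eq_abs, abs_le]
    constructor <;> linarith
  have hsub : closedBall z₁ e ⊆ ball (0 : ℂ) (4 * e) := fun w hw => by
    rw [mem_closedBall, dist_eq_norm] at hw
    rw [mem_ball_zero_iff]
    linarith [norm_le_norm_add_norm_sub' w z₁]
  have hder : ‖deriv g z₁‖ ≤ 6 * Real.log B / e := by
    refine norm_deriv_le_of_forall_mem_sphere_norm_le he0 ?_ fun w hw => ?_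
    · refine DifferentiableOn.diffContOnCl ?_
      rw [closure_ball _ he0.ne']
      exact fun w hw => (hg w (hsub hw)).differentiableAt.differentiableWithinAt
    · refine (hgb w (hsub (sphere_subset_closedBall hw))).trans ?_
      rw [mem_sphere, dist_eq_norm] at hw
      have h1 : ‖w‖ ≤ 3 * e := by linarith [norm_le_norm_add_norm_sub' w z₁]
      rw [div_le_iff₀ (by linarith)]
      have h2 := Real.log_nonneg hB1.le
      field_simp
      nlinarith [norm_nonneg w]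
  have hval : deriv g z₁ = deriv f s / f s := by
    rw [(hg z₁ (hsub (mem_closedBall_self he0.le))).deriv, hf, deriv_comp_const_add]
    have : s₀ + z₁ = s := by
      apply Complex.ext
      · rw [add_re, hre, hz₁, ofReal_re]; ring
      · rw [add_im, him, hz₁, ofReal_im, add_zero]
    simp only [this]
  rw [hval] at hder
  refine hder.trans ?_
  have hlogB : Real.log B ≤ W + 43 * L := by
    rw [hB, Real.log_mul (by positivity) (by positivity),
      Real.log_mul (by positivity) (by positivity), Real.log_pow, ← hW]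
    have := Real.log_le_self (show 0 ≤ L by linarith)
    have := Real.log_le_self (show 0 ≤ w by linarith)
    push_cast
    linarith
  calc 6 * Real.log B / e = 6 * Real.log B * (1 / e) := (mul_one_div _ _).symm
    _ ≤ 6 * (W + 43 * L) * (5 * L / c) := by
        rw [heinv]
        refine mul_le_mul (by linarith) (by gcongr) (by positivity) (by positivity)
    _ = (30 * W * L + 1290 * L ^ 2) / c := by ring
    _ ≤ (30 * W + 1300) / c * L ^ 2 := by
      rw [div_mul_eq_mul_div]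
      gcongr
      nlinarith [mul_le_mul_of_nonneg_left hL2 hW0]
    _ ≤ _ := by
      have : 0 ≤ C * L ^ 2 := by positivity
      linarith

/-- `ζ'/ζ` in a narrower region, at heights at least `5`. -/
theorem exists_logDeriv_region {c : ℝ} (hc : 0 < c) (hc1 : c ≤ 1)
    (h : ∀ s : ℂ, 1 - c / gauge s.im ≤ s.re → riemannZeta₁ s ≠ 0) :
    ∃ K, 0 ≤ K ∧ ∀ s : ℂ, 5 ≤ |s.im| → 1 - c / 5 / gauge s.im ≤ s.re → s.re ≤ 2 →
      ‖deriv riemannZeta s / riemannZeta s‖ ≤ K * ell s.im ^ 2 := by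
  obtain ⟨C, hC, hreal⟩ := FA.DLVP.exists_real_bound
  obtain ⟨D, hD, hzeta⟩ := exists_zeta_bound
  have hne : ∀ s : ℂ, 3 ≤ |s.im| → s ≠ 1 := fun s ht hh => by rw [hh] at ht; norm_num at ht
  refine exists_logDeriv_bound hc hc1 hD hC (fun s ht hσ hσ3 => hzeta s ht (by linarith) hσ3)
    (fun s ht => differentiableAt_riemannZeta (hne s ht)) (fun s ht hs => ?_)
    (fun δ t hδ hδ1 => FA.DLVP.zeta_lower hδ hδ1 t) fun s hs hs2 => ?_
  · rw [riemannZeta_eq_inv_sub_mul (hne s ht)]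
    exact mul_ne_zero (inv_ne_zero (sub_ne_zero.2 (hne s ht))) (h _ hs)
  · have h1 := hreal (s.re - 1) (by linarith) (by linarith)
    rw [add_sub_cancel] at h1
    exact (FA.DLVP.norm_logDeriv_zeta_le_real hs rfl).trans h1

theorem ell_pow_high : ∃ K, 1 ≤ K ∧ ∀ y : ℝ, ell y ^ 41 ≤ K * (1 + y ^ 2) ^ (1 / 4 : ℝ) := by
  refine ⟨(164 : ℝ) ^ 41 * 101, ?_, fun y => ?_⟩
  · exact one_le_mul_of_one_le_of_one_le (one_le_pow₀ (by norm_num)) (by norm_num)
  have hp : 0 < |y| + 100 := by positivity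
  have h := Real.log_le_rpow_div hp.le (show (0 : ℝ) < 1 / 164 by norm_num)
  calc ell y ^ 41 ≤ ((|y| + 100) ^ (1 / 164 : ℝ) / (1 / 164)) ^ 41 :=
        pow_le_pow_left₀ (ell_pos y).le h 41
    _ = (164 : ℝ) ^ 41 * (|y| + 100) ^ (1 / 4 : ℝ) := by
        rw [div_div_eq_mul_div, div_one, mul_pow, ← Real.rpow_natCast ((|y| + 100) ^ _) 41,
          ← Real.rpow_mul hp.le]
        norm_num
        ring
    _ ≤ (164 : ℝ) ^ 41 * (101 * (1 + y ^ 2) ^ (1 / 4 : ℝ)) := by
        refine mul_le_mul_of_nonneg_left ?_ (by positivity)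
        calc (|y| + 100) ^ (1 / 4 : ℝ) ≤ (101 * (1 + y ^ 2)) ^ (1 / 4 : ℝ) :=
              Real.rpow_le_rpow hp.le (by nlinarith [sq_abs y, sq_nonneg (|y| - 1)]) (by norm_num)
          _ = (101 : ℝ) ^ (1 / 4 : ℝ) * (1 + y ^ 2) ^ (1 / 4 : ℝ) :=
              Real.mul_rpow (by norm_num) (by positivity)
          _ ≤ _ := mul_le_mul_of_nonneg_right
              (Real.rpow_le_self_of_one_le (by norm_num) (by norm_num)) (by positivity)
    _ = _ := by ring

/-- **The region and the error function in it.** -/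
theorem exists_errLog_region : ∃ a C, 0 < a ∧ a ≤ 1 ∧ 0 ≤ C ∧ ∀ s : ℂ,
    1 - a / gauge s.im ≤ s.re → s.re ≤ 2 →
      riemannZeta₁ s ≠ 0 ∧ ‖errLog s‖ ≤ C * (1 + s.im ^ 2) ^ (1 / 4 : ℝ) := by
  obtain ⟨c, hc, hc1, h⟩ := exists_region
  obtain ⟨K, hK0, hK⟩ := exists_logDeriv_region hc hc1 h
  obtain ⟨D, hD, hzeta⟩ := exists_zeta_bound
  obtain ⟨P, hP1, hP⟩ := ell_pow_high
  have hin : ∀ s : ℂ, |s.im| ≤ 5 → 1 - c / gauge 5 ≤ s.re → riemannZeta₁ s ≠ 0 :=
    fun s ht hr => h s (by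
      have := div_le_div_of_nonneg_left hc.le (gauge_pos s.im)
        (gauge_mono (t := 5) (by rwa [abs_of_pos (by norm_num : (0 : ℝ) < 5)]))
      linarith)
  have hKc : IsCompact (Set.Icc (1 - c / gauge 5) 2 ×ℂ Set.Icc (-5 : ℝ) 5) :=
    IsCompact.reProdIm isCompact_Icc isCompact_Icc
  obtain ⟨M, hM⟩ := hKc.exists_bound_of_continuousOn (f := errLog) fun s hs =>
    ((differentiableAt_errLog (hin s (abs_le.2 (Complex.mem_reProdIm.1 hs).2)
      (Complex.mem_reProdIm.1 hs).1.1)).continuousAt).continuousWithinAt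
  have h5 := gauge_pos 5
  obtain ⟨a, ha⟩ : ∃ a, a = min (c / 5) (c / gauge 5) := ⟨_, rfl⟩
  have ha0 : 0 < a := ha ▸ lt_min (by positivity) (by positivity)
  have hac : a ≤ c / 5 := ha ▸ min_le_left _ _
  refine ⟨a, |M| + (K + D * Real.exp (2 * expConst)) * P, ha0, by linarith, by positivity,
    fun s hs hs2 => ?_⟩
  have hg := (gauge_bounds s.im).1
  have hag : a / gauge s.im ≤ c / gauge s.im :=
    div_le_div_of_nonneg_right (by linarith) (by linarith)
  have hz : riemannZeta₁ s ≠ 0 := h s (by linarith)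
  refine ⟨hz, ?_⟩
  have hone : 1 ≤ (1 + s.im ^ 2) ^ (1 / 4 : ℝ) :=
    Real.one_le_rpow (le_add_of_nonneg_right (sq_nonneg _)) (by norm_num)
  have n2 : 0 ≤ (K + D * Real.exp (2 * expConst)) * P * (1 + s.im ^ 2) ^ (1 / 4 : ℝ) := by
    positivity
  rcases le_total |s.im| 5 with ht | ht
  · have hr : 1 - c / gauge 5 ≤ s.re := by
      have : a / gauge s.im ≤ a := div_le_self ha0.le (by linarith)
      linarith [ha ▸ min_le_right (c / 5) (c / gauge 5)]
    refine ((hM s (Complex.mem_reProdIm.2 ⟨⟨hr, hs2⟩, abs_le.1 ht⟩)).trans (le_abs_self M)).trans ?_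
    rw [add_mul]
    linarith [le_mul_of_one_le_right (abs_nonneg M) hone]
  · have hs1 : s ≠ 1 := fun hh => by rw [hh] at ht; norm_num at ht
    have hzeta0 : riemannZeta s ≠ 0 := by
      rw [riemannZeta_eq_inv_sub_mul hs1]
      exact mul_ne_zero (inv_ne_zero (sub_ne_zero.2 hs1)) hz
    rw [errLog_eq hs1 hzeta0]
    refine (norm_sub_le _ _).trans ?_
    rw [neg_div, norm_neg]
    have hL := four_le_ell s.im
    have h1 : ‖deriv riemannZeta s / riemannZeta s‖ ≤ K * ell s.im ^ 41 :=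
      (hK s ht (le_trans (sub_le_sub_left (div_le_div_of_nonneg_right hac (by linarith)) _) hs)
        hs2).trans (mul_le_mul_of_nonneg_left (pow_le_pow_right₀ (by linarith) (by norm_num)) hK0)
    have hσ : 1 / 2 ≤ s.re := by
      have : a / gauge s.im ≤ a := div_le_self ha0.le (by linarith)
      linarith
    have h2 : ‖riemannZeta s‖ ≤ D * Real.exp (2 * expConst) * ell s.im ^ 41 := by
      refine (hzeta s (by linarith) hσ (by linarith)).trans ?_
      rw [mul_right_comm D]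
      refine mul_le_mul_of_nonneg_right (mul_le_mul_of_nonneg_left (Real.exp_le_exp.2 ?_) hD.le)
        (pow_nonneg (ell_pos _).le _)
      have h6 : max (1 - s.re) 0 ≤ 1 / gauge s.im :=
        max_le (by
          have := div_le_div_of_nonneg_right (show a ≤ 1 by linarith) (gauge_pos s.im).le
          linarith) (by positivity [gauge_pos s.im])
      have h7 : ell s.im ≤ gauge s.im ^ (3 / 2 : ℝ) := by
        rw [gauge, Real.mul_rpow (Real.rpow_nonneg (ell_pos _).le _)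
          (Real.rpow_nonneg (by linarith [one_le_log_ell s.im]) _),
          ← Real.rpow_mul (ell_pos _).le, ← Real.rpow_mul (by linarith [one_le_log_ell s.im]),
          show (2 / 3 : ℝ) * (3 / 2) = 1 by norm_num, Real.rpow_one]
        exact le_mul_of_one_le_right (ell_pos _).le
          (Real.one_le_rpow (one_le_log_ell _) (by norm_num))
      have h8 : max (1 - s.re) 0 ^ (3 / 2 : ℝ) * ell s.im ≤ 1 := by
        refine (mul_le_mul (Real.rpow_le_rpow (le_max_right _ _) h6 (by norm_num)) h7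
          (ell_pos _).le (by positivity [gauge_pos s.im])).trans (le_of_eq ?_)
        rw [← Real.mul_rpow (by positivity [gauge_pos s.im]) (gauge_pos _).le,
          one_div_mul_cancel (gauge_pos _).ne', Real.one_rpow]
      have hA : (0 : ℝ) ≤ expConst := by rw [expConst]; norm_num
      nlinarith
    have h9 := mul_le_mul_of_nonneg_left (hP s.im)
      (show 0 ≤ K + D * Real.exp (2 * expConst) by positivity)
    have n1 : 0 ≤ |M| * (1 + s.im ^ 2) ^ (1 / 4 : ℝ) := by positivity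
    linarith

end FA.Korobov

end
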