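import Fermat.Agent.Korobov.CharacterBound
import Fermat.Agent.Korobov.Region
import Fermat.Agent.SiegelWalfisz.Twisted
import Fermat.Agent.SiegelWalfisz.Region
import Mathlib.NumberTheory.LSeries.Nonvanishing
import Mathlib.Topology.MetricSpace.Thickening
import Mathlib.NumberTheory.DirichletCharacter.Orthogonality

/-!
# The region of Vinogradov and Korobov for `L(s, χ)`

For a fixed modulus and `χ ≠ 1`: `L(s, χ) ≠ 0` and `L'/L = O (log ^ 2 |t|)` for
`re s ≥ 1 - a / (L ^ (2/3) (log L) ^ (1/3))`, `L = ell t`. The inequality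
`3 + 4 cos θ + cos 2θ ≥ 0` for `ζ`, `χ`, `χ ^ 2` and Landau's lemma, as for `ζ`.
-/

set_option autoImplicit false

noncomputable section

namespace FA.Korobov

open Complex Metric FA.ZeroFree DirichletCharacter
open scoped ArithmeticFunction.vonMangoldt

variable {q : ℕ} [NeZero q]

/-- The lower bound at `1 + δ + it`. -/
theorem lfunction_lower (χ : DirichletCharacter ℂ q) {δ : ℝ} (hδ : 0 < δ) (hδ1 : δ ≤ 1) (t : ℝ) :
    δ / 4 ≤ ‖LFunction χ (((1 + δ : ℝ) : ℂ) + t * I)‖ := by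
  have h := SiegelWalfisz.norm_product_ge_one χ hδ t
  have e1 : (1 + δ + I * t : ℂ) = ((1 + δ : ℝ) : ℂ) + t * I := by push_cast; ring
  rw [e1] at h
  have hb : ∀ (ψ : DirichletCharacter ℂ q) (w : ℂ), w.re = 1 + δ → ‖LFunction ψ w‖ ≤ 4 / δ := by
    intro ψ w hw
    have h1 := SiegelWalfisz.norm_LFunction_le_div ψ (w := w) (by linarith) (by linarith)
    rwa [hw, add_sub_cancel_left] at h1
  have h1 : ‖LFunctionTrivChar q (1 + δ)‖ ≤ 4 / δ := hb 1 _ (by simp)
  have h2 := hb (χ ^ 2) (1 + δ + 2 * I * t) (by simp)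
  have h3 : (1 : ℝ) ≤ (4 / δ) ^ 3 * ‖LFunction χ (((1 + δ : ℝ) : ℂ) + t * I)‖ ^ 4 * (4 / δ) :=
    h.trans (mul_le_mul (mul_le_mul_of_nonneg_right
      (pow_le_pow_left₀ (norm_nonneg _) h1 3) (by positivity)) h2 (norm_nonneg _) (by positivity))
  refine le_of_pow_le_pow_left₀ four_ne_zero (norm_nonneg _) ?_
  have h4 := mul_le_mul_of_nonneg_left h3 (show (0 : ℝ) ≤ (δ / 4) ^ 4 by positivity)
  rw [mul_one] at h4
  refine h4.trans (le_of_eq ?_)
  field_simp

omit [NeZero q] in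
theorem term_twist (χ : DirichletCharacter ℂ q) {σ t : ℝ} {n : ℕ} (hn : n ≠ 0) :
    LSeries.term (fun k => χ k * (Λ k : ℂ)) ((σ : ℂ) + t * I) n =
      ((Λ n * (n : ℝ) ^ (-σ) : ℝ) : ℂ) * (χ n * Subconvexity.expI (Subconvexity.phase t n)) := by
  rw [LSeries.term_of_ne_zero hn, ← mul_one_div _ ((n : ℂ) ^ _),
    term_eq_weight (Nat.one_le_iff_ne_zero.2 hn)]
  push_cast
  ring

omit [NeZero q] in
/-- The `3-4-1` inequality with a character. -/
theorem three_four_one_twist (χ : DirichletCharacter ℂ q) {σ : ℝ} (hσ : 1 < σ) (t : ℝ) :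
    0 ≤ 3 * (LSeries (fun n => ((Λ n : ℝ) : ℂ)) (σ : ℂ)).re +
      4 * (LSeries (fun n => χ n * (Λ n : ℂ)) ((σ : ℂ) + t * I)).re +
      (LSeries (fun n => (χ ^ 2) n * (Λ n : ℂ)) ((σ : ℂ) + ((2 * t : ℝ) : ℂ) * I)).re := by
  have h0 := Complex.hasSum_re (ArithmeticFunction.LSeriesSummable_vonMangoldt
    (s := (σ : ℂ)) (by simpa using hσ)).LSeriesHasSum
  have hS : ∀ (ψ : DirichletCharacter ℂ q) (u : ℝ),
      LSeriesSummable (fun k => ψ k * (Λ k : ℂ)) ((σ : ℂ) + u * I) := fun ψ u =>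
    DirichletCharacter.LSeriesSummable_twist_vonMangoldt ψ (by simpa using hσ)
  have h1 := Complex.hasSum_re (hS χ t).LSeriesHasSum
  have h2 := Complex.hasSum_re (hS (χ ^ 2) (2 * t)).LSeriesHasSum
  refine ((h0.mul_left 3).add (h1.mul_left 4)).add h2 |>.nonneg fun n => ?_
  rcases eq_or_ne n 0 with rfl | hn
  · simp
  have e0 : LSeries.term (fun k => ((Λ k : ℝ) : ℂ)) (σ : ℂ) n =
      ((Λ n * (n : ℝ) ^ (-σ) : ℝ) : ℂ) := by
    rw [LSeries.term_of_ne_zero hn, Real.rpow_neg (Nat.cast_nonneg n)]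
    push_cast [Complex.ofReal_cpow (Nat.cast_nonneg n)]
    ring
  obtain ⟨z, hz⟩ : ∃ z : ℂ, z = χ n * Subconvexity.expI (Subconvexity.phase t n) := ⟨_, rfl⟩
  have e2 : (χ ^ 2) n * Subconvexity.expI (Subconvexity.phase (2 * t) n) = z ^ 2 := by
    rw [hz, mul_pow, MulChar.pow_apply' χ two_ne_zero, sq (Subconvexity.expI _),
      ← Subconvexity.expI_add]
    congr 2
    simp only [Subconvexity.phase]
    ring
  rw [e0, term_twist χ hn, term_twist (χ ^ 2) hn, e2, ← hz, ofReal_re, re_ofReal_mul,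
    re_ofReal_mul]
  have hr : 0 ≤ Λ n * (n : ℝ) ^ (-σ) :=
    mul_nonneg ArithmeticFunction.vonMangoldt_nonneg (by positivity)
  have hz1 : ‖z‖ ≤ 1 := by
    rw [hz, norm_mul, Subconvexity.norm_expI, mul_one]
    exact χ.norm_le_one _
  have hsq : z.re ^ 2 + z.im ^ 2 ≤ 1 := by
    have := Complex.sq_norm z
    rw [Complex.normSq_apply] at this
    nlinarith [norm_nonneg z]
  have h4 : 0 ≤ 3 + 4 * z.re + (z ^ 2).re := by
    rw [sq, mul_re]
    nlinarith [sq_nonneg (z.re + 1)]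
  nlinarith [mul_nonneg hr h4]

/-- `|L'/L (σ + it)| ≤ -ζ'/ζ (σ)`. -/
theorem norm_logDeriv_le_real (χ : DirichletCharacter ℂ q) {s : ℂ} (hs : 1 < s.re) :
    ‖deriv (LFunction χ) s / LFunction χ s‖ ≤
      (LSeries (fun n => ((Λ n : ℝ) : ℂ)) (s.re : ℂ)).re := by
  have hS : LSeriesSummable (fun k => χ k * (Λ k : ℂ)) s :=
    DirichletCharacter.LSeriesSummable_twist_vonMangoldt χ hs
  have hΛ := (ArithmeticFunction.LSeriesSummable_vonMangoldt (s := (s.re : ℂ))
    (by simpa using hs))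
  rw [← norm_neg, ← neg_div, ← SiegelWalfisz.twist_eq χ hs,
    ← (Complex.hasSum_re hΛ.LSeriesHasSum).tsum_eq]
  refine (norm_tsum_le_tsum_norm hS.norm).trans (Summable.tsum_le_tsum (fun n => ?_) hS.norm
    (Complex.hasSum_re hΛ.LSeriesHasSum).summable)
  rcases eq_or_ne n 0 with rfl | hn
  · simp
  rw [LSeries.norm_term_eq, if_neg hn, LSeries.term_of_ne_zero hn,
    ← Complex.ofReal_natCast n, ← Complex.ofReal_cpow (Nat.cast_nonneg n), ← Complex.ofReal_div,
    Complex.ofReal_re, norm_mul, Complex.norm_real,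
    Real.norm_of_nonneg ArithmeticFunction.vonMangoldt_nonneg]
  exact div_le_div_of_nonneg_right
    (mul_le_of_le_one_left ArithmeticFunction.vonMangoldt_nonneg (χ.norm_le_one _)) (by positivity)

/-- Landau's lemma for `L(s, χ)` on a disc around `1 + δ + it`. -/
theorem landau_char_disc (χ : DirichletCharacter ℂ q) {δ r t B : ℝ} (hδ : 0 < δ) (hδr : δ ≤ r)
    (hr : r ≤ 1 / 2) (ht : 2 ≤ |t|) (hB0 : 0 ≤ B)
    (hB : ∀ z : ℂ, ‖z‖ = r →
      ‖LFunction χ (((1 + δ : ℝ) : ℂ) + t * I + z)‖ ≤ B * (δ / 4)) :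
    (LSeries (fun n => χ n * (Λ n : ℂ)) (((1 + δ : ℝ) : ℂ) + t * I)).re ≤ 6 * Real.log B / r ∧
      ∀ β : ℝ, LFunction χ ((β : ℂ) + t * I) = 0 → 1 + δ - β ≤ r / 3 →
        (LSeries (fun n => χ n * (Λ n : ℂ)) (((1 + δ : ℝ) : ℂ) + t * I)).re ≤
          6 * Real.log B / r - 1 / (1 + δ - β) := by
  obtain ⟨s₀, hs₀⟩ : ∃ s₀ : ℂ, s₀ = ((1 + δ : ℝ) : ℂ) + t * I := ⟨_, rfl⟩
  have hre : s₀.re = 1 + δ := by simp [hs₀]
  have him : s₀.im = t := by simp [hs₀]
  rw [← hs₀] at hB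
  obtain ⟨f, hf⟩ : ∃ f : ℂ → ℂ, f = fun z => LFunction χ (s₀ + z) := ⟨_, rfl⟩
  have hne : ∀ z : ℂ, ‖z‖ < 1 → s₀ + z ≠ 1 := fun z hz h => by
    have h1 := congrArg Complex.im h
    simp only [add_im, him, one_im] at h1
    have h2 := abs_im_le_norm z
    rw [show z.im = -t by linarith, abs_neg] at h2
    linarith
  have hU : DifferentiableOn ℂ f (ball 0 1) := fun z hz => by
    rw [mem_ball_zero_iff] at hz
    rw [hf]
    exact ((differentiableAt_LFunction χ _ (Or.inl (hne z hz))).comp z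
      (differentiableAt_id.const_add s₀)).differentiableWithinAt
  have hsub : closedBall (0 : ℂ) r ⊆ ball 0 1 := closedBall_subset_ball (by linarith)
  have hlow : δ / 4 ≤ ‖f 0‖ := by
    simpa [hf, hs₀] using lfunction_lower χ hδ (by linarith) t
  have h0 : f 0 ≠ 0 := norm_pos_iff.1 (lt_of_lt_of_le (by positivity) hlow)
  have hb : ∀ z ∈ sphere (0 : ℂ) r, ‖f z‖ ≤ B * ‖f 0‖ := by
    intro z hz
    rw [mem_sphere_zero_iff_norm] at hz
    rw [hf]
    exact (hB z hz).trans (mul_le_mul_of_nonneg_left (by simpa [hf] using hlow) hB0)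
  have hz : ∀ z ∈ closedBall (0 : ℂ) (r / 3), f z = 0 → z.re < 0 := by
    intro z hz h
    rw [mem_closedBall_zero_iff] at hz
    rw [hf] at h
    by_contra hc
    exact LFunction_ne_zero_of_one_le_re χ (Or.inr (hne z (by linarith)))
      (by rw [add_re, hre]; linarith) h
  have hP : -(deriv f 0 / f 0).re =
      (LSeries (fun n => χ n * (Λ n : ℂ)) (((1 + δ : ℝ) : ℂ) + t * I)).re := by
    rw [← hs₀, SiegelWalfisz.twist_eq χ (by rw [hre]; linarith), neg_div, neg_re, hf,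
      deriv_comp_const_add]
    simp only [add_zero]
  refine ⟨?_, fun β hβ hβ1 => ?_⟩
  · have := DLVP.landau isOpen_ball hsub (by linarith) hU h0 hb hz
    rwa [hP] at this
  · have hβ' : β < 1 := by
      by_contra hc
      refine LFunction_ne_zero_of_one_le_re χ (Or.inr ?_) (by simpa using not_lt.1 hc) hβ
      intro h
      have := congrArg Complex.im h
      simp at this
      rw [this, abs_zero] at ht
      linarith
    obtain ⟨ρ, hρ⟩ : ∃ ρ : ℂ, ρ = ((-(1 + δ - β) : ℝ) : ℂ) := ⟨_, rfl⟩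
    have hρm : ρ ∈ closedBall (0 : ℂ) (r / 3) := by
      rw [mem_closedBall_zero_iff, hρ, Complex.norm_real, Real.norm_eq_abs, abs_neg,
        abs_of_pos (by linarith : 0 < 1 + δ - β)]
      linarith
    have hρ0 : f ρ = 0 := by
      simp only [hf, hs₀, hρ]
      rw [← hβ]
      congr 1
      push_cast
      ring
    have := DLVP.landau_zero isOpen_ball hsub (by linarith) hU h0 hb hz hρm hρ0
    rw [hP, hρ, ← ofReal_one, ← ofReal_div, ofReal_re, div_neg] at this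
    linarith

/-- **Zeros keep away from the line.** -/
theorem exists_char_region_high {χ : DirichletCharacter ℂ q} (hχ : χ ≠ 1) :
    ∃ c, 0 < c ∧ c ≤ 1 ∧ ∀ β t : ℝ, 4 ≤ |t| →
      LFunction χ ((β : ℂ) + t * I) = 0 → β ≤ 1 - c / gauge t := by
  obtain ⟨C, hC, hreal⟩ := FA.DLVP.exists_real_bound
  obtain ⟨D, hD, hbound⟩ := exists_lfunction_bound q
  obtain ⟨K₁, m₁, hK₁, hc₁⟩ := exists_circle_bound_of hD (hbound χ)
  obtain ⟨K₂, m₂, hK₂, hc₂⟩ := exists_circle_bound_of hD (hbound (χ ^ 2))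
  obtain ⟨c, hc, hc1, hgap⟩ := exists_zero_gap (m₁ + m₂) hC
    (one_le_mul_of_one_le_of_one_le hK₁ hK₂)
  refine ⟨c, hc, hc1, fun β t ht hz => hgap β t
    (fun δ => (LSeries (fun n => ((Λ n : ℝ) : ℂ)) ((1 + δ : ℝ) : ℂ)).re)
    (fun δ => (LSeries (fun n => χ n * (Λ n : ℂ)) (((1 + δ : ℝ) : ℂ) + t * I)).re)
    (fun δ => (LSeries (fun n => (χ ^ 2) n * (Λ n : ℂ))
      (((1 + δ : ℝ) : ℂ) + ((2 * t : ℝ) : ℂ) * I)).re) ?_
    (fun δ hδ hδ1 => ⟨three_four_one_twist χ (σ := 1 + δ) (by linarith) t, hreal δ hδ hδ1⟩)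
    fun δ B hδ hδ1 hδr hB0 hB => ?_⟩
  · by_contra hb
    exact LFunction_ne_zero_of_one_le_re χ (Or.inl hχ) (by simpa using not_lt.1 hb) hz
  obtain ⟨hr0, hr12, -, -⟩ := radius_facts t
  have hL := four_le_ell t
  have hp₁ : K₁ * ell t ^ m₁ ≤ K₁ * K₂ * ell t ^ (m₁ + m₂) :=
    mul_le_mul (le_mul_of_one_le_right (by linarith) hK₂)
      (pow_le_pow_right₀ (by linarith) (by omega)) (by positivity) (by positivity)
  have hp₂ : K₂ * ell t ^ m₂ ≤ K₁ * K₂ * ell t ^ (m₁ + m₂) :=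
    mul_le_mul (le_mul_of_one_le_left (by linarith) hK₁)
      (pow_le_pow_right₀ (by linarith) (by omega)) (by positivity) (by positivity)
  exact ⟨(landau_char_disc (χ ^ 2) hδ hδr hr12 (t := 2 * t) (by rw [abs_mul, abs_two]; linarith)
    hB0 fun z hz' => hB ▸ (hc₂ t (2 * t) z δ ht (Or.inr rfl) hδ.le hδ1 hz').trans hp₂).1, fun h =>
    (landau_char_disc χ hδ hδr hr12 (by linarith) hB0 fun z hz' =>
      hB ▸ (hc₁ t t z δ ht (Or.inl rfl) hδ.le hδ1 hz').trans hp₁).2 β hz h⟩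

/-- **The region and the logarithmic derivative in it**, for one character. -/
theorem exists_char_region_one {χ : DirichletCharacter ℂ q} (hχ : χ ≠ 1) :
    ∃ a C, 0 < a ∧ a ≤ 1 ∧ 0 ≤ C ∧ ∀ s : ℂ, 1 - a / gauge s.im ≤ s.re → s.re ≤ 2 →
      LFunction χ s ≠ 0 ∧ ‖deriv (LFunction χ) s / LFunction χ s‖ ≤ C * ell s.im ^ 2 := by
  obtain ⟨c, hc, hc1, hhigh⟩ := exists_char_region_high hχ
  have hdiff : Differentiable ℂ (LFunction χ) := differentiable_LFunction hχ
  have hone : ∀ s : ℂ, 1 ≤ s.re → LFunction χ s ≠ 0 := fun s hs =>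
    LFunction_ne_zero_of_one_le_re χ (Or.inl hχ) hs
  obtain ⟨d, hd, hdsub⟩ := (IsCompact.reProdIm (isCompact_Icc (a := (1 : ℝ)) (b := 2))
    (isCompact_Icc (a := (-5 : ℝ)) (b := 5))).exists_thickening_subset_open
    (t := {s | LFunction χ s ≠ 0}) (isOpen_ne_fun hdiff.continuous continuous_const)
    fun s hs => hone s (Complex.mem_reProdIm.1 hs).1.1
  have hlow : ∀ s : ℂ, |s.im| ≤ 5 → 1 - d / 2 ≤ s.re → LFunction χ s ≠ 0 := fun s ht hs => by
    rcases le_or_gt 1 s.re with h1 | h1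
    · exact hone s h1
    refine hdsub (mem_thickening_iff.2 ⟨(1 : ℝ) + s.im * I, Complex.mem_reProdIm.2
      ⟨by simp, by simpa using abs_le.1 ht⟩, ?_⟩)
    rw [dist_eq_norm, show s - (((1 : ℝ) : ℂ) + s.im * I) = ((s.re - 1 : ℝ) : ℂ) by
      apply Complex.ext <;> simp, Complex.norm_real, Real.norm_eq_abs, abs_of_neg (by linarith)]
    linarith
  obtain ⟨c', hc'⟩ : ∃ c', c' = min (c / 2) (d / 2) := ⟨_, rfl⟩
  have hc'0 : 0 < c' := hc' ▸ lt_min (by positivity) (by positivity)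
  have hc'1 : c' ≤ 1 := hc' ▸ (min_le_left _ _).trans (by linarith)
  have hnz : ∀ s : ℂ, 1 - c' / gauge s.im ≤ s.re → LFunction χ s ≠ 0 := fun s hs => by
    have hg := (gauge_bounds s.im).1
    rcases le_or_gt |s.im| 5 with ht | ht
    · refine hlow s ht (le_trans (sub_le_sub_left ?_ 1) hs)
      exact (div_le_self hc'0.le (by linarith)).trans (hc' ▸ min_le_right _ _)
    · intro hz
      have hb := hhigh s.re s.im (by linarith) (by rwa [Complex.re_add_im])
      have h2 : c' / gauge s.im ≤ c / 2 / gauge s.im :=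
        div_le_div_of_nonneg_right (hc' ▸ min_le_left _ _) (by linarith)
      have h3 : c / gauge s.im = c / 2 / gauge s.im + c / 2 / gauge s.im := by ring
      have h4 : 0 < c / 2 / gauge s.im := div_pos (by positivity) (gauge_pos _)
      linarith
  obtain ⟨C, hC, hreal⟩ := FA.DLVP.exists_real_bound
  obtain ⟨D, hD, hbound⟩ := exists_lfunction_bound q
  obtain ⟨K, hK0, hK⟩ := exists_logDeriv_bound hc'0 hc'1 hD hC (hbound χ)
    (fun s _ => hdiff s) (fun s _ => hnz s)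
    (fun δ t hδ hδ1 => lfunction_lower χ hδ hδ1 t) fun s hs hs2 => by
      have h1 := hreal (s.re - 1) (by linarith) (by linarith)
      rw [add_sub_cancel] at h1
      exact (norm_logDeriv_le_real χ hs).trans h1
  obtain ⟨a, ha⟩ : ∃ a, a = min (c' / 5) (c' / gauge 5) := ⟨_, rfl⟩
  have ha0 : 0 < a := ha ▸ lt_min (by positivity) (div_pos hc'0 (gauge_pos 5))
  have hac : a ≤ c' / 5 := ha ▸ min_le_left _ _
  have hin : ∀ s : ℂ, |s.im| ≤ 5 → 1 - c' / gauge 5 ≤ s.re → LFunction χ s ≠ 0 := fun s ht hr =>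
    hnz s (by
      have := div_le_div_of_nonneg_left hc'0.le (gauge_pos s.im)
        (gauge_mono (t := 5) (by rwa [abs_of_pos (by norm_num : (0 : ℝ) < 5)]))
      linarith)
  obtain ⟨M, hM⟩ := (IsCompact.reProdIm (isCompact_Icc (a := 1 - c' / gauge 5) (b := 2))
    (isCompact_Icc (a := (-5 : ℝ)) (b := 5))).exists_bound_of_continuousOn
    (f := fun s => deriv (LFunction χ) s / LFunction χ s) fun s hs =>
      (ContinuousAt.div ((hdiff.differentiableOn.analyticOnNhd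
        isOpen_univ).deriv _ (Set.mem_univ _)).continuousAt hdiff.continuous.continuousAt
        (hin s (abs_le.2 (Complex.mem_reProdIm.1 hs).2)
          (Complex.mem_reProdIm.1 hs).1.1)).continuousWithinAt
  refine ⟨a, |M| + K, ha0, by linarith, by positivity, fun s hs hs2 => ?_⟩
  have hg := (gauge_bounds s.im).1
  refine ⟨hnz s (le_trans (sub_le_sub_left (div_le_div_of_nonneg_right (by linarith)
    (by linarith)) _) hs), ?_⟩
  have hL : (1 : ℝ) ≤ ell s.im ^ 2 := one_le_pow₀ (by linarith [four_le_ell s.im])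
  rcases le_total |s.im| 5 with ht | ht
  · have hr : 1 - c' / gauge 5 ≤ s.re := by
      have : a / gauge s.im ≤ a := div_le_self ha0.le (by linarith)
      linarith [ha ▸ min_le_right (c' / 5) (c' / gauge 5)]
    refine ((hM s (Complex.mem_reProdIm.2 ⟨⟨hr, hs2⟩, abs_le.1 ht⟩)).trans (le_abs_self M)).trans
      ?_
    nlinarith [abs_nonneg M]
  · refine (hK s ht (le_trans (sub_le_sub_left (div_le_div_of_nonneg_right hac (by linarith)) _)
      hs) hs2).trans ?_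
    have : 0 ≤ |M| * ell s.im ^ 2 := by positivity
    linarith

/-- **The region of Vinogradov and Korobov**, for all characters of a modulus. -/
theorem exists_char_region (q : ℕ) [NeZero q] : ∃ a C, 0 < a ∧ a ≤ 1 ∧ 0 ≤ C ∧
    ∀ χ : DirichletCharacter ℂ q, χ ≠ 1 → ∀ s : ℂ, 1 - a / gauge s.im ≤ s.re → s.re ≤ 2 →
      LFunction χ s ≠ 0 ∧ ‖deriv (LFunction χ) s / LFunction χ s‖ ≤ C * ell s.im ^ 2 := by
  classical
  have h : ∀ χ : DirichletCharacter ℂ q, ∃ a C, 0 < a ∧ a ≤ 1 ∧ 0 ≤ C ∧ (χ ≠ 1 → ∀ s : ℂ,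
      1 - a / gauge s.im ≤ s.re → s.re ≤ 2 →
        LFunction χ s ≠ 0 ∧ ‖deriv (LFunction χ) s / LFunction χ s‖ ≤ C * ell s.im ^ 2) := by
    intro χ
    by_cases hχ : χ = 1
    · exact ⟨1, 0, one_pos, le_rfl, le_rfl, fun h => absurd hχ h⟩
    · obtain ⟨a, C, h1, h2, h3, h4⟩ := exists_char_region_one hχ
      exact ⟨a, C, h1, h2, h3, fun _ => h4⟩
  choose a C ha ha1 hC hh using h
  let _ : Fintype (DirichletCharacter ℂ q) := Fintype.ofFinite _
  obtain ⟨χ₀, -, hmin⟩ := Finset.exists_min_image Finset.univ a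
    (Finset.univ_nonempty (α := DirichletCharacter ℂ q))
  refine ⟨a χ₀, ∑ χ, C χ, ha _, ha1 _, Finset.sum_nonneg fun χ _ => hC χ, fun χ hχ s hs hs2 => ?_⟩
  obtain ⟨h1, h2⟩ := hh χ hχ s (le_trans (sub_le_sub_left (div_le_div_of_nonneg_right
    (hmin χ (Finset.mem_univ _)) (gauge_pos _).le) _) hs) hs2
  exact ⟨h1, h2.trans (mul_le_mul_of_nonneg_right
    (Finset.single_le_sum (fun χ _ => hC χ) (Finset.mem_univ χ))
    (pow_nonneg (ell_pos _).le _))⟩

end FA.Korobov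

end
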