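import Fermat.Agent.Korobov.Step
import Mathlib.Analysis.SpecialFunctions.Pow.Real
import Mathlib.NumberTheory.Bertrand

/-!
# Vinogradov's mean value theorem

`meanCount k (k r) P ≤ (64 k) ^ (32 k r (k² + r)) P ^ (2 k r - k (k + 1) / 2 + η)` with
`η = k² (1 - 1/k) ^ r / 2`.
-/

set_option autoImplicit false

noncomputable section

namespace FA.Korobov

open Finset

/-- `k² (1 - 1/k) ^ r / 2`. -/
def eta (k r : ℕ) : ℝ := (k : ℝ) ^ 2 / 2 * (1 - 1 / (k : ℝ)) ^ r

/-- `2 k r - k (k + 1) / 2 + η`. -/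
def mvExp (k r : ℕ) : ℝ := 2 * k * r - k * (k + 1) / 2 + eta k r

/-- The constant. -/
def mvConst (k r : ℕ) : ℝ := (64 * (k : ℝ)) ^ (32 * k * r * (k ^ 2 + r))

variable {k r P : ℕ}

theorem one_le_base (hk : 0 < k) : (1 : ℝ) ≤ 64 * k := by
  have : (1 : ℝ) ≤ k := by exact_mod_cast hk
  linarith

theorem eta_bounds (hk : 0 < k) (r : ℕ) :
    0 ≤ eta k r ∧ eta k r ≤ (k : ℝ) ^ 2 / 2 ∧ (k : ℝ) ^ 2 / 2 - r * k / 2 ≤ eta k r := by
  have h1 : 1 / (k : ℝ) ≤ 1 := by
    rw [div_le_one (by exact_mod_cast hk)]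
    exact_mod_cast hk
  have h0 : 0 ≤ 1 - 1 / (k : ℝ) := sub_nonneg.2 h1
  refine ⟨by rw [eta]; positivity, ?_, ?_⟩
  · exact mul_le_of_le_one_right (by positivity)
      (pow_le_one₀ h0 (sub_le_self 1 (by positivity)))
  · have h := one_add_mul_le_pow (a := -(1 / (k : ℝ))) (by linarith) r
    refine le_trans (le_of_eq ?_) (mul_le_mul_of_nonneg_left h (by positivity))
    field_simp
    ring

theorem mvExp_le (hk : 0 < k) (r : ℕ) : mvExp k r ≤ 2 * k * r := by
  have := (eta_bounds hk r).2.1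
  rw [mvExp]
  nlinarith [show (0 : ℝ) ≤ k from Nat.cast_nonneg k]

theorem le_mvExp (hk : 0 < k) (r : ℕ) : 3 / 2 * k * r - k / 2 ≤ mvExp k r := by
  have := (eta_bounds hk r).2.2
  rw [mvExp]
  nlinarith

theorem cast_half_pred (k : ℕ) : ((k * (k - 1) / 2 : ℕ) : ℝ) = (k : ℝ) * (k - 1) / 2 := by
  rw [Nat.cast_div (Nat.even_mul_pred_self k).two_dvd two_ne_zero, Nat.cast_mul]
  cases k <;> simp

/-- The number of solutions with `k` variables. -/
theorem meanCount_self_le (k P : ℕ) : meanCount k k P ≤ k ^ k * P ^ k := by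
  classical
  rw [meanCount, energy]
  refine (card_le_mul_card_image _ (k ^ k) (f := Prod.snd) fun y _ => ?_).trans
    (Nat.mul_le_mul_left _ ((card_le_card fun y hy => ?_).trans
      (show (box (range P) k).card ≤ P ^ k by simp [box])))
  · refine (card_le_card_of_injOn Prod.fst (fun z hz => ?_) fun z hz w hw e => ?_).trans
      (show (Fintype.piFinset fun _ : Fin k => univ.image y).card ≤ k ^ k from ?_)
    · rw [mem_coe, mem_filter, mem_filter] at hz
      rw [mem_coe, Fintype.mem_piFinset]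
      intro i
      obtain ⟨⟨-, he⟩, rfl⟩ := hz
      obtain ⟨l, hl⟩ := exists_eq_of_powerSums_eq (x := fun i => (z.1 i : ℤ))
        (y := fun i => (z.2 i : ℤ)) (fun j hj => by
          rw [mem_Icc] at hj
          simpa [powerSum, Nat.sub_add_cancel hj.1] using congrFun he ⟨j - 1, by omega⟩) i
      exact mem_image.2 ⟨l, mem_univ _, by exact_mod_cast hl.symm⟩
    · exact Prod.ext e ((mem_filter.1 hz).2.trans (mem_filter.1 hw).2.symm)
    · rw [Fintype.card_piFinset, prod_const, card_univ, Fintype.card_fin]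
      exact Nat.pow_le_pow_left (card_image_le.trans (by simp)) k
  · obtain ⟨z, hz, rfl⟩ := mem_image.1 hy
    exact (mem_product.1 (mem_filter.1 hz).1).2

theorem meanCount_le_trivial (k s P : ℕ) : meanCount k s P ≤ P ^ (2 * s) := by
  refine (energy_le_sq_card _ _).trans (le_of_eq ?_)
  simp [box, ← pow_mul, mul_comm]

theorem const_good {k r : ℕ} (hk : 0 < k) (hr : 1 ≤ r) :
    2 * ((((k * (r + 1)) ^ k : ℕ) : ℝ)) ^ 2 * 4 ^ (2 * (k * r)) * ((k * r : ℕ) : ℝ) *
      (k : ℝ) ^ k * 4 ^ (k * (k - 1) / 2) * 2 ^ (2 * (k * r)) * mvConst k r * 2 ≤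
        mvConst k (r + 1) := by
  have hX := one_le_base hk
  obtain ⟨X, hXdef⟩ : ∃ X : ℝ, X = 64 * (k : ℝ) := ⟨_, rfl⟩
  have hk1 : (1 : ℝ) ≤ k := by exact_mod_cast hk
  have h2 : (2 : ℝ) ≤ X := by linarith
  have h4 : (4 : ℝ) ≤ X := by linarith
  have hkX : (k : ℝ) ≤ X := by linarith
  have hn : ∀ m : ℕ, m ≤ r + 1 → ((k * m : ℕ) : ℝ) ≤ X ^ (r + 2) := fun m hm => by
    have h5 : (m : ℝ) ≤ X ^ (r + 1) := by
      refine le_trans ?_ (pow_le_pow_left₀ two_pos.le h2 _)
      exact_mod_cast le_trans hm (Nat.lt_two_pow_self).le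
    push_cast
    calc (k : ℝ) * m ≤ X * X ^ (r + 1) := mul_le_mul hkX h5 (Nat.cast_nonneg _) (by linarith)
      _ = _ := by ring
  calc 2 * ((((k * (r + 1)) ^ k : ℕ) : ℝ)) ^ 2 * 4 ^ (2 * (k * r)) * ((k * r : ℕ) : ℝ) *
      (k : ℝ) ^ k * 4 ^ (k * (k - 1) / 2) * 2 ^ (2 * (k * r)) * mvConst k r * 2
      ≤ X * ((X ^ (r + 2)) ^ k) ^ 2 * X ^ (2 * (k * r)) * X ^ (r + 2) *
        X ^ k * X ^ (k * k) * X ^ (2 * (k * r)) * mvConst k r * X := by
        have e1 := hn (r + 1) le_rfl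
        have e2 := hn r (Nat.le_succ r)
        have e3 : (4 : ℝ) ^ (k * (k - 1) / 2) ≤ X ^ (k * k) :=
          (pow_le_pow_left₀ (by norm_num) h4 _).trans (pow_le_pow_right₀ (by linarith)
            ((Nat.div_le_self _ _).trans (Nat.mul_le_mul_left _ (Nat.sub_le _ _))))
        have e4 : 0 ≤ mvConst k r := by rw [mvConst]; positivity
        have hX0 : 0 ≤ X := by linarith
        rw [Nat.cast_pow]
        gcongr
    _ ≤ _ := by
        simp only [mvConst, ← hXdef, ← pow_mul, ← pow_succ', ← pow_succ, ← pow_add]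
        refine pow_le_pow_right₀ (by linarith) ?_
        nlinarith [Nat.mul_le_mul hk hr, Nat.mul_le_mul (Nat.mul_le_mul hk hk) hr,
          Nat.mul_le_mul (Nat.mul_le_mul hk hk) hk]

theorem const_bad {k r : ℕ} (hk : 0 < k) (hr : 1 ≤ r) :
    4 * 4 ^ (2 * k) * (k : ℝ) ^ (2 * (k * (r + 1))) * ((k * (r + 1) : ℕ) : ℝ) *
      2 ^ (2 * (k * (r + 1))) ≤ (64 * (k : ℝ)) ^ (16 * (k * r)) := by
  have hX := one_le_base hk
  obtain ⟨X, hXdef⟩ : ∃ X : ℝ, X = 64 * (k : ℝ) := ⟨_, rfl⟩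
  have hk1 : (1 : ℝ) ≤ k := by exact_mod_cast hk
  have hn : ((k * (r + 1) : ℕ) : ℝ) ≤ X ^ (r + 2) := by
    have h5 : ((r + 1 : ℕ) : ℝ) ≤ X ^ (r + 1) := by
      refine le_trans ?_ (pow_le_pow_left₀ two_pos.le (by linarith : (2 : ℝ) ≤ X) _)
      exact_mod_cast (Nat.lt_two_pow_self).le
    rw [Nat.cast_mul]
    calc (k : ℝ) * ((r + 1 : ℕ) : ℝ) ≤ X * X ^ (r + 1) :=
          mul_le_mul (by linarith) h5 (Nat.cast_nonneg _) (by linarith)
      _ = _ := by ring
  calc 4 * 4 ^ (2 * k) * (k : ℝ) ^ (2 * (k * (r + 1))) * ((k * (r + 1) : ℕ) : ℝ) *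
      2 ^ (2 * (k * (r + 1))) = 4 * 4 ^ (2 * k) * ((k : ℝ) * 2) ^ (2 * (k * (r + 1))) *
        ((k * (r + 1) : ℕ) : ℝ) := by rw [mul_pow]; ring
    _ ≤ X * X ^ (2 * k) * X ^ (2 * (k * (r + 1))) * X ^ (r + 2) := by
        gcongr <;> first | linarith | (rw [hXdef]; positivity)
    _ ≤ _ := by
        rw [← hXdef, ← pow_succ', ← pow_add, ← pow_add]
        refine pow_le_pow_right₀ (by linarith) ?_
        nlinarith [Nat.mul_le_mul hk hr]

theorem mvExp_step (hk : 0 < k) (r : ℕ) : (2 * k * r + (k : ℝ) * (k - 1) / 2) / k + k +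
    (1 - 1 / (k : ℝ)) * mvExp k r = mvExp k (r + 1) := by
  have key : (2 * k * r + (k : ℝ) * (k - 1) / 2) / k + k +
      (1 - 1 / (k : ℝ)) * (2 * k * r - k * (k + 1) / 2) =
        2 * k * (r + 1) - k * (k + 1) / 2 := by
    field_simp
    ring
  rw [mvExp, mvExp, eta, eta, pow_succ]
  push_cast
  linear_combination key

/-- **Vinogradov's mean value theorem.** -/
theorem meanCount_le (hk : 0 < k) : ∀ r, 1 ≤ r → ∀ P, 1 ≤ P →
    (meanCount k (k * r) P : ℝ) ≤ mvConst k r * (P : ℝ) ^ mvExp k r := by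
  have hk1 : (1 : ℝ) ≤ k := by exact_mod_cast hk
  have hX := one_le_base hk
  intro r hr
  induction r, hr using Nat.le_induction with
  | base =>
    intro P hP
    rw [mul_one]
    have e : mvExp k 1 = (k : ℝ) := by
      rw [mvExp, eta, pow_one, Nat.cast_one]
      field_simp
      ring
    rw [e, Real.rpow_natCast]
    calc (meanCount k k P : ℝ) ≤ ((k ^ k * P ^ k : ℕ) : ℝ) :=
          Nat.cast_le.2 (meanCount_self_le k P)
      _ ≤ _ := by
          push_cast
          refine mul_le_mul_of_nonneg_right ?_ (by positivity)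
          rw [mvConst]
          exact (pow_le_pow_left₀ (Nat.cast_nonneg k) (by linarith) k).trans
            (pow_le_pow_right₀ hX (by nlinarith))
  | succ r hr ih =>
    intro P
    induction P using Nat.strong_induction_on with
    | _ P ihP =>
    intro hP
    have hP1 : (1 : ℝ) ≤ P := by exact_mod_cast hP
    have hC : 0 ≤ mvConst k (r + 1) := by rw [mvConst]; positivity
    rcases le_or_gt (P : ℝ) ((64 * (k : ℝ)) ^ (32 * k)) with hsmall | hbig
    · calc (meanCount k (k * (r + 1)) P : ℝ) ≤ ((P ^ (2 * (k * (r + 1))) : ℕ) : ℝ) :=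
            Nat.cast_le.2 (meanCount_le_trivial _ _ _)
        _ = (P : ℝ) ^ ((k : ℝ) * (k + 1) / 2 - eta k (r + 1)) *
            (P : ℝ) ^ mvExp k (r + 1) := by
            rw [Nat.cast_pow, ← Real.rpow_natCast, ← Real.rpow_add (by linarith), mvExp]
            congr 1
            push_cast
            ring
        _ ≤ _ := by
            refine mul_le_mul_of_nonneg_right ?_ (Real.rpow_nonneg (by linarith) _)
            calc (P : ℝ) ^ ((k : ℝ) * (k + 1) / 2 - eta k (r + 1))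
                ≤ (P : ℝ) ^ ((k * k : ℕ) : ℝ) := by
                  refine Real.rpow_le_rpow_of_exponent_le hP1 ?_
                  have := (eta_bounds hk (r + 1)).1
                  push_cast
                  nlinarith
              _ = (P : ℝ) ^ (k * k) := Real.rpow_natCast _ _
              _ ≤ ((64 * (k : ℝ)) ^ (32 * k)) ^ (k * k) :=
                  pow_le_pow_left₀ (by linarith) hsmall _
              _ ≤ _ := by
                  rw [mvConst, ← pow_mul]
                  refine pow_le_pow_right₀ hX ?_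
                  calc 32 * k * (k * k) = 32 * k * 1 * (k ^ 2) := by ring
                    _ ≤ _ := Nat.mul_le_mul (Nat.mul_le_mul_left _ (by omega)) (by omega)
    obtain ⟨y, hy⟩ : ∃ y : ℝ, y = (P : ℝ) ^ (1 / (k : ℝ)) := ⟨_, rfl⟩
    have hP0 : (0 : ℝ) < P := by linarith
    have hy1 : 1 ≤ y := hy ▸ Real.one_le_rpow hP1 (by positivity)
    have hyk : y ^ k = (P : ℝ) := by
      rw [hy, ← Real.rpow_natCast, ← Real.rpow_mul hP0.le, one_div_mul_cancel (by positivity),
        Real.rpow_one]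
    have hky : (k : ℝ) ≤ y := by
      rw [← pow_le_pow_iff_left₀ (Nat.cast_nonneg k) (by linarith) hk.ne', hyk]
      refine le_trans ?_ hbig.le
      exact (pow_le_pow_left₀ (Nat.cast_nonneg k) (by linarith) k).trans
        (pow_le_pow_right₀ hX (by omega))
    obtain ⟨p, hp, hpY, hp2⟩ := Nat.exists_prime_lt_and_le_two_mul ⌈y⌉₊
      (Nat.ceil_pos.2 (by linarith)).ne'
    have hyp : y < p := lt_of_le_of_lt (Nat.le_ceil y) (by exact_mod_cast hpY)
    have hp4 : (p : ℝ) ≤ 4 * y := by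
      have h1 : (p : ℝ) ≤ 2 * (⌈y⌉₊ : ℝ) := by exact_mod_cast hp2
      linarith [Nat.ceil_lt_add_one (by linarith : 0 ≤ y)]
    have hkp : k < p := by exact_mod_cast hky.trans_lt hyp
    have hPp : P ≤ p ^ k := by
      exact_mod_cast hyk ▸ pow_le_pow_left₀ (by linarith) hyp.le k
    have hs : 0 < k * r := Nat.mul_pos hk hr
    have hstep := meanCount_step (s := k * r) hp hk hkp hPp hs
    rw [show k + k * r = k * (r + 1) by ring] at hstep
    obtain ⟨Q, hQ⟩ : ∃ Q, Q = P / p + 1 := ⟨_, rfl⟩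
    rw [← hQ] at hstep
    have hP3 : 3 ≤ P := by
      have h3 : (64 : ℝ) ≤ (64 * (k : ℝ)) ^ (32 * k) :=
        le_trans (by linarith) (le_self_pow₀ hX (by omega))
      have : (3 : ℝ) ≤ P := by linarith
      exact_mod_cast this
    have hQlt : Q < P := by
      have : P / p ≤ P / 2 := Nat.div_le_div_left hp.two_le two_pos
      omega
    have hQb : (Q : ℝ) ≤ 2 * (P : ℝ) ^ (1 - 1 / (k : ℝ)) := by
      have h1 : ((P / p : ℕ) : ℝ) ≤ (P : ℝ) ^ (1 - 1 / (k : ℝ)) := by
        refine Nat.cast_div_le.trans ?_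
        rw [Real.rpow_sub hP0, Real.rpow_one, ← hy]
        exact div_le_div_of_nonneg_left hP0.le (by linarith) hyp.le
      have h2 : 1 ≤ (P : ℝ) ^ (1 - 1 / (k : ℝ)) := Real.one_le_rpow hP1 (by
        rw [sub_nonneg, div_le_one (by linarith)]; exact hk1)
      rw [hQ]
      push_cast
      linarith
    have hQpow : ∀ m : ℕ, ∀ E : ℝ, 0 ≤ E → E ≤ m →
        (Q : ℝ) ^ E ≤ 2 ^ m * (P : ℝ) ^ ((1 - 1 / (k : ℝ)) * E) := fun m E h0 hm => by
      calc (Q : ℝ) ^ E ≤ (2 * (P : ℝ) ^ (1 - 1 / (k : ℝ))) ^ E :=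
            Real.rpow_le_rpow (Nat.cast_nonneg _) hQb h0
        _ = 2 ^ E * (P : ℝ) ^ ((1 - 1 / (k : ℝ)) * E) := by
            rw [Real.mul_rpow two_pos.le (by positivity), ← Real.rpow_mul hP0.le]
        _ ≤ _ := by
            refine mul_le_mul_of_nonneg_right ?_ (by positivity)
            rw [← Real.rpow_natCast]
            exact Real.rpow_le_rpow_of_exponent_le one_le_two hm
    have hppow : ∀ m : ℕ, (p : ℝ) ^ m ≤ 4 ^ m * (P : ℝ) ^ ((m : ℝ) / k) := fun m => by
      refine (pow_le_pow_left₀ (Nat.cast_nonneg p) hp4 m).trans (le_of_eq ?_)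
      rw [mul_pow, hy, ← Real.rpow_natCast _ m, ← Real.rpow_natCast _ m, ← Real.rpow_mul hP0.le,
        one_div_mul_eq_div]
    have hQ1 : 1 ≤ Q := hQ ▸ Nat.le_add_left _ _
    have hJs : (meanCount k (k * r) Q : ℝ) ≤ mvConst k r *
        (2 ^ (2 * (k * r)) * (P : ℝ) ^ ((1 - 1 / (k : ℝ)) * mvExp k r)) := by
      refine (ih Q hQ1).trans (mul_le_mul_of_nonneg_left (hQpow _ _ ?_ ?_)
        (by rw [mvConst]; positivity))
      · have := le_mvExp hk r
        have : (1 : ℝ) ≤ r := by exact_mod_cast hr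
        nlinarith
      · push_cast
        linarith [mvExp_le hk r]
    have hJn : (meanCount k (k * (r + 1)) Q : ℝ) ≤ mvConst k (r + 1) *
        (2 ^ (2 * (k * (r + 1))) * (P : ℝ) ^ ((1 - 1 / (k : ℝ)) * mvExp k (r + 1))) := by
      refine (ihP Q hQlt hQ1).trans (mul_le_mul_of_nonneg_left (hQpow _ _ ?_ ?_) hC)
      · have := le_mvExp hk (r + 1)
        push_cast at this
        nlinarith
      · have := mvExp_le hk (r + 1)
        push_cast at this ⊢
        linarith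
    have hgood : ((2 * ((k * (r + 1)) ^ k) ^ 2 * ((p ^ (k * r)) ^ 2 * (k * r) *
        (P ^ k * (k ^ k * p ^ (k * (k - 1) / 2)) * meanCount k (k * r) Q)) : ℕ) : ℝ) ≤
          mvConst k (r + 1) / 2 * (P : ℝ) ^ mvExp k (r + 1) := by
      have e : ((P : ℝ) ^ (((2 * (k * r) : ℕ) : ℝ) / k) * (P : ℝ) ^ ((k : ℕ) : ℝ) *
          (P : ℝ) ^ (((k * (k - 1) / 2 : ℕ) : ℝ) / k) *
          (P : ℝ) ^ ((1 - 1 / (k : ℝ)) * mvExp k r)) = (P : ℝ) ^ mvExp k (r + 1) := by
        rw [← Real.rpow_add hP0, ← Real.rpow_add hP0, ← Real.rpow_add hP0, cast_half_pred,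
          ← mvExp_step hk r]
        congr 1
        push_cast
        ring
      rw [Real.rpow_natCast] at e
      simp only [Nat.cast_mul, Nat.cast_pow, Nat.cast_ofNat]
      rw [← pow_mul (p : ℝ), mul_comm (k * r) 2]
      calc 2 * (((k : ℝ) * ((r + 1 : ℕ) : ℝ)) ^ k) ^ 2 * ((p : ℝ) ^ (2 * (k * r)) * (k * r) *
          ((P : ℝ) ^ k * ((k : ℝ) ^ k * (p : ℝ) ^ (k * (k - 1) / 2)) *
            meanCount k (k * r) Q))
          ≤ 2 * (((k : ℝ) * ((r + 1 : ℕ) : ℝ)) ^ k) ^ 2 *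
            ((4 ^ (2 * (k * r)) * (P : ℝ) ^ (((2 * (k * r) : ℕ) : ℝ) / k)) * (k * r) *
              ((P : ℝ) ^ k * ((k : ℝ) ^ k * (4 ^ (k * (k - 1) / 2) *
                (P : ℝ) ^ (((k * (k - 1) / 2 : ℕ) : ℝ) / k))) * (mvConst k r *
        (2 ^ (2 * (k * r)) * (P : ℝ) ^ ((1 - 1 / (k : ℝ)) * mvExp k r))))) := by
            have := hppow (2 * (k * r))
            have := hppow (k * (k - 1) / 2)
            gcongr
        _ = (2 * ((((k * (r + 1)) ^ k : ℕ) : ℝ)) ^ 2 * 4 ^ (2 * (k * r)) * ((k * r : ℕ) : ℝ) *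
            (k : ℝ) ^ k * 4 ^ (k * (k - 1) / 2) * 2 ^ (2 * (k * r)) * mvConst k r * 2) / 2 *
            (P : ℝ) ^ mvExp k (r + 1) := by
            rw [← e]
            push_cast
            ring
        _ ≤ _ := mul_le_mul_of_nonneg_right
            (div_le_div_of_nonneg_right (const_good hk hr) two_pos.le)
            (Real.rpow_nonneg hP0.le _)
    have hbad : ((2 * (p ^ (k - 1) * (k - 1) ^ (k * (r + 1))) ^ 2 * (k * (r + 1)) *
        meanCount k (k * (r + 1)) Q : ℕ) : ℝ) ≤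
          mvConst k (r + 1) / 2 * (P : ℝ) ^ mvExp k (r + 1) := by
      obtain ⟨n, hn⟩ : ∃ n, n = k * (r + 1) := ⟨_, rfl⟩
      rw [← hn] at hJn ⊢
      have hb := const_bad hk hr
      rw [← hn] at hb
      have h1 : ((p ^ (k - 1) * (k - 1) ^ n : ℕ) : ℝ) ^ 2 ≤
          4 ^ (2 * k) * (P : ℝ) ^ (2 : ℝ) * (k : ℝ) ^ (2 * n) := by
        have h2 : (p : ℝ) ^ (2 * k) ≤ 4 ^ (2 * k) * (P : ℝ) ^ (2 : ℝ) := by
          refine (hppow _).trans (le_of_eq ?_)
          congr 2
          push_cast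
          field_simp
        have hp1 : (1 : ℝ) ≤ p := by exact_mod_cast hp.one_le
        push_cast
        rw [mul_pow, ← pow_mul, ← pow_mul]
        refine mul_le_mul ((pow_le_pow_right₀ hp1 (by omega)).trans h2) ?_ (by positivity)
          (by positivity)
        rw [mul_comm n 2]
        exact pow_le_pow_left₀ (Nat.cast_nonneg _) (by exact_mod_cast Nat.sub_le k 1) _
      have hPbig : 4 * 4 ^ (2 * k) * (k : ℝ) ^ (2 * n) * (n : ℝ) * 2 ^ (2 * n) *
          (P : ℝ) ^ (2 : ℝ) ≤ (P : ℝ) ^ (mvExp k (r + 1) / k) := by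
        rw [show mvExp k (r + 1) / k = (mvExp k (r + 1) / k - 2) + 2 by ring,
          Real.rpow_add hP0]
        refine mul_le_mul_of_nonneg_right (hb.trans ?_) (by positivity)
        have hE : (r : ℝ) / 2 ≤ mvExp k (r + 1) / k - 2 := by
          have := le_mvExp hk (r + 1)
          rw [le_sub_iff_add_le, le_div_iff₀ (by linarith)]
          push_cast at this
          have : (1 : ℝ) ≤ r := by exact_mod_cast hr
          nlinarith
        calc (64 * (k : ℝ)) ^ (16 * (k * r))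
            = ((64 * (k : ℝ)) ^ (32 * k)) ^ ((r : ℝ) / 2) := by
              rw [← Real.rpow_natCast _ (32 * k), ← Real.rpow_mul (by linarith),
                ← Real.rpow_natCast]
              congr 1
              push_cast
              ring
          _ ≤ (P : ℝ) ^ ((r : ℝ) / 2) := Real.rpow_le_rpow (by positivity) hbig.le (by positivity)
          _ ≤ _ := Real.rpow_le_rpow_of_exponent_le hP1 hE
      rw [Nat.cast_mul, Nat.cast_mul, Nat.cast_mul, Nat.cast_pow, Nat.cast_ofNat]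
      calc 2 * ((p ^ (k - 1) * (k - 1) ^ n : ℕ) : ℝ) ^ 2 * (n : ℝ) * meanCount k n Q
          ≤ 2 * (4 ^ (2 * k) * (P : ℝ) ^ (2 : ℝ) * (k : ℝ) ^ (2 * n)) * (n : ℝ) *
            (mvConst k (r + 1) * (2 ^ (2 * n) *
              (P : ℝ) ^ ((1 - 1 / (k : ℝ)) * mvExp k (r + 1)))) := by gcongr
        _ = mvConst k (r + 1) / 2 * ((4 * 4 ^ (2 * k) * (k : ℝ) ^ (2 * n) * (n : ℝ) *
            2 ^ (2 * n) * (P : ℝ) ^ (2 : ℝ)) *
              (P : ℝ) ^ ((1 - 1 / (k : ℝ)) * mvExp k (r + 1))) := by ring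
        _ ≤ mvConst k (r + 1) / 2 * ((P : ℝ) ^ (mvExp k (r + 1) / k) *
              (P : ℝ) ^ ((1 - 1 / (k : ℝ)) * mvExp k (r + 1))) := by gcongr
        _ = _ := by
            rw [← Real.rpow_add hP0]
            congr 2
            ring
    calc (meanCount k (k * (r + 1)) P : ℝ) ≤ _ := Nat.cast_le.2 hstep
      _ ≤ mvConst k (r + 1) / 2 * (P : ℝ) ^ mvExp k (r + 1) +
          mvConst k (r + 1) / 2 * (P : ℝ) ^ mvExp k (r + 1) := by
          rw [Nat.cast_add]
          exact add_le_add hgood hbad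
      _ = _ := by ring

end FA.Korobov

end
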