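import Fermat.Agent.Korobov.MeanValue
import Fermat.Agent.Subconvexity.SecondDerivative
import Mathlib.NumberTheory.Harmonic.Bounds
import Mathlib.Algebra.Order.Round

/-!
# Vinogradov's bilinear sum

`∑_{x, y < M} e (∑ α j x ^ j y ^ j)` is bounded by two mean values and the sums
`∑_{|d| ≤ U} |∑_{l ≤ U} e (α j d l)|`, `U = s M ^ j`, which are small when `1/U² < α j < 1`.
-/

set_option autoImplicit false

noncomputable section

namespace FA.Korobov

open Finset FA.Subconvexity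
open scoped Real

/-- `∑_{|d| ≤ U} |∑_{l ≤ U} e (θ d l)|`. -/
def linForm (θ : ℝ) (U : ℕ) : ℝ :=
  ∑ d ∈ Icc (-(U : ℤ)) U, ‖∑ l ∈ range (U + 1), expI (θ * d * l)‖

theorem linForm_nonneg (θ : ℝ) (U : ℕ) : 0 ≤ linForm θ U := sum_nonneg fun _ _ => norm_nonneg _

theorem linForm_neg (θ : ℝ) (U : ℕ) : linForm (-θ) U = linForm θ U := by
  refine sum_congr rfl fun d _ => ?_
  rw [← norm_sum_expI_neg (range (U + 1)) fun l => θ * d * (l : ℝ)]
  congr 2
  funext l
  congr 1
  ring

theorem linForm_abs (θ : ℝ) (U : ℕ) : linForm |θ| U = linForm θ U := by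
  rcases abs_choice θ with h | h <;> rw [h]
  exact linForm_neg θ U

theorem norm_sum_range_expI_le_card (δ : ℕ → ℝ) (U : ℕ) :
    ‖∑ l ∈ range U, expI (δ l)‖ ≤ U :=
  (norm_sum_le _ _).trans (by simp [norm_expI])

theorem linForm_trivial (θ : ℝ) (U : ℕ) : linForm θ U ≤ (2 * U + 1) * (U + 1) := by
  refine (sum_le_card_nsmul _ _ _ fun d _ => norm_sum_range_expI_le_card _ _).trans (le_of_eq ?_)
  rw [Int.card_Icc, nsmul_eq_mul, show ((U : ℤ) + 1 - -(U : ℤ)).toNat = 2 * U + 1 by omega]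
  push_cast
  ring

theorem norm_geom_expI_le {δ : ℝ} (hδ : |δ| ≤ π) (hδ0 : δ ≠ 0) (U : ℕ) :
    ‖∑ l ∈ range U, expI (δ * l)‖ ≤ π / |δ| := by
  have hp : ∀ l : ℕ, expI (δ * l) = expI δ ^ l := fun l => by
    rw [expI, expI, ← Complex.exp_nat_mul]
    push_cast
    ring_nf
  have hlow : 2 / π * |δ| ≤ ‖expI δ - 1‖ := by
    have h := Real.mul_abs_le_abs_sin (x := δ / 2) (by rw [abs_div, abs_two]; linarith)
    rw [abs_div, abs_two] at h
    rw [expI, mul_comm (δ : ℂ), Complex.norm_exp_I_mul_ofReal_sub_one, norm_mul, Real.norm_ofNat,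
      Real.norm_eq_abs]
    linarith
  have hpos : 0 < 2 / π * |δ| := mul_pos (by positivity) (abs_pos.2 hδ0)
  have hz : expI δ ≠ 1 := fun h => by
    rw [h, sub_self, norm_zero] at hlow
    linarith
  simp only [hp]
  rw [geom_sum_eq hz, norm_div]
  calc ‖expI δ ^ U - 1‖ / ‖expI δ - 1‖ ≤ 2 / (2 / π * |δ|) :=
        div_le_div₀ two_pos.le ((norm_sub_le _ _).trans (by
          rw [norm_pow, norm_expI, one_pow, norm_one]; norm_num)) hpos hlow
    _ = π / |δ| := by field_simp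

/-- **The estimate for the linear forms.** -/
theorem linForm_le {θ : ℝ} (h0 : 0 < θ) (h1 : θ ≤ 1) (U : ℕ) :
    linForm θ U ≤ (θ * U + 3) * (4 * (U + 1) + 7 / θ * (1 + Real.log (9 / θ))) := by
  obtain ⟨h, hh⟩ : ∃ h : ℕ → ℝ,
      h = fun m => if m ≤ 1 then (U : ℝ) + 1 else π / (θ * ((m - 1 : ℕ) : ℝ)) := ⟨_, rfl⟩
  have hh0 : ∀ m, 0 ≤ h m := fun m => by
    rw [hh]; dsimp only; split_ifs <;> positivity
  obtain ⟨m, hm⟩ : ∃ m : ℤ → ℤ, m = fun d : ℤ => round (θ * (d : ℝ) / (2 * π)) := ⟨_, rfl⟩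
  obtain ⟨e, he⟩ : ∃ e : ℤ → ℤ, e = fun d => d - ⌊2 * π * (m d) / θ⌋ := ⟨_, rfl⟩
  have hδ : ∀ d : ℤ, |θ * d - 2 * π * m d| ≤ π := fun d => by
    have h := abs_sub_round (θ * d / (2 * π))
    rw [hm, show θ * d - 2 * π * ((round (θ * d / (2 * π)) : ℤ) : ℝ) =
      2 * π * (θ * d / (2 * π) - (round (θ * d / (2 * π)) : ℤ)) by field_simp,
      abs_mul, abs_of_pos Real.two_pi_pos]
    refine (mul_le_mul_of_nonneg_left h Real.two_pi_pos.le).trans (le_of_eq ?_)
    ring
  have hed : ∀ d : ℤ, θ * ((e d : ℝ) - 1) < θ * d - 2 * π * m d ∧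
      θ * d - 2 * π * m d ≤ θ * (e d : ℝ) := fun d => by
    have a := Int.floor_le (2 * π * (m d) / θ)
    have b := Int.lt_floor_add_one (2 * π * (m d) / θ)
    rw [le_div_iff₀ h0] at a
    rw [div_lt_iff₀ h0] at b
    rw [he]
    push_cast
    constructor <;> linarith
  have hterm : ∀ d : ℤ, ‖∑ l ∈ range (U + 1), expI (θ * d * l)‖ ≤ h (e d).natAbs := fun d => by
    rcases le_or_gt (e d).natAbs 1 with hle | hgt
    · rw [hh]
      simp only [hle, if_true]
      exact (norm_sum_range_expI_le_card _ _).trans (le_of_eq (by push_cast; ring))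
    have hperiod : ∀ l : ℕ, expI (θ * d * l) = expI ((θ * d - 2 * π * m d) * l) := fun l => by
      have h2 := expI_two_pi_mul (m d * l)
      push_cast at h2
      rw [show θ * d * (l : ℝ) = (θ * d - 2 * π * m d) * l + 2 * π * ((m d : ℝ) * l) by ring,
        expI_add, h2, mul_one]
    have hlow : θ * (((e d).natAbs - 1 : ℕ) : ℝ) ≤ |θ * d - 2 * π * m d| := by
      obtain ⟨a, b⟩ := hed d
      rw [Nat.cast_sub hgt.le, Nat.cast_natAbs, Int.cast_abs, Nat.cast_one]
      rcases le_or_gt 0 (e d) with hp | hn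
      · rw [abs_of_nonneg (Int.cast_nonneg hp)]
        exact a.le.trans (le_abs_self _)
      · rw [abs_of_neg (Int.cast_lt_zero.2 hn)]
        exact le_trans (by linarith) (neg_le_abs _)
    have hpos : 0 < θ * (((e d).natAbs - 1 : ℕ) : ℝ) := mul_pos h0 (Nat.cast_pos.2 (by omega))
    rw [hh]
    simp only [not_le.2 hgt, if_false, hperiod]
    refine (norm_geom_expI_le (hδ d) (fun hz => ?_) _).trans
      (div_le_div_of_nonneg_left Real.pi_pos.le hpos hlow)
    rw [hz, abs_zero] at hlow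
    linarith
  obtain ⟨A, hA⟩ : ∃ A : ℕ, A = ⌊θ * U / (2 * π) + 1 / 2⌋₊ := ⟨_, rfl⟩
  obtain ⟨B, hB⟩ : ∃ B : ℕ, B = ⌊π / θ⌋₊ + 1 := ⟨_, rfl⟩
  have hmaps : ∀ d ∈ Icc (-(U : ℤ)) U,
      (m d, e d) ∈ Icc (-(A : ℤ)) A ×ˢ Icc (-(B : ℤ)) B := fun d hd => by
    rw [mem_Icc] at hd
    have hd' : |(d : ℝ)| ≤ U := by
      rw [← Int.cast_abs, ← Int.cast_natCast (R := ℝ) U, Int.cast_le]
      exact abs_le.2 hd
    have hm' : (((m d).natAbs : ℕ) : ℝ) ≤ θ * U / (2 * π) + 1 / 2 := by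
      rw [Nat.cast_natAbs, Int.cast_abs, hm]
      have h := abs_sub_round (θ * d / (2 * π))
      have h2 : |θ * d / (2 * π)| ≤ θ * U / (2 * π) := by
        rw [abs_div, abs_mul, abs_of_pos h0, abs_of_pos Real.two_pi_pos]
        exact div_le_div_of_nonneg_right (mul_le_mul_of_nonneg_left hd' h0.le) Real.two_pi_pos.le
      have h3 := abs_sub_abs_le_abs_sub ((round (θ * d / (2 * π)) : ℤ) : ℝ) (θ * d / (2 * π))
      rw [abs_sub_comm] at h3
      linarith
    have he' : (((e d).natAbs : ℕ) : ℝ) < π / θ + 1 + 1 := by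
      obtain ⟨a, b⟩ := hed d
      have := abs_le.1 (hδ d)
      rw [Nat.cast_natAbs, Int.cast_abs]
      refine lt_of_le_of_lt (b := π / θ + 1) (abs_le.2 ⟨?_, ?_⟩) (by linarith)
      · rw [neg_le, ← sub_le_iff_le_add, le_div_iff₀ h0]
        linarith
      · rw [← sub_le_iff_le_add, le_div_iff₀ h0]
        linarith
    have hm'' : (m d).natAbs ≤ A := hA ▸ Nat.le_floor hm'
    have he'' : (e d).natAbs ≤ B := by
      rw [hB]
      by_contra hc
      push Not at hc
      obtain ⟨a, b⟩ := hed d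
      have := abs_le.1 (hδ d)
      have h6 := Nat.lt_floor_add_one (π / θ)
      have h7 : ((⌊π / θ⌋₊ : ℝ) + 2) ≤ ((e d).natAbs : ℕ) := by exact_mod_cast hc
      have h8 : (((e d).natAbs : ℕ) : ℝ) ≤ π / θ + 1 := by
        rw [Nat.cast_natAbs, Int.cast_abs]
        refine abs_le.2 ⟨?_, ?_⟩
        · rw [neg_le, ← sub_le_iff_le_add, le_div_iff₀ h0]
          linarith
        · rw [← sub_le_iff_le_add, le_div_iff₀ h0]
          linarith
      linarith
    simp only [mem_product, mem_Icc]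
    omega
  have hinj : Set.InjOn (fun d => (m d, e d)) (Icc (-(U : ℤ)) U : Finset ℤ) := fun a _ b _ hab => by
    simp only [Prod.mk.injEq] at hab
    obtain ⟨h2, h3⟩ := hab
    rw [he] at h3
    dsimp only at h3
    rw [h2] at h3
    omega
  have hsum : linForm θ U ≤ ((2 * A + 1 : ℕ) : ℝ) * (2 * ∑ i ∈ range (B + 1), h i) := by
    calc linForm θ U ≤ ∑ d ∈ Icc (-(U : ℤ)) U, h (e d).natAbs := sum_le_sum fun d _ => hterm d
      _ = ∑ z ∈ (Icc (-(U : ℤ)) U).image (fun d => (m d, e d)), h z.2.natAbs :=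
          (sum_image (f := fun z : ℤ × ℤ => h z.2.natAbs) hinj).symm
      _ ≤ ∑ z ∈ Icc (-(A : ℤ)) A ×ˢ Icc (-(B : ℤ)) B, h z.2.natAbs :=
          sum_le_sum_of_subset_of_nonneg
            (fun z hz => by obtain ⟨d, hd, rfl⟩ := mem_image.1 hz; exact hmaps d hd)
            fun z _ _ => hh0 _
      _ = ((2 * A + 1 : ℕ) : ℝ) * ∑ i ∈ Icc (-(B : ℤ)) B, h i.natAbs := by
          rw [sum_product]
          dsimp only
          rw [sum_const, Int.card_Icc, nsmul_eq_mul,
            show ((A : ℤ) + 1 - -(A : ℤ)).toNat = 2 * A + 1 by omega]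
      _ ≤ _ := by
          refine mul_le_mul_of_nonneg_left ?_ (Nat.cast_nonneg _)
          rw [← sum_fiberwise_of_maps_to (g := Int.natAbs) (t := range (B + 1))
            (fun i hi => mem_range.2 (by rw [mem_Icc] at hi; omega)), mul_sum]
          refine sum_le_sum fun i _ => ?_
          refine (le_of_eq (sum_congr rfl fun a ha => ?_)).trans
            ((le_of_eq (sum_const (h i))).trans ?_)
          · rw [(mem_filter.1 ha).2]
          · rw [nsmul_eq_mul]
            refine mul_le_mul_of_nonneg_right ?_ (hh0 i)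
            have hc : ((Icc (-(B : ℤ)) B).filter fun a => a.natAbs = i) ⊆ {(i : ℤ), -(i : ℤ)} :=
              fun a ha => by
                rw [mem_filter] at ha
                simp only [mem_insert, mem_singleton]
                omega
            exact_mod_cast (card_le_card hc).trans card_le_two
  refine hsum.trans (mul_le_mul ?_ ?_ (mul_nonneg two_pos.le (sum_nonneg fun i _ => hh0 i))
    (by positivity))
  · have h2 := Nat.floor_le (show 0 ≤ θ * U / (2 * π) + 1 / 2 by positivity)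
    rw [← hA] at h2
    have h3 : θ * U / (2 * π) ≤ θ * U / 2 :=
      div_le_div_of_nonneg_left (by positivity) two_pos (by linarith [Real.pi_gt_three])
    push_cast
    linarith
  · rw [hB, sum_range_succ', sum_range_succ', hh]
    simp only [show ∀ i : ℕ, ¬(i + 1 + 1 ≤ 1) by omega, if_false, Nat.zero_add, le_refl, if_true,
      Nat.zero_le, Nat.add_sub_cancel]
    have hfl : 1 ≤ ⌊π / θ⌋₊ := by
      rw [Nat.one_le_floor_iff, one_le_div h0]
      linarith [Real.pi_gt_three]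
    have hH : ∑ i ∈ range ⌊π / θ⌋₊, π / (θ * ((i + 1 : ℕ) : ℝ)) ≤
        π / θ * (1 + Real.log (9 / θ)) := by
      calc ∑ i ∈ range ⌊π / θ⌋₊, π / (θ * ((i + 1 : ℕ) : ℝ))
          = π / θ * ((harmonic ⌊π / θ⌋₊ : ℚ) : ℝ) := by
            rw [harmonic, Rat.cast_sum, mul_sum]
            refine sum_congr rfl fun i _ => ?_
            push_cast
            field_simp
        _ ≤ _ := by
            refine mul_le_mul_of_nonneg_left ((harmonic_le_one_add_log _).trans ?_) (by positivity)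
            refine add_le_add le_rfl (Real.log_le_log (Nat.cast_pos.2 hfl) ?_)
            refine (Nat.floor_le (by positivity)).trans ?_
            exact div_le_div_of_nonneg_right (by linarith [Real.pi_le_four]) h0.le
    have hlog : 0 ≤ 1 + Real.log (9 / θ) := by
      have : 0 ≤ Real.log (9 / θ) := Real.log_nonneg (by rw [one_le_div h0]; linarith)
      linarith
    have h7 : 2 * π / θ * (1 + Real.log (9 / θ)) ≤ 7 / θ * (1 + Real.log (9 / θ)) :=
      mul_le_mul_of_nonneg_right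
        (div_le_div_of_nonneg_right (by linarith [Real.pi_lt_d2]) h0.le) hlog
    have e2 : 2 * π / θ * (1 + Real.log (9 / θ)) = 2 * (π / θ * (1 + Real.log (9 / θ))) := by ring
    linarith

theorem sum_powerSum_le {k M s : ℕ} {x : Fin s → ℕ} (hx : x ∈ box (range M) s) (j : Fin k) :
    0 ≤ powerSum k x j ∧ powerSum k x j ≤ ((s * M ^ (j.1 + 1) : ℕ) : ℤ) := by
  rw [box, Fintype.mem_piFinset] at hx
  refine ⟨sum_nonneg fun i _ => by positivity, ?_⟩
  calc powerSum k x j ≤ ∑ _i : Fin s, (M : ℤ) ^ (j.1 + 1) :=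
        sum_le_sum fun i _ => pow_le_pow_left₀ (Int.natCast_nonneg _)
          (Int.ofNat_le.2 (mem_range.1 (hx i)).le) _
    _ = _ := by simp

/-- `e (∑ α j x j λ j)`. -/
def phaseDot {k : ℕ} (α : Fin k → ℝ) (u v : Fin k → ℤ) : ℝ := ∑ j, α j * u j * v j

/-- `∑_λ |∑_{x < M} c x e (α · x · λ)| ^ (2 s)` over `0 ≤ λ j ≤ s M ^ j`. -/
theorem sum_power_weighted_le {k M s : ℕ} (α : Fin k → ℝ) (c : ℕ → ℂ) (hc : ∀ x, ‖c x‖ ≤ 1) :
    ∑ v ∈ Fintype.piFinset (fun j : Fin k => Icc (0 : ℤ) ((s * M ^ (j.1 + 1) : ℕ) : ℤ)),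
      ‖∑ x ∈ range M, c x * expI (phaseDot α (moments k x) v)‖ ^ (2 * s) ≤
    meanCount k s M * ∏ j : Fin k, linForm (α j) (s * M ^ (j.1 + 1)) := by
  classical
  obtain ⟨T, hT⟩ : ∃ T, T = Fintype.piFinset fun j : Fin k =>
      Icc (0 : ℤ) ((s * M ^ (j.1 + 1) : ℕ) : ℤ) := ⟨_, rfl⟩
  rw [← hT]
  obtain ⟨K, hK⟩ : ∃ K : (Fin k → ℤ) → ℂ, K = fun d => ∑ v ∈ T, expI (phaseDot α d v) := ⟨_, rfl⟩
  have hexp : ∀ v, ((‖∑ x ∈ range M, c x * expI (phaseDot α (moments k x) v)‖ ^ (2 * s) : ℝ) : ℂ) =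
      ∑ z ∈ box (range M) s ×ˢ box (range M) s,
        (∏ i, c (z.1 i)) * (starRingEnd ℂ) (∏ i, c (z.2 i)) *
          expI (phaseDot α (powerSum k z.1 - powerSum k z.2) v) := fun v => by
    have hpow : (∑ x ∈ range M, c x * expI (phaseDot α (moments k x) v)) ^ s =
        ∑ y ∈ box (range M) s, (∏ i, c (y i)) * expI (phaseDot α (powerSum k y) v) := by
      rw [box, sum_pow']
      refine sum_congr rfl fun y _ => ?_
      rw [prod_mul_distrib]
      congr 1
      simp only [phaseDot, powerSum, moments, expI, ← Complex.exp_sum]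
      congr 1
      push_cast
      simp only [mul_sum, sum_mul]
      rw [sum_comm]
    rw [mul_comm 2 s, pow_mul, ← norm_pow, hpow]
    push_cast
    rw [← Complex.mul_conj', map_sum, sum_mul_sum, sum_product]
    refine sum_congr rfl fun y _ => sum_congr rfl fun y' _ => ?_
    rw [map_mul, conj_expI, show phaseDot α (powerSum k y - powerSum k y') v =
      phaseDot α (powerSum k y) v + -phaseDot α (powerSum k y') v by
        simp only [phaseDot, Pi.sub_apply, Int.cast_sub, ← sum_neg_distrib, ← sum_add_distrib]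
        exact sum_congr rfl fun j _ => by ring, expI_add]
    ring
  have h1 : ∑ v ∈ T, ‖∑ x ∈ range M, c x * expI (phaseDot α (moments k x) v)‖ ^ (2 * s) ≤
      ∑ z ∈ box (range M) s ×ˢ box (range M) s, ‖K (powerSum k z.1 - powerSum k z.2)‖ := by
    rw [← Real.norm_of_nonneg (sum_nonneg fun v _ => by positivity : (0 : ℝ) ≤ ∑ v ∈ T,
      ‖∑ x ∈ range M, c x * expI (phaseDot α (moments k x) v)‖ ^ (2 * s)),
      ← Complex.norm_real, Complex.ofReal_sum, sum_congr rfl fun v _ => hexp v, sum_comm]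
    refine (norm_sum_le _ _).trans (sum_le_sum fun z _ => ?_)
    rw [← mul_sum, norm_mul, hK]
    refine mul_le_of_le_one_left (norm_nonneg _) ?_
    rw [norm_mul, Complex.norm_conj, norm_prod, norm_prod]
    exact mul_le_one₀ (prod_le_one (fun i _ => norm_nonneg _) fun i _ => hc _)
      (prod_nonneg fun i _ => norm_nonneg _)
      (prod_le_one (fun i _ => norm_nonneg _) fun i _ => hc _)
  refine h1.trans ?_
  have hKd : ∀ d, ‖K d‖ = ∏ j : Fin k,
      ‖∑ l ∈ range (s * M ^ (j.1 + 1) + 1), expI (α j * d j * l)‖ := fun d => by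
    rw [hK, hT, ← norm_prod]
    congr 1
    rw [prod_univ_sum]
    refine sum_nbij' (fun v j => (v j).toNat) (fun v j => (v j : ℤ)) ?_ ?_ ?_ ?_ ?_
    · intro v hv
      simp only [Fintype.mem_piFinset, mem_Icc, mem_range] at hv ⊢
      intro j
      have := hv j
      omega
    · intro v hv
      simp only [Fintype.mem_piFinset, mem_Icc, mem_range] at hv ⊢
      intro j
      have := hv j
      omega
    · intro v hv
      simp only [Fintype.mem_piFinset, mem_Icc] at hv
      funext j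
      exact Int.toNat_of_nonneg (hv j).1
    · intro v _
      funext j
      exact Int.toNat_natCast _
    · intro v hv
      simp only [Fintype.mem_piFinset, mem_Icc] at hv
      simp only [phaseDot, expI, ← Complex.exp_sum]
      congr 1
      push_cast
      rw [sum_mul]
      refine sum_congr rfl fun j _ => ?_
      congr 2
      exact_mod_cast congrArg (fun i : ℤ => (i : ℝ)) (Int.toNat_of_nonneg (hv j).1).symm
  obtain ⟨D, hD⟩ : ∃ D, D = Fintype.piFinset fun j : Fin k =>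
      Icc (-((s * M ^ (j.1 + 1) : ℕ) : ℤ)) ((s * M ^ (j.1 + 1) : ℕ) : ℤ) := ⟨_, rfl⟩
  have hmaps : ∀ z ∈ box (range M) s ×ˢ box (range M) s,
      powerSum k z.1 - powerSum k z.2 ∈ D := fun z hz => by
    rw [hD, Fintype.mem_piFinset]
    intro j
    obtain ⟨a1, a2⟩ := sum_powerSum_le (mem_product.1 hz).1 j
    obtain ⟨b1, b2⟩ := sum_powerSum_le (mem_product.1 hz).2 j
    rw [mem_Icc, Pi.sub_apply]
    omega
  calc ∑ z ∈ box (range M) s ×ˢ box (range M) s, ‖K (powerSum k z.1 - powerSum k z.2)‖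
      = ∑ d ∈ D, ∑ z ∈ (box (range M) s ×ˢ box (range M) s).filter
          (fun z => powerSum k z.1 - powerSum k z.2 = d), ‖K d‖ := by
        rw [← sum_fiberwise_of_maps_to hmaps]
        exact sum_congr rfl fun d _ => sum_congr rfl fun z hz => by rw [(mem_filter.1 hz).2]
    _ ≤ ∑ d ∈ D, (meanCount k s M : ℝ) * ‖K d‖ := sum_le_sum fun d _ => by
        rw [sum_const, nsmul_eq_mul]
        exact mul_le_mul_of_nonneg_right (Nat.cast_le.2 (card_sub_eq_le _ _ _)) (norm_nonneg _)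
    _ = _ := by
        rw [← mul_sum, hD]
        simp only [hKd, linForm]
        rw [prod_univ_sum]

/-- `∑_{x, y < M} e (∑ α j x ^ j y ^ j)`. -/
def bilinear {k : ℕ} (α : Fin k → ℝ) (M : ℕ) : ℂ :=
  ∑ x ∈ range M, ∑ y ∈ range M, expI (phaseDot α (moments k x) (moments k y))

/-- **The bilinear bound.** -/
theorem norm_bilinear_pow_le {k M s : ℕ} (α : Fin k → ℝ) (hs : 1 ≤ s) :
    ‖bilinear α M‖ ^ (2 * s * s) ≤ (M : ℝ) ^ (4 * s * (s - 1)) * (meanCount k s M : ℝ) ^ 2 *
      ∏ j : Fin k, linForm (α j) (s * M ^ (j.1 + 1)) := by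
  classical
  obtain ⟨r, rfl⟩ : ∃ r, s = r + 1 := ⟨s - 1, by omega⟩
  obtain ⟨F, hF⟩ : ∃ F : ℕ → ℂ,
      F = fun x => ∑ y ∈ range M, expI (phaseDot α (moments k x) (moments k y)) := ⟨_, rfl⟩
  obtain ⟨c, hc⟩ : ∃ c : ℕ → ℂ, c = fun x =>
      if F x = 0 then 0 else (‖F x ^ (r + 1)‖ : ℂ) / F x ^ (r + 1) := ⟨_, rfl⟩
  have hc1 : ∀ x, ‖c x‖ ≤ 1 := fun x => by
    rw [hc]
    dsimp only
    split_ifs with h
    · simp
    · rw [norm_div, Complex.norm_real, norm_norm, div_self (norm_ne_zero_iff.2 (pow_ne_zero _ h))]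
  obtain ⟨G, hG⟩ : ∃ G : (Fin k → ℤ) → ℝ, G = fun v =>
      ‖∑ x ∈ range M, c x * expI (phaseDot α (moments k x) v)‖ := ⟨_, rfl⟩
  have hstep1 : ‖bilinear α M‖ ^ (r + 1) ≤
      (M : ℝ) ^ r * ∑ y ∈ box (range M) (r + 1), G (powerSum k y) := by
    refine (pow_le_pow_left₀ (norm_nonneg _) (norm_sum_le _ _) _).trans
      ((pow_sum_le_card_mul_sum_pow (fun x _ => norm_nonneg _) r).trans ?_)
    rw [card_range]
    refine mul_le_mul_of_nonneg_left ?_ (by positivity)
    have e : ∀ x, ((‖F x‖ ^ (r + 1) : ℝ) : ℂ) = c x * F x ^ (r + 1) := fun x => by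
      rw [← norm_pow, hc]
      dsimp only
      split_ifs with h
      · simp [h]
      · rw [div_mul_cancel₀ _ (pow_ne_zero _ h)]
    have e2 : ((∑ x ∈ range M, ‖F x‖ ^ (r + 1) : ℝ) : ℂ) = ∑ y ∈ box (range M) (r + 1),
        ∑ x ∈ range M, c x * expI (phaseDot α (moments k x) (powerSum k y)) := by
      rw [Complex.ofReal_sum, sum_congr rfl fun x _ => e x, sum_comm]
      refine sum_congr rfl fun x _ => ?_
      rw [← mul_sum, hF, box, sum_pow']
      congr 1
      refine sum_congr rfl fun y _ => ?_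
      simp only [phaseDot, powerSum, moments, expI, ← Complex.exp_sum]
      congr 1
      push_cast
      simp only [mul_sum, sum_mul]
      rw [sum_comm]
    have h3 := congrArg norm e2
    rw [Complex.norm_real, Real.norm_of_nonneg (sum_nonneg fun x _ => by positivity)] at h3
    rw [hG]
    refine le_trans (le_of_eq ?_) (h3.le.trans (norm_sum_le _ _))
    rw [hF]
  obtain ⟨T, hT⟩ : ∃ T, T = Fintype.piFinset fun j : Fin k =>
      Icc (0 : ℤ) (((r + 1) * M ^ (j.1 + 1) : ℕ) : ℤ) := ⟨_, rfl⟩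
  have hmem : ∀ y ∈ box (range M) (r + 1), powerSum k y ∈ T := fun y hy => by
    rw [hT, Fintype.mem_piFinset]
    exact fun j => mem_Icc.2 (sum_powerSum_le hy j)
  have hG0 : ∀ v, 0 ≤ G v := fun v => hG ▸ norm_nonneg _
  have hstep2 : (∑ y ∈ box (range M) (r + 1), G (powerSum k y)) ^ (r + 1) ≤
      ((M : ℝ) ^ (r + 1)) ^ r *
        ∑ v ∈ T, (fibre (box (range M) (r + 1)) (powerSum k) v : ℝ) * G v ^ (r + 1) := by
    refine (pow_sum_le_card_mul_sum_pow (fun y _ => hG0 _) r).trans (le_of_eq ?_)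
    congr 1
    · simp [box]
    · rw [← sum_fiberwise_of_maps_to hmem]
      refine sum_congr rfl fun v _ => ?_
      rw [sum_congr rfl fun y hy => by rw [(mem_filter.1 hy).2], sum_const, fibre, nsmul_eq_mul]
  have hstep3 : (∑ v ∈ T, (fibre (box (range M) (r + 1)) (powerSum k) v : ℝ) * G v ^ (r + 1)) ^ 2 ≤
      (meanCount k (r + 1) M : ℝ) * ((meanCount k (r + 1) M : ℝ) *
        ∏ j : Fin k, linForm (α j) ((r + 1) * M ^ (j.1 + 1))) := by
    refine (sum_mul_sq_le_sq_mul_sq _ _ _).trans (mul_le_mul (le_of_eq ?_) ?_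
      (sum_nonneg fun v _ => by positivity) (Nat.cast_nonneg _))
    · rw [meanCount, energy_eq_sum_fibre hmem]
      push_cast
      rfl
    · simp only [← pow_mul, mul_comm (r + 1) 2, hG, hT]
      exact sum_power_weighted_le α c hc1
  have hP : 0 ≤ ∑ y ∈ box (range M) (r + 1), G (powerSum k y) := sum_nonneg fun y _ => hG0 _
  calc ‖bilinear α M‖ ^ (2 * (r + 1) * (r + 1))
      = ((‖bilinear α M‖ ^ (r + 1)) ^ (r + 1)) ^ 2 := by
        rw [← pow_mul, ← pow_mul]; congr 1; ring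
    _ ≤ (((M : ℝ) ^ r * ∑ y ∈ box (range M) (r + 1), G (powerSum k y)) ^ (r + 1)) ^ 2 :=
        pow_le_pow_left₀ (by positivity) (pow_le_pow_left₀ (by positivity) hstep1 _) _
    _ ≤ ((M : ℝ) ^ (r * (r + 1)) * (((M : ℝ) ^ (r + 1)) ^ r *
          ∑ v ∈ T, (fibre (box (range M) (r + 1)) (powerSum k) v : ℝ) * G v ^ (r + 1))) ^ 2 := by
        refine pow_le_pow_left₀ (by positivity) ?_ 2
        rw [mul_pow, ← pow_mul]
        exact mul_le_mul_of_nonneg_left hstep2 (by positivity)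
    _ ≤ ((M : ℝ) ^ (r * (r + 1)) * ((M : ℝ) ^ (r + 1)) ^ r) ^ 2 *
          ((meanCount k (r + 1) M : ℝ) * ((meanCount k (r + 1) M : ℝ) *
            ∏ j : Fin k, linForm (α j) ((r + 1) * M ^ (j.1 + 1)))) := by
        rw [← mul_assoc, mul_pow]
        exact mul_le_mul_of_nonneg_left hstep3 (by positivity)
    _ = _ := by
        rw [← pow_mul, ← pow_add, ← pow_mul, Nat.add_sub_cancel]
        ring

end FA.Korobov

end
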