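import Fermat.Agent.Korobov.ZetaBound
import Fermat.Agent.SiegelWalfisz.Bounds
import Mathlib.NumberTheory.LegendreSymbol.AddCharacter

/-!
# Vinogradov's bound for the Dirichlet L-functions

For a fixed modulus `q`: `L(σ + it, χ) = O (log ^ 41 |t| · exp (A θ ^ (3/2) log |t|))` for
`σ ≥ 2/3`, `θ = max (1 - σ) 0`. The character is a combination of additive ones, so the bound for
`∑ n ^ (-it) e (β n)` applies on the blocks up to `|t|`, and the test of the second derivative, which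
does not see `β`, up to `|t| ^ (3/2)`.
-/

set_option autoImplicit false

noncomputable section

namespace FA.Korobov

open Finset FA.Subconvexity FA.ZeroFree
open scoped Real

/-- A block above `t` and up to `4 t √t`, with a linear phase. -/
theorem norm_tiltBlock_high_le {σ t : ℝ} (β : ℝ) (hσ : 2 / 3 ≤ σ) (ht : 3 ≤ t) {N K : ℕ}
    (hNK : N ≤ K) (hK : K ≤ 2 * N) (hhigh : t < N) (hNt : (N : ℝ) ≤ 4 * (t * √t)) :
    ‖∑ n ∈ Ico N K, (((n : ℝ) ^ (-σ) : ℝ) : ℂ) * expI (phase t n + β * n)‖ ≤ 180 := by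
  have ht0 : 0 < t := by linarith
  have hN0 : (0 : ℝ) < N := ht0.trans hhigh
  have hN1 : 1 ≤ N := Nat.cast_pos.1 hN0
  have hst : 0 < √t := Real.sqrt_pos.2 ht0
  have hsum : ∀ m, N ≤ m → m ≤ K →
      ‖∑ n ∈ Ico N m, expI (phase t n + β * n)‖ ≤ 9 * √t + 78 * (N : ℝ) / √t := by
    intro m hm hmK
    have h := norm_vdc_second_le (φ := fun n => phase t n + β * n)
      (lam := t / (9 * (N : ℝ) ^ 2)) (A := 9) (by positivity) (by norm_num) (a := N) (b := m)
      fun i hia hib => by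
        obtain ⟨e1, e2⟩ := second_diff_log (show 1 ≤ i by omega)
        have hiN : (N : ℝ) ≤ i := Nat.cast_le.2 hia
        have hi3 : (i : ℝ) + 1 ≤ 3 * N := by
          have : i + 1 ≤ 3 * N := by omega
          exact_mod_cast this
        have e : phase t (i + 2) + β * ((i + 2 : ℕ) : ℝ) - (phase t (i + 1) + β * ((i + 1 : ℕ) : ℝ))
            - (phase t (i + 1) + β * ((i + 1 : ℕ) : ℝ) - (phase t i + β * (i : ℝ))) =
            t * (2 * Real.log ((i : ℝ) + 1) - Real.log ((i : ℝ) + 2) - Real.log i) := by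
          simp only [phase, Nat.cast_add, Nat.cast_ofNat, Nat.cast_one]; ring
        rw [e]
        constructor
        · refine le_trans ?_ (mul_le_mul_of_nonneg_left e1 ht0.le)
          rw [mul_one_div, show 9 * (N : ℝ) ^ 2 = (3 * N) ^ 2 by ring]
          exact div_le_div_of_nonneg_left ht0.le (by positivity) (by gcongr)
        · refine (mul_le_mul_of_nonneg_left e2 ht0.le).trans ?_
          rw [mul_one_div, show 9 * (t / (9 * (N : ℝ) ^ 2)) = t / (N : ℝ) ^ 2 by field_simp]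
          exact div_le_div_of_nonneg_left ht0.le (by positivity) (by gcongr)
    refine h.trans ?_
    have hs : √(t / (9 * (N : ℝ) ^ 2)) = √t / (3 * N) := by
      rw [Real.sqrt_div' _ (by positivity), show 9 * (N : ℝ) ^ 2 = (3 * N) ^ 2 by ring,
        Real.sqrt_sq (by positivity)]
    rw [hs, div_div_eq_mul_div, show 26 * (3 * (N : ℝ)) / √t = 78 * N / √t by ring]
    refine add_le_add ?_ le_rfl
    calc 3 * 9 * ((m - N : ℕ) : ℝ) * (√t / (3 * N))
        ≤ 3 * 9 * (N : ℝ) * (√t / (3 * N)) := by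
          gcongr
          exact_mod_cast (show m - N ≤ N by omega)
      _ = 9 * √t := by field_simp
  refine (norm_sum_weight_le (w := fun n => (n : ℝ) ^ (-σ)) hNK (fun m _ _ => by positivity)
    (fun m hm _ => Real.rpow_le_rpow_of_nonpos (Nat.cast_pos.2 (by omega))
      (Nat.cast_le.2 m.le_succ) (by linarith)) hsum).trans ?_
  have hN1' : (1 : ℝ) ≤ N := by exact_mod_cast hN1
  have h1 : (N : ℝ) ^ (-σ) ≤ (√t)⁻¹ := by
    refine (Real.rpow_le_rpow_of_exponent_le hN1' (show -σ ≤ -(1 / 2) by linarith)).trans ?_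
    rw [Real.rpow_neg hN0.le, ← Real.sqrt_eq_rpow]
    exact inv_anti₀ hst (Real.sqrt_le_sqrt hhigh.le)
  have h2 : (N : ℝ) ^ (-σ) * N ≤ 2 * √t := by
    nth_rw 2 [← Real.rpow_one (N : ℝ)]
    rw [← Real.rpow_add hN0]
    refine (Real.rpow_le_rpow_of_exponent_le hN1' (show -σ + 1 ≤ 1 / 3 by linarith)).trans ?_
    refine (Real.rpow_le_rpow hN0.le hNt (by norm_num)).trans ?_
    refine le_of_pow_le_pow_left₀ (n := 3) (by norm_num) (by positivity) ?_
    rw [← Real.rpow_natCast, ← Real.rpow_mul (by positivity), mul_pow]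
    norm_num
    rw [show √t ^ 3 = √t ^ 2 * √t by ring, Real.sq_sqrt ht0.le]
    nlinarith [mul_nonneg ht0.le hst.le]
  calc (N : ℝ) ^ (-σ) * (9 * √t + 78 * (N : ℝ) / √t)
      = 9 * ((N : ℝ) ^ (-σ) * √t) + 78 * ((N : ℝ) ^ (-σ) * N) / √t := by ring
    _ ≤ 9 * ((√t)⁻¹ * √t) + 78 * (2 * √t) / √t := by gcongr
    _ ≤ 180 := by
        rw [inv_mul_cancel₀ hst.ne', mul_one, mul_div_assoc, mul_div_cancel_right₀ _ hst.ne']
        norm_num

/-- A block with a linear phase and either sign of `t`. -/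
theorem norm_tiltBlock_le {σ t : ℝ} (β : ℝ) (hσ : 2 / 3 ≤ σ) (ht : 3 ≤ |t|) {N K : ℕ}
    (hN : 1 ≤ N) (hNK : N ≤ K) (hK : K ≤ 2 * N) (hNt : (N : ℝ) ≤ 4 * (|t| * √|t|)) :
    ‖∑ n ∈ Ico N K, (((n : ℝ) ^ (-σ) : ℝ) : ℂ) * expI (phase t n + β * n)‖ ≤
      3 * blockBound |t| (max (1 - σ) 0) := by
  have hB := one_le_blockBound (t := |t|) (θ := max (1 - σ) 0) (le_max_right _ _)
  have hpos : ∀ γ : ℝ,
      ‖∑ n ∈ Ico N K, (((n : ℝ) ^ (-σ) : ℝ) : ℂ) * expI (phase |t| n + γ * n)‖ ≤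
        3 * blockBound |t| (max (1 - σ) 0) := fun γ => by
    rcases le_or_gt (N : ℝ) |t| with h | h
    · exact (norm_tiltBlock_low_le γ (by linarith) ht rfl hN hNK hK h).trans (by linarith)
    · exact (norm_tiltBlock_high_le γ hσ ht hNK hK h hNt).trans (by linarith)
  rcases le_total 0 t with h | h
  · simpa [abs_of_nonneg h] using hpos β
  · refine le_of_eq_of_le ?_ (hpos (-β))
    rw [← Complex.norm_conj, map_sum]
    congr 1
    refine sum_congr rfl fun n _ => ?_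
    rw [map_mul, Complex.conj_ofReal, conj_expI, abs_of_nonpos h]
    congr 2
    simp only [phase]
    ring

variable {q : ℕ} [NeZero q]

/-- A function on the classes modulo `q` as a combination of additive characters. -/
theorem exists_fourier (f : ZMod q → ℂ) (hf : ∀ x, ‖f x‖ ≤ 1) :
    ∃ F : ZMod q → ℂ, (∀ a, ‖F a‖ ≤ 1) ∧
      ∀ n : ℕ, f n = ∑ a, F a * expI (2 * π * (a.val : ℝ) / q * n) := by
  obtain ⟨e, he⟩ : ∃ e : AddChar (ZMod q) ℂ, e = ZMod.stdAddChar := ⟨_, rfl⟩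
  have hev : ∀ (a : ZMod q) (n : ℕ), expI (2 * π * (a.val : ℝ) / q * n) = e (a * n) := by
    intro a n
    rw [he, show a * (n : ZMod q) = (((a.val * n : ℕ) : ℤ) : ZMod q) by
      push_cast; rw [ZMod.natCast_zmod_val], ZMod.stdAddChar_coe, expI]
    push_cast
    ring_nf
  have hq : (q : ℂ) ≠ 0 := Nat.cast_ne_zero.2 (NeZero.ne q)
  refine ⟨fun a => (q : ℂ)⁻¹ * ∑ b, f b * e (-(a * b)), fun a => ?_, fun n => ?_⟩
  · rw [norm_mul, norm_inv, Complex.norm_natCast,
      inv_mul_le_iff₀ (Nat.cast_pos.2 (NeZero.pos q)), mul_one]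
    refine (norm_sum_le _ _).trans ((sum_le_card_nsmul _ _ 1 fun b _ => ?_).trans (by simp))
    rw [norm_mul, AddChar.norm_apply, mul_one]
    exact hf b
  · have horth : ∀ b : ZMod q, ∑ a, e (a * ((n : ZMod q) - b)) =
        if (n : ZMod q) - b = 0 then (q : ℂ) else 0 := fun b => by
      rw [he, AddChar.sum_mulShift _ (ZMod.isPrimitive_stdAddChar q), ZMod.card]
      split_ifs <;> simp
    simp only [hev]
    simp only [sum_mul, mul_sum, mul_assoc]
    rw [sum_comm]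
    have hterm : ∀ b : ZMod q, ∑ a, (q : ℂ)⁻¹ * (f b * (e (-(a * b)) * e (a * n))) =
        (q : ℂ)⁻¹ * f b * ∑ a, e (a * ((n : ZMod q) - b)) := fun b => by
      rw [mul_sum]
      refine sum_congr rfl fun a _ => ?_
      rw [← e.map_add_eq_mul, show -(a * b) + a * (n : ZMod q) = a * ((n : ZMod q) - b) by ring]
      ring
    simp only [hterm, horth, sub_eq_zero, mul_ite, mul_zero, sum_ite_eq, mem_univ, if_true]
    field_simp

/-- A block of the series of a character. -/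
theorem norm_charBlock_le (χ : DirichletCharacter ℂ q) {s : ℂ} (hσ : 2 / 3 ≤ s.re)
    (ht : 3 ≤ |s.im|) {N K : ℕ} (hN : 1 ≤ N) (hNK : N ≤ K) (hK : K ≤ 2 * N)
    (hNt : (N : ℝ) ≤ 4 * (|s.im| * √|s.im|)) :
    ‖∑ n ∈ Ico N K, χ n * (n : ℂ) ^ (-s)‖ ≤
      q * (3 * blockBound |s.im| (max (1 - s.re) 0)) := by
  obtain ⟨F, hF, hχ⟩ := exists_fourier (fun x : ZMod q => χ x) fun x => χ.norm_le_one x
  have e : ∀ n ∈ Ico N K, χ n * (n : ℂ) ^ (-s) = ∑ a, F a *
      ((((n : ℝ) ^ (-s.re) : ℝ) : ℂ) *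
        expI (phase s.im n + 2 * π * (a.val : ℝ) / q * n)) := fun n hn => by
    have h1 : 1 ≤ n := by have := (mem_Ico.1 hn).1; omega
    have hs : (n : ℂ) ^ (-s) = (((n : ℝ) ^ (-s.re) : ℝ) : ℂ) * expI (phase s.im n) := by
      rw [← term_eq_weight h1, Complex.re_add_im, Complex.cpow_neg, one_div]
    rw [hs, hχ n, sum_mul]
    refine sum_congr rfl fun a _ => ?_
    rw [expI_add]
    ring
  rw [sum_congr rfl e, sum_comm]
  refine (norm_sum_le _ _).trans ((sum_le_card_nsmul _ _ _ fun a _ => ?_).trans (le_of_eq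
    (by rw [card_univ, ZMod.card, nsmul_eq_mul])))
  rw [← mul_sum, norm_mul]
  exact (mul_le_of_le_one_left (norm_nonneg _) (hF a)).trans
    (norm_tiltBlock_le _ hσ ht hN hNK hK hNt)

theorem norm_lfunction_upper_le {χ : DirichletCharacter ℂ q} (hχ : χ ≠ 1) {s : ℂ}
    (hσ : 2 / 3 ≤ s.re) (hσ3 : s.re ≤ 3) (ht : 3 ≤ |s.im|) :
    ‖DirichletCharacter.LFunction χ s‖ ≤ 1300 * q * (1280 * ell s.im) ^ 41 *
      Real.exp (expConst * max (1 - s.re) 0 ^ (3 / 2 : ℝ) * ell s.im) := by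
  obtain ⟨θ, hθ⟩ : ∃ θ, θ = max (1 - s.re) 0 := ⟨_, rfl⟩
  obtain ⟨u, hu⟩ : ∃ u, u = |s.im| := ⟨_, rfl⟩
  rw [← hu] at ht
  have hell : ell s.im = ell u := by rw [hu, ell, ell, abs_abs]
  rw [← hθ, hell]
  have hu0 : 0 < u := by linarith
  have hsu : 1 ≤ √u := Real.one_le_sqrt.2 (by linarith)
  have hB := one_le_blockBound (t := u) (show 0 ≤ θ from hθ ▸ le_max_right _ _)
  obtain ⟨N, hN⟩ : ∃ N, N = ⌈u * √u⌉₊ := ⟨_, rfl⟩
  have hNlo : u * √u ≤ (N : ℝ) := hN ▸ Nat.le_ceil _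
  have huu : 3 ≤ u * √u := by nlinarith
  have hNhi : (N : ℝ) ≤ 4 * (u * √u) := by
    have := (Nat.ceil_lt_add_one (show 0 ≤ u * √u by positivity)).le
    rw [← hN] at this
    linarith
  have hN1 : 1 ≤ N := by
    have : (1 : ℝ) ≤ N := by linarith
    exact_mod_cast this
  have hN0 : (0 : ℝ) < N := Nat.cast_pos.2 hN1
  have hsre : 0 < s.re := by linarith
  have hNσ : (N : ℝ) ^ (-s.re) ≤ u⁻¹ := by
    refine (Real.rpow_le_rpow_of_exponent_le (by exact_mod_cast hN1)
      (show -s.re ≤ -(2 / 3) by linarith)).trans ?_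
    rw [Real.rpow_neg hN0.le]
    refine inv_anti₀ hu0 ?_
    refine le_trans ?_ (Real.rpow_le_rpow (by positivity) hNlo (by norm_num))
    rw [Real.sqrt_eq_rpow, show u * u ^ (1 / 2 : ℝ) = u ^ (3 / 2 : ℝ) by
      rw [show (3 / 2 : ℝ) = 1 + 1 / 2 by norm_num, Real.rpow_add hu0, Real.rpow_one],
      ← Real.rpow_mul hu0.le]
    norm_num
  rw [SiegelWalfisz.lfunction_truncated hχ hsre hN1]
  have t1 : ‖∑ n ∈ Icc 1 N, χ n * (n : ℂ) ^ (-s)‖ ≤
      (Nat.log 2 N + 1) * (q * (3 * blockBound u θ)) :=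
    norm_dyadic_le (M := 4 * (u * √u)) (mul_nonneg (Nat.cast_nonneg q) (by linarith))
      (fun a b ha hab hb haM => hθ ▸ hu ▸
        norm_charBlock_le χ hσ (hu ▸ ht) ha hab hb (hu ▸ haM)) N hNhi
  have t2 : ‖Siegel.charSum χ N * (N : ℂ) ^ (-s)‖ ≤ q * 1 := by
    rw [norm_mul, Complex.norm_natCast_cpow_of_pos hN1, Complex.neg_re]
    exact mul_le_mul (Siegel.norm_charSum_le hχ _) (hNσ.trans (inv_le_one_of_one_le₀ (by linarith)))
      (by positivity) (Nat.cast_nonneg q)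
  have t3 : ‖s * ∫ t in Set.Ioi (N : ℝ), Siegel.charSum χ t * (t : ℂ) ^ (-(s + 1))‖ ≤
      q * 3 := by
    have hns : ‖s‖ ≤ 2 * u := by
      refine (Complex.norm_le_abs_re_add_abs_im s).trans ?_
      rw [abs_of_pos hsre, ← hu]
      linarith
    have hint : ‖∫ t in Set.Ioi (N : ℝ), Siegel.charSum χ t * (t : ℂ) ^ (-(s + 1))‖ ≤
        q * ((N : ℝ) ^ (-s.re) / s.re) := by
      refine (MeasureTheory.norm_integral_le_of_norm_le
        ((integrableOn_Ioi_rpow_of_lt (a := -(s.re + 1)) (by linarith) hN0).const_mul (q : ℝ))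
        ?_).trans (le_of_eq ?_)
      · filter_upwards [MeasureTheory.ae_restrict_mem measurableSet_Ioi] with v hv
        exact Siegel.norm_integrand_le hχ (hN0.trans (Set.mem_Ioi.1 hv))
      · rw [MeasureTheory.integral_const_mul, integral_Ioi_rpow_of_lt (by linarith) hN0,
          show -(s.re + 1) + 1 = -s.re by ring, neg_div_neg_eq]
    rw [norm_mul]
    refine (mul_le_mul hns hint (norm_nonneg _) (by positivity)).trans ?_
    have h4 : (N : ℝ) ^ (-s.re) / s.re ≤ u⁻¹ / (2 / 3) :=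
      div_le_div₀ (by positivity) hNσ (by norm_num) hσ
    refine (mul_le_mul_of_nonneg_left (mul_le_mul_of_nonneg_left h4 (Nat.cast_nonneg q))
      (by positivity)).trans (le_of_eq ?_)
    field_simp
  have hlogN : (Nat.log 2 N : ℝ) + 1 ≤ 5 * ell u := by
    have hpow : ((2 ^ Nat.log 2 N : ℕ) : ℝ) ≤ N :=
      Nat.cast_le.2 (Nat.pow_log_le_self 2 (by omega))
    push_cast at hpow
    have h1 := Real.log_le_log (by positivity) (hpow.trans (hNhi.trans
      (show 4 * (u * √u) ≤ (|u| + 100) ^ 3 by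
        rw [abs_of_pos hu0]
        have : √u ≤ u := Real.sqrt_le_iff.2 ⟨by linarith, by nlinarith⟩
        nlinarith [mul_pos hu0 hu0])))
    rw [Real.log_pow, Real.log_pow, ← ell] at h1
    have hk : (0 : ℝ) ≤ (Nat.log 2 N : ℝ) := Nat.cast_nonneg _
    push_cast at h1
    nlinarith [four_le_ell u, Real.log_two_gt_d9]
  refine (norm_add_le _ _).trans
    ((add_le_add ((norm_sub_le _ _).trans (add_le_add t1 t2)) t3).trans ?_)
  have hl := four_le_ell u
  have hq : (1 : ℝ) ≤ q := by exact_mod_cast NeZero.one_le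
  have hqB : 0 ≤ (q : ℝ) * (3 * blockBound u θ) := by nlinarith
  have h4 := mul_le_mul_of_nonneg_right hlogN hqB
  calc ((Nat.log 2 N : ℝ) + 1) * (q * (3 * blockBound u θ)) + q * 1 + q * 3
      ≤ 5 * ell u * (q * (3 * blockBound u θ)) + ell u * (q * (3 * blockBound u θ)) := by
        nlinarith
    _ = 1080 * q * ((1280 * ell u) ^ 40 *
          Real.exp (expConst * θ ^ (3 / 2 : ℝ) * ell u) * ell u) := by
        rw [blockBound]; ring
    _ ≤ _ := by
        rw [pow_succ (1280 * ell u) 40]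
        have : 0 ≤ (q : ℝ) * ((1280 * ell u) ^ 40 *
          Real.exp (expConst * θ ^ (3 / 2 : ℝ) * ell u) * ell u) := by positivity
        nlinarith

/-- **The bound of Vinogradov and Korobov for `L(s, χ)`.** -/
theorem exists_lfunction_bound (q : ℕ) [NeZero q] : ∃ D, 0 < D ∧
    ∀ (χ : DirichletCharacter ℂ q) (s : ℂ), 3 ≤ |s.im| → 2 / 3 ≤ s.re → s.re ≤ 3 →
      ‖DirichletCharacter.LFunction χ s‖ ≤
        D * ell s.im ^ 41 * Real.exp (expConst * max (1 - s.re) 0 ^ (3 / 2 : ℝ) * ell s.im) := by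
  obtain ⟨C, hC, hz⟩ := exists_zeta_bound
  refine ⟨1300 * q * 1280 ^ 41 + 2 ^ q.primeFactors.card * C, by positivity,
    fun χ s ht hσ hσ3 => ?_⟩
  obtain ⟨E, hE⟩ : ∃ E, E = ell s.im ^ 41 *
      Real.exp (expConst * max (1 - s.re) 0 ^ (3 / 2 : ℝ) * ell s.im) := ⟨_, rfl⟩
  have hE0 : 0 ≤ E := hE ▸ by positivity [ell_pos s.im]
  rw [mul_assoc, ← hE, add_mul]
  by_cases h : χ = 1
  · have hs1 : s ≠ 1 := fun hh => by rw [hh] at ht; norm_num at ht
    rw [h, show DirichletCharacter.LFunction (1 : DirichletCharacter ℂ q) s =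
      DirichletCharacter.LFunctionTrivChar q s from rfl,
      DirichletCharacter.LFunctionTrivChar_eq_mul_riemannZeta hs1, norm_mul, norm_prod]
    have hp : ∏ p ∈ q.primeFactors, ‖1 - (p : ℂ) ^ (-s)‖ ≤ 2 ^ q.primeFactors.card := by
      refine (prod_le_prod (fun p _ => norm_nonneg _) (g := fun _ => (2 : ℝ)) fun p hp => ?_).trans
        (le_of_eq (prod_const _))
      have hp := Nat.prime_of_mem_primeFactors hp
      refine (norm_sub_le _ _).trans ?_
      rw [norm_one, Complex.norm_natCast_cpow_of_pos hp.pos, Complex.neg_re]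
      linarith [Real.rpow_le_one_of_one_le_of_nonpos
        (show (1 : ℝ) ≤ p by exact_mod_cast hp.one_lt.le) (show -s.re ≤ 0 by linarith)]
    have hz' : ‖riemannZeta s‖ ≤ C * E := (hz s ht (by linarith) hσ3).trans
      (le_of_eq (by rw [hE]; ring))
    refine (mul_le_mul hp hz' (norm_nonneg _) (by positivity)).trans ?_
    rw [mul_assoc]
    have : 0 ≤ 1300 * (q : ℝ) * 1280 ^ 41 * E := by positivity
    linarith
  · refine (norm_lfunction_upper_le h hσ hσ3 ht).trans (le_of_eq_of_le ?_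
      (le_add_of_nonneg_right (by positivity)))
    rw [hE]
    ring

end FA.Korobov

end
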