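import Mathlib.RingTheory.MvPolynomial.Symmetric.NewtonIdentities
import Mathlib.RingTheory.Polynomial.Vieta
import Mathlib.Data.ZMod.Units
import Mathlib.RingTheory.Int.Basic
import Mathlib.Algebra.BigOperators.Intervals
import Mathlib.Data.Fintype.BigOperators

/-!
# Linnik's lemma

Systems of congruences `∑ x i ^ j ≡ c j` mod `p ^ j`, `j ≤ k`, have at most `k ^ k p ^ (k (k-1)/2)`
solutions `x` below `p ^ k` with entries distinct mod `p`.
-/

set_option autoImplicit false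

noncomputable section

namespace FA.Korobov

open Finset

/-- Equal power sums give equal multisets of values, up to units. -/
theorem prod_sub_eq_zero {R : Type*} [CommRing R] {k : ℕ} {x y : Fin k → R}
    (hu : ∀ j ∈ Icc 1 k, IsUnit (j : R))
    (h : ∀ j ∈ Icc 1 k, ∑ i, x i ^ j = ∑ i, y i ^ j) (i : Fin k) : ∏ l, (x i - y l) = 0 := by
  have he : ∀ j ≤ k, (univ.val.map x).esymm j = (univ.val.map y).esymm j := by
    intro j
    induction j using Nat.strong_induction_on with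
    | _ j ih =>
      intro hj
      rcases Nat.eq_zero_or_pos j with rfl | hj0
      · simp [Multiset.esymm]
      have hN : ∀ z : Fin k → R, (j : R) * (univ.val.map z).esymm j = (-1) ^ (j + 1) *
          ∑ a ∈ antidiagonal j with a.1 < j,
            (-1) ^ a.1 * (univ.val.map z).esymm a.1 * ∑ i, z i ^ a.2 := fun z => by
        have e := congrArg (MvPolynomial.aeval z) (MvPolynomial.mul_esymm_eq_sum (Fin k) R j)
        simpa [map_mul, map_sum, MvPolynomial.aeval_esymm_eq_multiset_esymm, MvPolynomial.psum]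
          using e
      refine (hu j (mem_Icc.2 ⟨hj0, hj⟩)).mul_left_cancel ?_
      rw [hN x, hN y]
      refine congrArg _ (sum_congr rfl fun a ha => ?_)
      obtain ⟨ha, hlt⟩ := mem_filter.1 ha
      rw [mem_antidiagonal] at ha
      rw [ih a.1 hlt (by omega), h a.2 (mem_Icc.2 ⟨by omega, by omega⟩)]
  have hpoly : ((univ.val.map x).map fun t => Polynomial.X - Polynomial.C t).prod =
      ((univ.val.map y).map fun t => Polynomial.X - Polynomial.C t).prod := by
    rw [Multiset.prod_X_sub_X_eq_sum_esymm, Multiset.prod_X_sub_X_eq_sum_esymm]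
    simp only [Multiset.card_map, Finset.card_val, Finset.card_univ, Fintype.card_fin]
    exact sum_congr rfl fun j hj => by rw [he j (by simpa using hj)]
  have e := congrArg (Polynomial.eval (x i)) hpoly
  simp only [Multiset.map_map, Function.comp_apply, prod_map_val, Polynomial.eval_prod,
    Polynomial.eval_sub, Polynomial.eval_X, Polynomial.eval_C] at e
  exact e.symm.trans (prod_eq_zero (mem_univ i) (sub_self _))

/-- In a field of characteristic `0` each entry is one of the others. -/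
theorem exists_eq_of_powerSums_eq {k : ℕ} {x y : Fin k → ℤ}
    (h : ∀ j ∈ Icc 1 k, ∑ i, x i ^ j = ∑ i, y i ^ j) (i : Fin k) : ∃ l, x i = y l := by
  have h0 := prod_sub_eq_zero (R := ℚ) (x := fun i => (x i : ℚ)) (y := fun i => (y i : ℚ))
    (fun j hj => isUnit_iff_ne_zero.2 (Nat.cast_ne_zero.2 (by
      rw [mem_Icc] at hj; omega)))
    (fun j hj => by exact_mod_cast congrArg (fun v : ℤ => (v : ℚ)) (h j hj)) i
  obtain ⟨l, -, hl⟩ := prod_eq_zero_iff.1 h0
  exact ⟨l, by exact_mod_cast sub_eq_zero.1 hl⟩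

variable {k p : ℕ}

theorem isUnit_intCast_iff (hp : p.Prime) (hk : 0 < k) (z : ℤ) :
    IsUnit (z : ZMod (p ^ k)) ↔ ¬(p : ℤ) ∣ z := by
  rw [ZMod.coe_int_isUnit_iff_isCoprime, Nat.cast_pow, IsCoprime.pow_left_iff hk,
    Prime.coprime_iff_not_dvd (Nat.prime_iff_prime_int.1 hp)]

/-- Entries distinct mod `p`. -/
def DistinctMod (p : ℕ) (x : Fin k → ℕ) : Prop := Function.Injective fun i => (x i : ZMod p)

theorem eq_of_prod_eq_zero (hp : p.Prime) (hk : 0 < k) {z : ℤ} {w : Fin k → ℤ}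
    (hw : ∀ i l, (p : ℤ) ∣ w i - w l → i = l)
    (h : ∏ l, ((z : ZMod (p ^ k)) - (w l : ZMod (p ^ k))) = 0) :
    ∃ l, (z : ZMod (p ^ k)) = (w l : ZMod (p ^ k)) := by
  have : Fact (1 < p ^ k) := ⟨Nat.one_lt_pow hk.ne' hp.one_lt⟩
  by_cases hall : ∀ l, IsUnit ((z : ZMod (p ^ k)) - (w l : ZMod (p ^ k)))
  · have h1 := IsUnit.prod_iff.2 fun l (_ : l ∈ univ) => hall l
    exact absurd (h ▸ h1) not_isUnit_zero
  obtain ⟨l, hl⟩ := not_forall.1 hall
  have hdl : (p : ℤ) ∣ z - w l := by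
    rwa [← Int.cast_sub, isUnit_intCast_iff hp hk, not_not] at hl
  refine ⟨l, sub_eq_zero.1 ?_⟩
  rw [← mul_prod_erase univ _ (mem_univ l)] at h
  refine (IsUnit.mul_left_eq_zero ?_).1 h
  refine IsUnit.prod_iff.2 fun i hi => ?_
  rw [← Int.cast_sub, isUnit_intCast_iff hp hk]
  refine fun hd => ne_of_mem_erase hi (hw i l ?_)
  simpa using dvd_sub hdl hd

/-- **Linnik's lemma.** -/
theorem card_congruence_le (hp : p.Prime) (hkp : k < p) {S : Finset ℕ}
    (hS : ∀ z ∈ S, z < p ^ k) (a : ℤ) (c : Fin k → ℤ) {F : Finset (Fin k → ℕ)}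
    (hF : ∀ x ∈ F, (∀ i, x i ∈ S) ∧ DistinctMod p x ∧
      ∀ j : Fin k, (p : ℤ) ^ (j.1 + 1) ∣ ∑ i, ((x i : ℤ) - a) ^ (j.1 + 1) - c j) :
    F.card ≤ k ^ k * p ^ (k * (k - 1) / 2) := by
  classical
  rcases Nat.eq_zero_or_pos k with rfl | hk
  · simpa using card_le_one.2 fun x _ y _ => Subsingleton.elim x y
  have : NeZero p := ⟨hp.ne_zero⟩
  obtain ⟨key, hkey⟩ : ∃ key : (Fin k → ℕ) → ∀ j : Fin k, ZMod (p ^ (k - 1 - j.1)),
      key = fun x j => ((((∑ i, ((x i : ℤ) - a) ^ (j.1 + 1) - c j) / (p : ℤ) ^ (j.1 + 1) : ℤ)) :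
        ZMod (p ^ (k - 1 - j.1))) := ⟨_, rfl⟩
  have hcard : Fintype.card (∀ j : Fin k, ZMod (p ^ (k - 1 - j.1))) = p ^ (k * (k - 1) / 2) := by
    rw [Fintype.card_pi, prod_congr rfl fun j _ => ZMod.card _, prod_pow_eq_pow_sum,
      Fin.sum_univ_eq_sum_range (fun j => k - 1 - j), sum_range_reflect (fun j => j) k,
      sum_range_id]
  refine (card_le_mul_card_image (f := key) F (k ^ k) fun b hb => ?_).trans
    (Nat.mul_le_mul_left _ ((card_le_univ _).trans hcard.le))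
  obtain ⟨x₀, hx₀, rfl⟩ := mem_image.1 hb
  obtain ⟨-, hdist, hdiv₀⟩ := hF x₀ hx₀
  have hl : ∀ x : {x // x ∈ F.filter fun x => key x = key x₀}, ∀ i, ∃ l,
      ((x.1 i : ℕ) : ZMod (p ^ k)) = ((x₀ l : ℕ) : ZMod (p ^ k)) := by
    rintro ⟨x, hx⟩ i
    obtain ⟨hxF, hxk⟩ := mem_filter.1 hx
    obtain ⟨-, -, hdiv⟩ := hF x hxF
    have hps : ∀ j ∈ Icc 1 k, ∑ l, ((((x l : ℤ) - a : ℤ)) : ZMod (p ^ k)) ^ j =
        ∑ l, ((((x₀ l : ℤ) - a : ℤ)) : ZMod (p ^ k)) ^ j := by
      intro j hj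
      rw [mem_Icc] at hj
      simp only [← Int.cast_pow, ← Int.cast_sum]
      rw [ZMod.intCast_eq_intCast_iff_dvd_sub]
      have hq := congrFun hxk ⟨j - 1, by omega⟩
      rw [hkey] at hq
      simp only [ZMod.intCast_eq_intCast_iff_dvd_sub] at hq
      have h1 := hdiv ⟨j - 1, by omega⟩
      have h2 := hdiv₀ ⟨j - 1, by omega⟩
      simp only [Nat.sub_add_cancel hj.1] at h1 h2 hq
      obtain ⟨q₁, e₁⟩ := h1
      obtain ⟨q₂, e₂⟩ := h2
      have hp0 : (p : ℤ) ^ j ≠ 0 := pow_ne_zero _ (by exact_mod_cast hp.ne_zero)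
      rw [e₁, e₂, Int.mul_ediv_cancel_left _ hp0, Int.mul_ediv_cancel_left _ hp0] at hq
      obtain ⟨u, hu⟩ := hq
      refine ⟨u, ?_⟩
      have hsplit : ((p ^ k : ℕ) : ℤ) = (p : ℤ) ^ j * ((p ^ (k - 1 - (j - 1)) : ℕ) : ℤ) := by
        push_cast
        rw [← pow_add]
        congr 1
        omega
      rw [hsplit, mul_assoc, ← hu, mul_sub]
      linarith
    have hw : ∀ i l : Fin k, (p : ℤ) ∣ ((x₀ i : ℤ) - a) - ((x₀ l : ℤ) - a) → i = l :=
      fun i l hd => hdist (by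
        rw [sub_sub_sub_cancel_right, ← ZMod.intCast_eq_intCast_iff_dvd_sub] at hd
        simpa using hd.symm)
    have hu : ∀ j ∈ Icc 1 k, IsUnit (j : ZMod (p ^ k)) := fun j hj => by
      rw [mem_Icc] at hj
      rw [← Int.cast_natCast, isUnit_intCast_iff hp hk]
      intro hd
      have := Nat.le_of_dvd hj.1 (Int.natCast_dvd_natCast.1 hd)
      omega
    obtain ⟨l, hl⟩ := eq_of_prod_eq_zero hp hk hw (prod_sub_eq_zero hu hps i)
    exact ⟨l, by simpa using hl⟩
  choose σ hσ using hl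
  calc (F.filter fun x => key x = key x₀).card = Fintype.card {x // x ∈ F.filter fun x =>
        key x = key x₀} := (Fintype.card_coe _).symm
    _ ≤ Fintype.card (Fin k → Fin k) := by
        refine Fintype.card_le_of_injective σ fun x y he => Subtype.ext (funext fun i => ?_)
        have e : ((x.1 i : ℕ) : ZMod (p ^ k)) = ((y.1 i : ℕ) : ZMod (p ^ k)) := by
          rw [hσ x i, hσ y i, he]
        rw [ZMod.natCast_eq_natCast_iff'] at e
        rwa [Nat.mod_eq_of_lt (hS _ ((hF _ (mem_filter.1 x.2).1).1 i)),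
          Nat.mod_eq_of_lt (hS _ ((hF _ (mem_filter.1 y.2).1).1 i))] at e
    _ = k ^ k := by simp

end FA.Korobov

end
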