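import Fermat.Agent.Korobov.Region
import Fermat.Agent.ZeroFreeRegion.ErrorTerm

/-!
# The prime number theorem with the error term of Vinogradov and Korobov

`ψ x`, `ϑ x` are `x + O (x exp (-c (log x) ^ (3/5) / (log log x) ^ (1/5)))`, and `π x` is
`∫_2^x dt / log t` up to the same error: the argument of `FA.DLVP` run in the wider region.
-/

set_option autoImplicit false

noncomputable section

namespace FA.Korobov

open Complex MeasureTheory Filter Topology Finset FA.ZeroFree
open scoped ArithmeticFunction.vonMangoldt Real Chebyshev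

/-- `(log x) ^ (3/5) / (log (log x + 3)) ^ (1/5)`. -/
def rate (x : ℝ) : ℝ := Real.log x ^ (3 / 5 : ℝ) / Real.log (Real.log x + 3) ^ (1 / 5 : ℝ)

theorem one_le_log_add_three {X : ℝ} (hX : 0 ≤ X) : 1 ≤ Real.log (X + 3) := by
  rw [Real.le_log_iff_exp_le (by linarith)]
  linarith [Real.exp_one_lt_three]

theorem rate_nonneg {x : ℝ} (hx : 1 ≤ x) : 0 ≤ rate x := by
  have h := Real.log_nonneg hx
  exact div_nonneg (Real.rpow_nonneg h _)
    (Real.rpow_nonneg (by linarith [one_le_log_add_three h]) _)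

theorem rate_le_log_add_one {x : ℝ} (hx : 1 ≤ x) : rate x ≤ Real.log x + 1 := by
  have h := Real.log_nonneg hx
  refine (div_le_self (Real.rpow_nonneg h _)
    (Real.one_le_rpow (one_le_log_add_three h) (by norm_num))).trans ?_
  refine (Real.rpow_le_rpow h (show Real.log x ≤ Real.log x + 1 by linarith) (by norm_num)).trans ?_
  exact Real.rpow_le_self_of_one_le (by linarith) (by norm_num)

theorem rate_bounds {x : ℝ} (hx : 3 ≤ x) : 1 / 2 ≤ rate x ∧ rate x ≤ Real.log x := by
  have hX : 1 ≤ Real.log x := by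
    rw [Real.le_log_iff_exp_le (by linarith)]
    linarith [Real.exp_one_lt_three]
  have hg := one_le_log_add_three (zero_le_one.trans hX)
  refine ⟨?_, (div_le_self (Real.rpow_nonneg (by linarith) _)
    (Real.one_le_rpow hg (by norm_num))).trans (Real.rpow_le_self_of_one_le hX (by norm_num))⟩
  rw [rate, le_div_iff₀ (Real.rpow_pos_of_pos (by linarith) _)]
  have h1 : Real.log (Real.log x + 3) ≤ 3 * Real.log x := by
    linarith [Real.log_le_sub_one_of_pos (show 0 < Real.log x + 3 by linarith)]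
  have h2 : Real.log (Real.log x + 3) ^ (1 / 5 : ℝ) ≤ 2 * Real.log x ^ (3 / 5 : ℝ) :=
    calc Real.log (Real.log x + 3) ^ (1 / 5 : ℝ) ≤ (3 * Real.log x) ^ (1 / 5 : ℝ) :=
          Real.rpow_le_rpow (by linarith) h1 (by norm_num)
      _ = (3 : ℝ) ^ (1 / 5 : ℝ) * Real.log x ^ (1 / 5 : ℝ) :=
          Real.mul_rpow (by norm_num) (by linarith)
      _ ≤ _ := by
          refine mul_le_mul ?_ (Real.rpow_le_rpow_of_exponent_le hX (by norm_num))
            (Real.rpow_nonneg (by linarith) _) two_pos.le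
          rw [one_div, Real.rpow_inv_le_iff_of_pos (by norm_num) two_pos.le (by norm_num)]
          norm_num
  linarith

theorem rate_near {x z : ℝ} (hx : 4 ≤ x) (hz : x / 2 ≤ z) (hz' : z ≤ 3 * x / 2) :
    rate x / 2 ≤ rate z := by
  obtain ⟨X, hX⟩ : ∃ X, X = Real.log x := ⟨_, rfl⟩
  obtain ⟨Y, hY⟩ : ∃ Y, Y = Real.log z := ⟨_, rfl⟩
  have h4 : Real.log 4 ≤ X := hX ▸ Real.log_le_log (by norm_num) hx
  rw [show (4 : ℝ) = 2 ^ 2 by norm_num, Real.log_pow] at h4
  push_cast at h4
  have hl2 := Real.log_two_gt_d9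
  have hlo : X / 2 ≤ Y := by
    have := Real.log_le_log (by linarith) hz
    rw [Real.log_div (by linarith) two_ne_zero, ← hX, ← hY] at this
    linarith
  have hhi : Y ≤ X + 1 := by
    have := Real.log_le_log (by linarith) hz'
    rw [show 3 * x / 2 = 3 / 2 * x by ring, Real.log_mul (by norm_num) (by linarith), ← hX,
      ← hY] at this
    linarith [Real.log_le_sub_one_of_pos (show (0 : ℝ) < 3 / 2 by norm_num)]
  have hg := one_le_log_add_three (show 0 ≤ Y by linarith)
  have hg' : Real.log (Y + 3) ≤ 2 * Real.log (X + 3) := by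
    rw [show 2 * Real.log (X + 3) = Real.log ((X + 3) ^ 2) by rw [Real.log_pow]; norm_num]
    exact Real.log_le_log (by linarith) (by nlinarith)
  rw [rate, rate, ← hX, ← hY]
  have hgX := one_le_log_add_three (show 0 ≤ X by linarith)
  calc X ^ (3 / 5 : ℝ) / Real.log (X + 3) ^ (1 / 5 : ℝ) / 2
      ≤ (X / 2) ^ (3 / 5 : ℝ) / (2 * Real.log (X + 3)) ^ (1 / 5 : ℝ) := by
        rw [Real.div_rpow (by linarith) two_pos.le, Real.mul_rpow two_pos.le (by linarith),
          div_div, div_div, ← mul_assoc, ← Real.rpow_add two_pos,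
          mul_comm (Real.log (X + 3) ^ (1 / 5 : ℝ))]
        refine div_le_div_of_nonneg_left (Real.rpow_nonneg (by linarith) _)
          (mul_pos (Real.rpow_pos_of_pos two_pos _) (Real.rpow_pos_of_pos (by linarith) _))
          (mul_le_mul_of_nonneg_right ?_ (Real.rpow_nonneg (by linarith) _))
        exact Real.rpow_le_self_of_one_le one_le_two (by norm_num)
    _ ≤ _ := by
        refine div_le_div₀ (Real.rpow_nonneg (by linarith) _)
          (Real.rpow_le_rpow (by linarith) hlo (by norm_num))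
          (Real.rpow_pos_of_pos (by linarith) _)
          (Real.rpow_le_rpow (by linarith) hg' (by norm_num))

/-- The height `exp (rate x)` costs `log x / rate x` in the region. -/
theorem gauge_exp_rate {x : ℝ} (hx : 3 ≤ x) :
    gauge (Real.exp (rate x)) * rate x ≤ 12 * Real.log x := by
  obtain ⟨hu, hul⟩ := rate_bounds hx
  obtain ⟨u, hu'⟩ : ∃ u, u = rate x := ⟨_, rfl⟩
  obtain ⟨g, hg⟩ : ∃ g, g = Real.log (Real.log x + 3) := ⟨_, rfl⟩
  rw [← hu'] at hu hul ⊢
  have hX : 0 ≤ Real.log x := by linarith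
  have hg1 : 1 ≤ g := hg ▸ one_le_log_add_three hX
  have hell : ell (Real.exp u) ≤ 12 * u := by
    unfold ell
    rw [abs_of_pos (Real.exp_pos u), Real.log_le_iff_le_exp (by positivity),
      show 12 * u = u + 11 * u by ring, Real.exp_add]
    have h5 : (101 : ℝ) ≤ Real.exp (11 * u) :=
      calc (101 : ℝ) ≤ (2.7 : ℝ) ^ 5 := by norm_num
        _ ≤ Real.exp 1 ^ 5 :=
          pow_le_pow_left₀ (by norm_num) (by linarith [Real.exp_one_gt_d9]) 5
        _ = Real.exp ((5 : ℕ) * 1) := (Real.exp_nat_mul 1 5).symm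
        _ ≤ _ := Real.exp_le_exp.2 (by norm_num; linarith)
    nlinarith [Real.one_le_exp (show 0 ≤ u by linarith)]
  have hlog : Real.log (ell (Real.exp u)) ≤ 12 * g := by
    refine (Real.log_le_log (ell_pos _) hell).trans ?_
    rw [Real.log_mul (by norm_num : (12 : ℝ) ≠ 0) (show u ≠ 0 by linarith)]
    have h1 : Real.log u ≤ g := hg ▸ Real.log_le_log (by linarith) (by linarith)
    have h2 := Real.log_le_sub_one_of_pos (show (0 : ℝ) < 12 by norm_num)
    linarith
  have hid : u ^ (2 / 3 : ℝ) * g ^ (1 / 3 : ℝ) * u = Real.log x := by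
    rw [mul_right_comm, ← Real.rpow_add_one (show u ≠ 0 by linarith), hu', rate, ← hg,
      Real.div_rpow (Real.rpow_nonneg hX _) (Real.rpow_nonneg (by linarith) _),
      ← Real.rpow_mul hX, ← Real.rpow_mul (show 0 ≤ g by linarith),
      show (3 / 5 : ℝ) * (2 / 3 + 1) = 1 by norm_num,
      show (1 / 5 : ℝ) * (2 / 3 + 1) = 1 / 3 by norm_num, Real.rpow_one,
      div_mul_cancel₀ _ (Real.rpow_pos_of_pos (by linarith) _).ne']
  calc gauge (Real.exp u) * u ≤ (12 * u) ^ (2 / 3 : ℝ) * (12 * g) ^ (1 / 3 : ℝ) * u := by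
        refine mul_le_mul_of_nonneg_right ?_ (by linarith)
        exact mul_le_mul (Real.rpow_le_rpow (ell_pos _).le hell (by norm_num))
          (Real.rpow_le_rpow (by linarith [one_le_log_ell (Real.exp u)]) hlog (by norm_num))
          (Real.rpow_nonneg (by linarith [one_le_log_ell (Real.exp u)]) _)
          (Real.rpow_nonneg (by linarith) _)
    _ = (12 : ℝ) ^ (2 / 3 : ℝ) * (12 : ℝ) ^ (1 / 3 : ℝ) *
          (u ^ (2 / 3 : ℝ) * g ^ (1 / 3 : ℝ) * u) := by
        rw [Real.mul_rpow (by norm_num) (by linarith), Real.mul_rpow (by norm_num) (by linarith)]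
        ring
    _ = _ := by rw [hid, ← Real.rpow_add (by norm_num)]; norm_num

/-- The bound for the integrand in the region. -/
theorem exists_shiftFn_bound : ∃ a C, 0 < a ∧ a ≤ 1 ∧ 0 ≤ C ∧ ∀ x : ℝ, 0 < x → ∀ σ y : ℝ,
    1 - a / gauge y ≤ σ → σ ≤ 2 →
      DifferentiableAt ℂ (shiftFn x) ((σ : ℂ) + y * I) ∧
        ‖shiftFn x ((σ : ℂ) + y * I)‖ ≤ C * x ^ σ * decay y := by
  obtain ⟨a, C, ha, ha1, hC, h⟩ := exists_errLog_region
  refine ⟨a, 4 * C, ha, ha1, by positivity, fun x hx σ y h1 h2 => ?_⟩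
  have hσ : 1 / 2 ≤ σ := by
    have h3 : a / gauge y ≤ 1 / 2 := by
      exact (div_le_div_of_nonneg_right ha1 (gauge_pos y).le).trans
        (one_div_le_one_div_of_le (by norm_num) (gauge_bounds y).1)
    linarith
  obtain ⟨hz, hb⟩ := h ((σ : ℂ) + y * I) (by simpa using h1) (by simpa using h2)
  simp only [add_im, ofReal_im, mul_im, ofReal_re, I_im, I_re, mul_zero, mul_one, zero_add,
    add_zero] at hb
  have hs0 : (σ : ℂ) + y * I ≠ 0 := fun h => by
    have := congrArg Complex.re h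
    simp at this
    linarith
  have hs1 : (σ : ℂ) + y * I + 1 ≠ 0 := fun h => by
    have := congrArg Complex.re h
    simp at this
    linarith
  refine ⟨((differentiableAt_id.const_cpow (Or.inl (Complex.ofReal_ne_zero.2 hx.ne'))).mul
    (differentiableAt_errLog hz)).div (by fun_prop) (mul_ne_zero hs0 hs1), ?_⟩
  rw [shiftFn, norm_div, norm_mul, norm_cpow_eq_rpow_re_of_pos hx]
  simp only [add_re, ofReal_re, mul_re, I_re, mul_zero, ofReal_im, I_im, mul_one, sub_self,
    add_zero]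
  rw [div_eq_mul_one_div]
  have e : (1 + y ^ 2) ^ (1 / 4 : ℝ) * (1 / (1 + y ^ 2)) = decay y := by
    rw [decay, one_div (1 + y ^ 2), ← Real.rpow_neg_one, ← Real.rpow_add (by positivity)]
    norm_num
  calc x ^ σ * ‖errLog ((σ : ℂ) + y * I)‖ *
        (1 / ‖((σ : ℂ) + y * I) * ((σ : ℂ) + y * I + 1)‖)
      ≤ x ^ σ * (C * (1 + y ^ 2) ^ (1 / 4 : ℝ)) * (4 / (1 + y ^ 2)) := by
        refine mul_le_mul ?_ (norm_kernel_inv_le hσ y) (by positivity) (by positivity)
        exact mul_le_mul_of_nonneg_left hb (Real.rpow_nonneg hx.le _)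
    _ = 4 * C * x ^ σ * ((1 + y ^ 2) ^ (1 / 4 : ℝ) * (1 / (1 + y ^ 2))) := by ring
    _ = _ := by rw [e]

/-- **The bound for the smoothed sum.** -/
theorem exists_smoothErr_bound : ∃ a C, 0 < a ∧ a ≤ 1 ∧ 0 ≤ C ∧ ∀ x T : ℝ, 3 ≤ x → 1 ≤ T →
    |smoothErr x| ≤ C * x * (x ^ (-(a / gauge T)) + T ^ (-(1 / 2) : ℝ)) := by
  obtain ⟨a, C, ha, ha1, hC, hb⟩ := exists_shiftFn_bound
  obtain ⟨J, hJ⟩ : ∃ J, J = ∫ y, decay y := ⟨_, rfl⟩
  have hJ0 : 0 ≤ J := hJ ▸ integral_nonneg fun y => (decay_pos y).le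
  refine ⟨a, C * (J + 3 * 8), ha, ha1, by positivity, fun x T hx hT => ?_⟩
  have hx0 : 0 < x := by linarith
  have hlog : 1 ≤ Real.log x := by
    rw [Real.le_log_iff_exp_le hx0]
    linarith [Real.exp_one_lt_three]
  obtain ⟨σ₂, hσ₂⟩ : ∃ σ₂, σ₂ = 1 + 1 / Real.log x := ⟨_, rfl⟩
  have h12 : 1 < σ₂ := by
    rw [hσ₂]
    have : 0 < 1 / Real.log x := by positivity
    linarith
  have h22 : σ₂ ≤ 2 := by
    rw [hσ₂]
    have : 1 / Real.log x ≤ 1 := (div_le_one (by linarith)).2 hlog
    linarith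
  have hxσ₂ : x ^ σ₂ ≤ 3 * x := by
    rw [hσ₂, Real.rpow_add hx0, Real.rpow_one, mul_comm]
    refine mul_le_mul_of_nonneg_right (le_of_eq_of_le ?_ Real.exp_one_lt_three.le) hx0.le
    rw [Real.rpow_def_of_pos hx0, mul_one_div_cancel (by linarith)]
  obtain ⟨σ₁, hσ₁⟩ : ∃ σ₁, σ₁ = 1 - a / gauge T := ⟨_, rfl⟩
  have hq : 0 < a / gauge T := div_pos ha (gauge_pos T)
  have h11 : σ₁ ≤ 1 := by linarith
  have hinreg : ∀ σ y : ℝ, |y| ≤ T → σ₁ ≤ σ → 1 - a / gauge y ≤ σ := by
    intro σ y hy hσ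
    have h3 : a / gauge T ≤ a / gauge y := div_le_div_of_nonneg_left ha.le
      (gauge_pos y) (gauge_mono (by rwa [abs_of_pos (by linarith : (0 : ℝ) < T)]))
    linarith
  have hright : ∀ y : ℝ, 1 - a / gauge y ≤ σ₂ := fun y => by
    have : 0 < a / gauge y := div_pos ha (gauge_pos y)
    linarith
  obtain ⟨f, hf⟩ : ∃ f : ℝ → ℂ, f = fun y : ℝ => shiftFn x ((σ₂ : ℂ) + y * I) := ⟨_, rfl⟩
  have hfc : Continuous f := by
    refine hf ▸ continuous_iff_continuousAt.2 fun y => ?_
    exact ContinuousAt.comp' (g := shiftFn x) ((hb x hx0 σ₂ y (hright y) h22).1.continuousAt)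
      (by fun_prop)
  have hfb : ∀ y, ‖f y‖ ≤ C * (3 * x) * decay y := fun y => by
    rw [hf]
    refine ((hb x hx0 σ₂ y (hright y) h22).2).trans ?_
    gcongr
    exact (decay_pos y).le
  have hfi : Integrable f := (integrable_decay.const_mul (C * (3 * x))).mono'
    hfc.aestronglyMeasurable (Eventually.of_forall hfb)
  have hcompl : (Set.Icc (-T) T)ᶜ ⊆ Set.Iio (-T) ∪ Set.Ioi T := by
    intro y hy
    simp only [Set.mem_compl_iff, Set.mem_Icc, not_and_or, not_le] at hy
    exact hy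
  -- the tails
  have hT0 : 0 < T := by linarith
  have hdint : ∫ y in Set.Ioi T, decay y ≤ 2 * T ^ (-(1 / 2) : ℝ) := by
    refine (setIntegral_mono_on integrable_decay.integrableOn
      (integrableOn_Ioi_rpow_of_lt (by norm_num : (-(3 / 2) : ℝ) < -1) hT0) measurableSet_Ioi
      fun y hy => decay_le (hT0.trans hy)).trans (le_of_eq ?_)
    rw [integral_Ioi_rpow_of_lt (by norm_num) hT0]
    norm_num
    ring
  have hdneg : ∫ y in Set.Iio (-T), decay y = ∫ y in Set.Ioi T, decay y := by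
    rw [← integral_Iic_eq_integral_Iio, ← integral_comp_neg_Ioi]
    simp [decay]
  have htail : ‖(∫ y, f y) - ∫ y in (-T)..T, f y‖ ≤ C * (3 * x) * (4 * T ^ (-(1 / 2) : ℝ)) := by
    rw [intervalIntegral.integral_of_le (by linarith), ← integral_Icc_eq_integral_Ioc,
      ← integral_add_compl (s := Set.Icc (-T) T) measurableSet_Icc hfi, add_sub_cancel_left]
    refine (norm_integral_le_of_norm_le (integrable_decay.const_mul _).integrableOn
      (Eventually.of_forall hfb)).trans ?_
    rw [integral_const_mul]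
    refine mul_le_mul_of_nonneg_left ?_ (by positivity)
    refine (setIntegral_mono_set integrable_decay.integrableOn
      (Eventually.of_forall fun y => (decay_pos y).le) hcompl.eventuallyLE).trans ?_
    rw [setIntegral_union (Set.disjoint_left.2 fun y h1 h2 => by
        simp only [Set.mem_Iio] at h1
        simp only [Set.mem_Ioi] at h2
        linarith) measurableSet_Ioi integrable_decay.integrableOn integrable_decay.integrableOn,
      hdneg]
    linarith
  -- the rectangle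
  have hrect := Complex.integral_boundary_rect_eq_zero_of_differentiableOn (shiftFn x)
    ((σ₁ : ℂ) + ((-T : ℝ) : ℂ) * I) ((σ₂ : ℂ) + (T : ℂ) * I) (fun s hs => by
      rw [Complex.mem_reProdIm] at hs
      simp only [add_re, ofReal_re, mul_re, I_re, mul_zero, ofReal_im, I_im, mul_one, sub_self,
        add_zero, add_im, mul_im, zero_add, Set.uIcc_of_le (h11.trans h12.le),
        Set.uIcc_of_le (show -T ≤ T by linarith)] at hs
      have := (hb x hx0 s.re s.im (hinreg _ _ (abs_le.2 hs.2) hs.1.1) (hs.1.2.trans h22)).1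
      rw [Complex.re_add_im] at this
      exact this.differentiableWithinAt)
  simp only [add_re, ofReal_re, mul_re, I_re, mul_zero, ofReal_im, I_im, mul_one, sub_self,
    add_zero, add_im, mul_im, zero_add] at hrect
  obtain ⟨P, hP⟩ : ∃ P : ℝ → ℂ, P = fun v : ℝ =>
      ∫ u in σ₁..σ₂, shiftFn x ((u : ℂ) + (v : ℂ) * I) := ⟨_, rfl⟩
  obtain ⟨Q, hQ⟩ : ∃ Q : ℂ, Q = ∫ y in (-T)..T, shiftFn x ((σ₁ : ℂ) + y * I) := ⟨_, rfl⟩
  have hcentral : ‖Q‖ ≤ C * x ^ σ₁ * J := by
    rw [hQ]
    refine (intervalIntegral.norm_integral_le_of_norm_le (by linarith)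
      (Eventually.of_forall fun y hy => (hb x hx0 σ₁ y (hinreg σ₁ y ?_ le_rfl)
        (by linarith)).2) (integrable_decay.const_mul _).intervalIntegrable).trans ?_
    · exact abs_le.2 ⟨hy.1.le, hy.2⟩
    · rw [intervalIntegral.integral_const_mul, intervalIntegral.integral_of_le (by linarith), hJ]
      refine mul_le_mul_of_nonneg_left (setIntegral_le_integral integrable_decay
        (Eventually.of_forall fun y => (decay_pos y).le)) (by positivity)
  have hhor : ∀ v : ℝ, |v| = T → ‖P v‖ ≤ C * (3 * x) * T ^ (-(1 / 2) : ℝ) * 2 := by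
    intro v hv
    rw [hP]
    refine (intervalIntegral.norm_integral_le_of_norm_le_const
      (C := C * (3 * x) * decay T) fun u hu => ?_).trans ?_
    · rw [Set.uIoc_of_le (h11.trans h12.le)] at hu
      refine (hb x hx0 u v (hinreg u v hv.le hu.1.le) (hu.2.trans h22)).2.trans (le_of_eq_of_le
        (?_ : _ = C * x ^ u * decay T) ?_)
      · rw [show decay v = decay T by unfold decay; rw [← sq_abs v, hv]]
      · gcongr
        · exact (decay_pos T).le
        · exact (Real.rpow_le_rpow_of_exponent_le (by linarith) hu.2).trans hxσ₂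
    · have hσ12 : |σ₂ - σ₁| ≤ 2 := by
        have h9 : a / gauge T ≤ 1 := (div_le_one (gauge_pos T)).2
          (ha1.trans (by linarith [(gauge_bounds T).1]))
        rw [abs_le]
        constructor <;> linarith
      refine mul_le_mul (mul_le_mul_of_nonneg_left ((decay_le hT0).trans
        (Real.rpow_le_rpow_of_exponent_le hT (by norm_num))) (by positivity)) hσ12 (abs_nonneg _)
        (by positivity)
  have hmid : ‖∫ y in (-T)..T, f y‖ ≤
      C * x ^ σ₁ * J + C * (3 * x) * T ^ (-(1 / 2) : ℝ) * 4 := by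
    have e : I * (∫ y in (-T)..T, f y) = I * Q + P T - P (-T) := by
      rw [hf, hQ, hP]
      simp only [smul_eq_mul] at hrect
      linear_combination hrect
    have := congrArg (fun z : ℂ => ‖z‖) e
    simp only [norm_mul, Complex.norm_I, one_mul] at this
    rw [this]
    refine (norm_sub_le _ _).trans ((add_le_add (norm_add_le _ _) le_rfl).trans ?_)
    rw [norm_mul, Complex.norm_I, one_mul]
    linarith [hhor T (abs_of_pos hT0), hhor (-T) (by rw [abs_neg, abs_of_pos hT0]), hcentral]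
  have htotal : ‖∫ y, f y‖ ≤ C * x ^ σ₁ * J + C * (3 * x) * T ^ (-(1 / 2) : ℝ) * 8 := by
    have := norm_le_norm_add_norm_sub' (∫ y, f y) (∫ y in (-T)..T, f y)
    linarith
  have hs := smoothErr_eq hx0 h12
  rw [← Real.norm_eq_abs, ← Complex.norm_real, hs, norm_smul, Real.norm_eq_abs,
    abs_of_pos (by positivity)]
  have hpi : 1 / (2 * π) ≤ 1 := by
    rw [div_le_one (by positivity)]
    linarith [Real.two_le_pi]
  refine (mul_le_of_le_one_left (norm_nonneg _) hpi).trans ?_
  rw [hf] at htotal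
  refine htotal.trans ?_
  rw [hσ₁, sub_eq_add_neg, Real.rpow_add hx0, Real.rpow_one]
  have p1 : 0 ≤ C * x * T ^ (-(1 / 2) : ℝ) * J := by positivity
  have p2 : 0 ≤ C * x * x ^ (-(a / gauge T)) * 24 := by positivity
  linarith

/-- `ψ₁ x = x² / 2 + O (x² exp (-c rate x))`. -/
theorem exists_psiOne_bound : ∃ c C, 0 < c ∧ c ≤ 1 ∧ 0 ≤ C ∧ ∀ x : ℝ, 3 ≤ x →
    |psiOne x - x ^ 2 / 2| ≤ C * x ^ 2 * Real.exp (-(c * rate x)) := by
  obtain ⟨a, C, ha, ha1, hC, h⟩ := exists_smoothErr_bound
  obtain ⟨c, hc⟩ : ∃ c, c = a / 12 := ⟨_, rfl⟩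
  have hc0 : 0 < c := by rw [hc]; positivity
  have hc1 : c ≤ 1 / 2 := by
    rw [hc]
    linarith
  refine ⟨c, 2 * C + 1, hc0, by linarith, by positivity, fun x hx => ?_⟩
  obtain ⟨hu1, hul⟩ := rate_bounds hx
  have hx0 : 0 < x := by linarith
  obtain ⟨u, hu⟩ : ∃ u, u = rate x := ⟨_, rfl⟩
  rw [← hu] at hu1 hul ⊢
  have hlog0 : 0 ≤ Real.log x := by linarith
  obtain ⟨E, hE⟩ : ∃ E, E = Real.exp (-(c * u)) := ⟨_, rfl⟩
  rw [← hE]
  have h1 := h x (Real.exp u) hx (Real.one_le_exp (by linarith))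
  have e1 : x ^ (-(a / gauge (Real.exp u))) ≤ E := by
    rw [Real.rpow_def_of_pos hx0, hE]
    refine Real.exp_le_exp.2 ?_
    have hg0 := gauge_pos (Real.exp u)
    rw [mul_neg, neg_le_neg_iff, hc, mul_div_assoc', le_div_iff₀ hg0]
    have := mul_le_mul_of_nonneg_left (gauge_exp_rate hx) (show 0 ≤ a / 12 by positivity)
    rw [← hu] at this
    linarith
  have e2 : Real.exp u ^ (-(1 / 2) : ℝ) ≤ E := by
    rw [← Real.exp_mul, hE]
    refine Real.exp_le_exp.2 ?_
    have := mul_le_mul_of_nonneg_right hc1 (show 0 ≤ u by linarith)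
    linarith
  have hS : |smoothErr x| ≤ C * x * (2 * E) :=
    h1.trans (mul_le_mul_of_nonneg_left (by linarith) (by positivity))
  have hxE : x ≤ x ^ 2 * E := by
    have h11 : x⁻¹ ≤ E := by
      rw [hE, ← Real.exp_log (inv_pos.2 hx0), Real.log_inv]
      refine Real.exp_le_exp.2 (neg_le_neg ?_)
      exact (mul_le_of_le_one_left (by linarith) (by linarith)).trans hul
    calc x = x ^ 2 * x⁻¹ := by field_simp
      _ ≤ _ := mul_le_mul_of_nonneg_left h11 (by positivity)
  have hsplit : psiOne x = x * smoothErr x + ∑ n ∈ Icc 1 ⌊x⌋₊, (x - n) := by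
    rw [psiOne, smoothErr, mul_sum, ← sum_add_distrib]
    refine sum_congr rfl fun n _ => ?_
    field_simp
    ring
  have hgauss : ∀ m : ℕ, ∑ n ∈ Icc 1 m, (n : ℝ) = (m : ℝ) * (m + 1) / 2 := fun m => by
    induction m with
    | zero => simp
    | succ k ih =>
      rw [sum_Icc_succ_top (by omega), ih]
      push_cast
      ring
  have hlin : |∑ n ∈ Icc 1 ⌊x⌋₊, (x - n) - x ^ 2 / 2| ≤ x := by
    rw [sum_sub_distrib, hgauss, sum_const, Nat.card_Icc, Nat.add_sub_cancel, nsmul_eq_mul,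
      abs_le]
    have := Nat.floor_le hx0.le
    have := Nat.lt_floor_add_one x
    constructor <;> nlinarith
  rw [hsplit]
  have h12 : |x * smoothErr x| ≤ x * (C * x * (2 * E)) := by
    rw [abs_mul, abs_of_pos hx0]
    exact mul_le_mul_of_nonneg_left hS hx0.le
  rw [abs_le] at hlin h12 ⊢
  constructor <;> nlinarith

/-- **The error term.** -/
theorem exists_psi_error : ∃ c C, 0 < c ∧ 0 < C ∧ ∀ x : ℝ, 2 ≤ x →
    |ψ x - x| ≤ C * x * Real.exp (-(c * rate x)) := by
  obtain ⟨c, C, hc, hc1, hC, h⟩ := exists_psiOne_bound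
  obtain ⟨B, hB⟩ : ∃ B : ℝ, B = Real.log 4 + 5 := ⟨_, rfl⟩
  have hB5 : 5 ≤ B := by
    rw [hB]
    linarith [Real.log_nonneg (by norm_num : (1 : ℝ) ≤ 4)]
  have htriv : ∀ x : ℝ, 0 ≤ x → |ψ x - x| ≤ B * x := fun x hx => by
    have h1 := Chebyshev.psi_le_const_mul_self hx
    have h2 := Chebyshev.psi_nonneg x
    have h3 : 0 ≤ Real.log 4 * x := mul_nonneg (Real.log_nonneg (by norm_num)) hx
    rw [hB, abs_le]
    constructor <;> nlinarith
  refine ⟨c / 4, 2 * B + 1 + 8 * C + B * Real.exp 2, by positivity, by positivity,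
    fun x hx => ?_⟩
  have hx0 : 0 < x := by linarith
  obtain ⟨η, hη⟩ : ∃ η, η = Real.exp (-(c / 4 * rate x)) := ⟨_, rfl⟩
  rw [← hη]
  have hη0 : 0 < η := hη ▸ Real.exp_pos _
  have hBe : 0 ≤ B * Real.exp 2 * (x * η) := by positivity
  have hC8 : 0 ≤ 8 * C * (x * η) := by positivity
  have h2B : 0 ≤ 2 * B * (x * η) := by positivity
  rcases lt_or_ge x 6 with hx6 | hx6
  · have hsmall : 1 ≤ Real.exp 2 * η := by
      rw [hη, ← Real.exp_add]
      refine Real.one_le_exp ?_
      have h0 : 0 ≤ Real.log x := Real.log_nonneg (by linarith)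
      have h3 : rate x ≤ 8 := by
        linarith [Real.log_le_sub_one_of_pos hx0, rate_le_log_add_one (x := x) (by linarith)]
      have h4 : c / 4 * rate x ≤ 1 / 4 * 8 :=
        mul_le_mul (by linarith) h3 (rate_nonneg (by linarith)) (by norm_num)
      linarith
    refine (htriv x hx0.le).trans ?_
    have h4 : B * x ≤ B * Real.exp 2 * (x * η) :=
      calc B * x = B * x * 1 := (mul_one _).symm
        _ ≤ B * x * (Real.exp 2 * η) := mul_le_mul_of_nonneg_left hsmall (by positivity)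
        _ = _ := by ring
    nlinarith
  rcases lt_or_ge (1 / 2) η with hbig | hsm
  · refine (htriv x hx0.le).trans ?_
    have h5 : B * x ≤ 2 * B * (x * η) := by
      calc B * x = 2 * B * (x * (1 / 2)) := by ring
        _ ≤ _ := by gcongr
    nlinarith
  obtain ⟨hd, hd'⟩ : ∃ hd, hd = x * η := ⟨_, rfl⟩
  have hd0 : 0 < hd := hd' ▸ mul_pos hx0 hη0
  have hdx : hd ≤ x / 2 := by
    rw [hd']
    have := mul_le_mul_of_nonneg_left hsm hx0.le
    linarith
  have hdown' : ∀ z : ℝ, x / 2 ≤ z → z ≤ 3 * x / 2 →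
      Real.exp (-(c * rate z)) ≤ η * η := by
    intro z hz hz'
    rw [hη, ← Real.exp_add]
    refine Real.exp_le_exp.2 ?_
    have := mul_le_mul_of_nonneg_left (rate_near (by linarith) hz hz') hc.le
    linarith
  have hgap : ∀ z : ℝ, x / 2 ≤ z → z ≤ 3 * x / 2 →
      |psiOne z - z ^ 2 / 2| ≤ 4 * C * x ^ 2 * (η * η) := by
    intro z hz hz'
    refine (h z (by linarith)).trans ?_
    calc C * z ^ 2 * Real.exp (-(c * rate z)) ≤ C * (4 * x ^ 2) * (η * η) := by
          refine mul_le_mul (mul_le_mul_of_nonneg_left ?_ hC) (hdown' z hz hz') (Real.exp_pos _).le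
            (by positivity)
          nlinarith
      _ = _ := by ring
  have g0 := hgap x (by linarith) (by linarith)
  have gp := hgap (x + hd) (by linarith) (by linarith)
  have gm := hgap (x - hd) (by linarith) (by linarith)
  have up := (psiOne_sub_bounds (x := x) (y := x + hd) hx0.le (by linarith)).1
  have lo := (psiOne_sub_bounds (x := x - hd) (y := x) (by linarith) (by linarith)).2
  rw [abs_le] at g0 gp gm
  have hkey : 8 * C * x ^ 2 * (η * η) = hd * (8 * C * (x * η)) := by rw [hd']; ring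
  have hup : ψ x ≤ x + hd / 2 + 8 * C * (x * η) := by
    refine le_of_mul_le_mul_left ?_ hd0
    nlinarith
  have hlo : x - hd / 2 - 8 * C * (x * η) ≤ ψ x := by
    refine le_of_mul_le_mul_left ?_ hd0
    nlinarith
  rw [abs_le]
  constructor <;> nlinarith

theorem rate_sub_le {t x : ℝ} (ht : 2 ≤ t) (htx : t ≤ x) :
    rate x - rate t ≤ 2 * (Real.log x - Real.log t) := by
  obtain ⟨X, hX⟩ : ∃ X, X = Real.log x := ⟨_, rfl⟩
  obtain ⟨Y, hY⟩ : ∃ Y, Y = Real.log t := ⟨_, rfl⟩
  have hY2 : 1 / 2 ≤ Y := by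
    have := Real.log_le_log two_pos ht
    linarith [Real.log_two_gt_d9]
  have hYX : Y ≤ X := hX ▸ hY ▸ Real.log_le_log (by linarith) htx
  have hg := one_le_log_add_three (show 0 ≤ Y by linarith)
  rw [rate, rate, ← hX, ← hY]
  have h1 : X ^ (3 / 5 : ℝ) / Real.log (X + 3) ^ (1 / 5 : ℝ) ≤
      X ^ (3 / 5 : ℝ) / Real.log (Y + 3) ^ (1 / 5 : ℝ) :=
    div_le_div_of_nonneg_left (Real.rpow_nonneg (by linarith) _)
      (Real.rpow_pos_of_pos (by linarith) _)
      (Real.rpow_le_rpow (by linarith) (Real.log_le_log (by linarith) (by linarith)) (by norm_num))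
  refine le_trans (sub_le_sub_right h1 _) ?_
  rw [← sub_div]
  refine (div_le_self (sub_nonneg.2 (Real.rpow_le_rpow (by linarith) hYX (by norm_num)))
    (Real.one_le_rpow hg (by norm_num))).trans ?_
  have hp : ∀ u : ℝ, 0 < u → u ^ (3 / 5 : ℝ) = u * u ^ (-(2 / 5) : ℝ) := fun u hu => by
    nth_rewrite 2 [← Real.rpow_one u]
    rw [← Real.rpow_add hu]
    norm_num
  rw [hp X (by linarith), hp Y (by linarith)]
  have h2 : X ^ (-(2 / 5) : ℝ) ≤ Y ^ (-(2 / 5) : ℝ) :=
    Real.rpow_le_rpow_of_nonpos (by linarith) hYX (by norm_num)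
  have h3 : Y ^ (-(2 / 5) : ℝ) ≤ 2 := by
    refine (Real.rpow_le_rpow_of_nonpos (by norm_num) hY2 (by norm_num)).trans ?_
    rw [one_div, Real.inv_rpow two_pos.le, ← Real.rpow_neg two_pos.le, neg_neg]
    exact Real.rpow_le_self_of_one_le one_le_two (by norm_num)
  calc X * X ^ (-(2 / 5) : ℝ) - Y * Y ^ (-(2 / 5) : ℝ)
      ≤ X * Y ^ (-(2 / 5) : ℝ) - Y * Y ^ (-(2 / 5) : ℝ) := by
        linarith [mul_le_mul_of_nonneg_left h2 (show 0 ≤ X by linarith)]
    _ = Y ^ (-(2 / 5) : ℝ) * (X - Y) := by ring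
    _ ≤ _ := mul_le_mul_of_nonneg_right h3 (by linarith)

end FA.Korobov

namespace FA.Korobov

open Real MeasureTheory FA.ZeroFree
open scoped Chebyshev

/-- The same for `ϑ`, the sum of `log p` over primes `p ≤ x`. -/
theorem exists_theta_error : ∃ c C : ℝ, 0 < c ∧ 0 < C ∧ ∀ x : ℝ, 2 ≤ x →
    |Chebyshev.theta x - x| ≤ C * x * exp (-(c * rate x)) := by
  obtain ⟨c, C, hc, hC, h⟩ := exists_psi_error
  refine ⟨min c (1 / 4), C + 16, lt_min hc (by norm_num), by linarith, fun x hx => ?_⟩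
  have hx0 : 0 < x := by linarith
  have hl : 0 ≤ log x := log_nonneg (by linarith)
  obtain ⟨u, hu⟩ : ∃ u, u = rate x := ⟨_, rfl⟩
  have hu0 : 0 ≤ u := hu ▸ rate_nonneg (by linarith)
  rw [← hu]
  have h1 : |ψ x - x| ≤ C * x * exp (-(min c (1 / 4) * u)) := by
    refine (h x hx).trans ?_
    rw [← hu]
    gcongr
    exact min_le_left _ _
  have h2 : |ψ x - Chebyshev.theta x| ≤ 16 * x * exp (-(min c (1 / 4) * u)) := by
    refine (Chebyshev.abs_psi_sub_theta_le_sqrt_mul_log (by linarith)).trans ?_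
    have hu1 : u ≤ log x + 1 := hu ▸ rate_le_log_add_one (by linarith)
    have h3 : exp (-(1 / 4 * (log x + 1))) ≤ exp (-(min c (1 / 4) * u)) := by
      refine exp_le_exp.2 (neg_le_neg ?_)
      exact mul_le_mul (min_le_right _ _) hu1 hu0 (by norm_num)
    refine le_trans ?_ (mul_le_mul_of_nonneg_left h3 (by positivity))
    have e1 : exp (-(1 / 4 * (log x + 1))) = x ^ (-(1 / 4) : ℝ) * exp (-(1 / 4)) := by
      rw [rpow_def_of_pos hx0, ← exp_add]
      ring_nf
    have e2 := log_le_rpow_div hx0.le (show (0 : ℝ) < 1 / 4 by norm_num)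
    have e3 : 3 / 4 ≤ exp (-(1 / 4) : ℝ) := by linarith [add_one_le_exp (-(1 / 4) : ℝ)]
    have hm : x ^ (1 / 2 : ℝ) * x ^ (1 / 4 : ℝ) = x * x ^ (-(1 / 4) : ℝ) := by
      nth_rewrite 3 [← rpow_one x]
      rw [← rpow_add hx0, ← rpow_add hx0]
      norm_num
    rw [sqrt_eq_rpow, e1]
    calc 2 * x ^ (1 / 2 : ℝ) * log x ≤ 2 * x ^ (1 / 2 : ℝ) * (x ^ (1 / 4 : ℝ) / (1 / 4)) :=
          mul_le_mul_of_nonneg_left e2 (by positivity)
      _ = 8 * (x * x ^ (-(1 / 4) : ℝ)) := by rw [← hm]; ring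
      _ ≤ 16 * x * (x ^ (-(1 / 4) : ℝ) * exp (-(1 / 4))) := by
          have h0 : 0 ≤ x * x ^ (-(1 / 4) : ℝ) := by positivity
          nlinarith
  have := abs_sub_le (Chebyshev.theta x) (ψ x) x
  rw [abs_sub_comm (Chebyshev.theta x) (ψ x)] at this
  linarith

/-- **`π x` is the logarithmic integral with the error term of Vinogradov and Korobov.** -/
theorem exists_primeCounting_error : ∃ c C : ℝ, 0 < c ∧ 0 < C ∧ ∀ x : ℝ, 2 ≤ x →
    |(Nat.primeCounting ⌊x⌋₊ : ℝ) - ∫ t in (2 : ℝ)..x, 1 / log t| ≤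
      C * x * exp (-(c * rate x)) := by
  obtain ⟨c, C, hc, hC, h⟩ := exists_theta_error
  refine ⟨min c (1 / 4), C / log 2 + 6 + 2 * C / log 2 ^ 2, lt_min hc (by norm_num),
    by positivity, fun x hx => ?_⟩
  obtain ⟨e, he⟩ : ∃ e, e = min c (1 / 4) := ⟨_, rfl⟩
  rw [← he]
  have he2 : e ≤ 1 / 4 := he ▸ min_le_right _ _
  have hec : e ≤ c := he ▸ min_le_left _ _
  have he0 : 0 < e := he ▸ lt_min hc (by norm_num)
  have hx0 : 0 < x := by linarith
  have hl2 : 0.69 < log 2 := lt_trans (by norm_num) log_two_gt_d9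
  have hlx : log 2 ≤ log x := log_le_log two_pos hx
  obtain ⟨E, hE⟩ : ∃ E, E = exp (-(e * rate x)) := ⟨_, rfl⟩
  rw [← hE]
  have hE0 : 0 < E := hE ▸ exp_pos _
  have hθ : ∀ t : ℝ, 2 ≤ t →
      |Chebyshev.theta t - t| ≤ C * t * exp (-(e * rate t)) := fun t ht => by
    refine (h t ht).trans ?_
    have : 0 ≤ t := by linarith
    gcongr
    exact rate_nonneg (by linarith)
  -- the logarithmic integral by parts
  have hne : ∀ t ∈ Set.uIcc 2 x, t ≠ 0 ∧ log t ≠ 0 := fun t ht => by
    rw [Set.uIcc_of_le hx] at ht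
    exact ⟨by linarith [ht.1], (log_pos (by linarith [ht.1])).ne'⟩
  have i1 : IntervalIntegrable (fun t => 1 / log t) volume 2 x :=
    ContinuousOn.intervalIntegrable fun t ht => ContinuousAt.continuousWithinAt <| by
      obtain ⟨h1, h2⟩ := hne t ht
      fun_prop (disch := assumption)
  have i2 : IntervalIntegrable (fun t => 1 / log t ^ 2) volume 2 x :=
    Chebyshev.intervalIntegrable_one_div_log_sq one_lt_two (by linarith)
  have hparts : (∫ t in (2 : ℝ)..x, 1 / log t) =
      x / log x - 2 / log 2 + ∫ t in (2 : ℝ)..x, 1 / log t ^ 2 := by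
    have hd : ∀ t ∈ Set.uIcc 2 x,
        HasDerivAt (fun u => u / log u) (1 / log t - 1 / log t ^ 2) t := fun t ht => by
      obtain ⟨h1, h2⟩ := hne t ht
      refine ((hasDerivAt_id' t).div (hasDerivAt_log h1) h2).congr_deriv ?_
      field_simp
    have := intervalIntegral.integral_eq_sub_of_hasDerivAt hd (i1.sub i2)
    rw [intervalIntegral.integral_sub i1 i2] at this
    linarith
  have i3 : IntervalIntegrable (fun t => Chebyshev.theta t / (t * log t ^ 2)) volume 2 x :=
    (intervalIntegrable_iff_integrableOn_Icc_of_le hx).2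
      (Chebyshev.integrableOn_theta_div_id_mul_log_sq x)
  -- the integral of the error
  have hint : |(∫ t in (2 : ℝ)..x, Chebyshev.theta t / (t * log t ^ 2)) -
      ∫ t in (2 : ℝ)..x, 1 / log t ^ 2| ≤ 2 * C / log 2 ^ 2 * (x * E) := by
    rw [← intervalIntegral.integral_sub i3 i2, ← norm_eq_abs]
    have hg : IntervalIntegrable (fun t : ℝ => C / log 2 ^ 2 * (√x * E * t ^ (-(1 / 2) : ℝ)))
        volume 2 x :=
      ((intervalIntegral.intervalIntegrable_rpow' (by norm_num)).const_mul _).const_mul _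
    refine (intervalIntegral.norm_integral_le_of_norm_le hx
      (Filter.Eventually.of_forall fun t ht => ?_) hg).trans ?_
    · have ht0 : 0 < t := by linarith [ht.1]
      have hlt : log 2 ≤ log t := log_le_log two_pos ht.1.le
      have hltx : log t ≤ log x := log_le_log ht0 ht.2
      have hl0 : 0 < log t := by linarith
      have e1 : Chebyshev.theta t / (t * log t ^ 2) - 1 / log t ^ 2 =
          (Chebyshev.theta t - t) / (t * log t ^ 2) := by field_simp
      rw [norm_eq_abs, e1, abs_div, abs_of_pos (by positivity : 0 < t * log t ^ 2)]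
      have e2 : exp (-(e * rate t)) ≤ √x * E * t ^ (-(1 / 2) : ℝ) := by
        rw [hE, sqrt_eq_rpow x, rpow_def_of_pos hx0, rpow_def_of_pos ht0, ← exp_add, ← exp_add]
        refine exp_le_exp.2 ?_
        have h5 := mul_le_mul_of_nonneg_left (rate_sub_le ht.1.le ht.2) he0.le
        have h6 := mul_le_mul_of_nonneg_right he2 (sub_nonneg.2 hltx)
        linarith
      calc |Chebyshev.theta t - t| / (t * log t ^ 2)
          ≤ C * t * exp (-(e * rate t)) / (t * log t ^ 2) := by gcongr; exact hθ t ht.1.le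
        _ = C / log t ^ 2 * exp (-(e * rate t)) := by field_simp
        _ ≤ _ := mul_le_mul (by gcongr) e2 (exp_pos _).le (by positivity)
    · rw [intervalIntegral.integral_const_mul, intervalIntegral.integral_const_mul,
        integral_rpow (Or.inl (by norm_num))]
      norm_num
      rw [← sqrt_eq_rpow, ← sqrt_eq_rpow]
      have hss : √x * √x = x := mul_self_sqrt hx0.le
      have h0 : 0 ≤ C / log 2 ^ 2 * (√x * E) * √2 := by positivity
      calc C / log 2 ^ 2 * (√x * E * ((√x - √2) / (1 / 2)))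
          = 2 * C / log 2 ^ 2 * (√x * √x * E) - 2 * (C / log 2 ^ 2 * (√x * E) * √2) := by ring
        _ ≤ 2 * C / log 2 ^ 2 * (√x * √x * E) := by linarith
        _ = _ := by rw [hss]
  have hconst : 2 / log 2 ≤ 6 * (x * E) := by
    have h1 : 2 / log 2 ≤ 3 := by
      rw [div_le_iff₀ (by linarith)]
      linarith
    have h2 : 1 / 2 ≤ x * E := by
      rw [hE, show x * exp (-(e * rate x)) = exp (log x + -(e * rate x)) by
        rw [exp_add, exp_log hx0]]
      refine le_trans ?_ (add_one_le_exp _)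
      have h3 : rate x ≤ log x + 1 := rate_le_log_add_one (by linarith)
      have h4 := mul_le_mul he2 h3 (rate_nonneg (by linarith)) (by norm_num)
      linarith
    linarith
  have hmain : |(Chebyshev.theta x - x) / log x| ≤ C / log 2 * (x * E) := by
    rw [abs_div, abs_of_pos (by linarith : 0 < log x)]
    calc |Chebyshev.theta x - x| / log x ≤ C * x * E / log 2 :=
          div_le_div₀ (by positivity) (hE ▸ hθ x hx) (by linarith) hlx
      _ = _ := by ring
  rw [Chebyshev.primeCounting_eq_theta_div_log_add_integral hx, hparts]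
  have hk : 0 ≤ 2 / log 2 := by positivity
  rw [sub_div] at hmain
  rw [abs_le] at hint hmain ⊢
  constructor <;> linarith

end FA.Korobov

end
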