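import Fermat.Agent.Korobov.Energy
import Fermat.Agent.Korobov.Congruence

/-!
# The step in Vinogradov's mean value theorem

`meanCount k (k + s) P` is bounded by `meanCount k s Q` and `meanCount k (k + s) Q`,
`Q = P / p + 1`:
either `k` of the variables are distinct mod `p`, or all lie in `k - 1` classes.
-/

set_option autoImplicit false

noncomputable section

namespace FA.Korobov

open Finset

/-- `(∑ x i, …, ∑ x i ^ k)`. -/
def powerSum (k : ℕ) {s : ℕ} (x : Fin s → ℕ) : Fin k → ℤ :=
  fun j => ∑ i, (x i : ℤ) ^ (j.1 + 1)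

/-- `(u, …, u ^ k)`. -/
def moments (k : ℕ) (u : ℕ) : Fin k → ℤ := fun j => (u : ℤ) ^ (j.1 + 1)

theorem powerSum_eq_sum (k : ℕ) {s : ℕ} (x : Fin s → ℕ) :
    powerSum k x = ∑ i, moments k (x i) := by
  funext j
  simp [powerSum, moments, Finset.sum_apply]

/-- `s`-tuples from `S`. -/
def box (S : Finset ℕ) (s : ℕ) : Finset (Fin s → ℕ) := Fintype.piFinset fun _ => S

/-- **Vinogradov's count**: solutions of `∑ x i ^ j = ∑ y i ^ j`, `j ≤ k`, `x i, y i < P`. -/
def meanCount (k s P : ℕ) : ℕ := energy (box (range P) s) (powerSum k)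

/-- Equal power sums stay equal under translation. -/
theorem powerSums_translate {ι : Type*} [Fintype ι] {k : ℕ} {x y : ι → ℤ}
    (h : ∀ j : Fin k, ∑ i, x i ^ (j.1 + 1) = ∑ i, y i ^ (j.1 + 1)) (a : ℤ) (j : Fin k) :
    ∑ i, (x i - a) ^ (j.1 + 1) = ∑ i, (y i - a) ^ (j.1 + 1) := by
  simp only [sub_eq_add_neg, add_pow]
  rw [sum_comm, sum_comm (γ := ι)]
  refine sum_congr rfl fun m hm => ?_
  rw [← sum_mul, ← sum_mul, ← sum_mul, ← sum_mul]
  congr 2
  rcases Nat.eq_zero_or_pos m with rfl | hm0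
  · simp
  · have := mem_range.1 hm
    simpa [Nat.sub_add_cancel hm0] using h ⟨m - 1, by omega⟩

/-- A class mod `p` in `range P`. -/
def classMod (P p a : ℕ) : Finset ℕ := (range P).filter fun u => u % p = a

variable {k s P p : ℕ}

theorem class_param {a u : ℕ} (h : u ∈ classMod P p a) :
    u / p ∈ range (P / p + 1) ∧ (u : ℤ) - a = (p : ℤ) * ((u / p : ℕ) : ℤ) := by
  obtain ⟨h1, h2⟩ := mem_filter.1 h
  refine ⟨mem_range.2 (Nat.lt_succ_of_le (Nat.div_le_div_right (mem_range.1 h1).le)), ?_⟩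
  have h3 : (p : ℤ) * ((u / p : ℕ) : ℤ) + ((u % p : ℕ) : ℤ) = u := by
    exact_mod_cast Nat.div_add_mod u p
  rw [h2] at h3
  linarith

theorem class_injOn (a : ℕ) : Set.InjOn (fun (x : Fin s → ℕ) i => x i / p)
    (box (classMod P p a) s) := fun x hx y hy e => funext fun i => by
  rw [mem_coe, box, Fintype.mem_piFinset] at hx hy
  rw [← Nat.div_add_mod (x i) p, ← Nat.div_add_mod (y i) p, (mem_filter.1 (hx i)).2,
    (mem_filter.1 (hy i)).2, show x i / p = y i / p from congrFun e i]

theorem energy_class_le (hp : p ≠ 0) (a : ℕ) :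
    energy (box (classMod P p a) s) (powerSum k) ≤ meanCount k s (P / p + 1) := by
  refine energy_le_of_injOn (fun x i => x i / p) (fun x hx => ?_) (class_injOn a)
    fun x hx y hy e => ?_
  · rw [box, Fintype.mem_piFinset] at hx ⊢
    exact fun i => (class_param (hx i)).1
  · rw [box, Fintype.mem_piFinset] at hx hy
    funext j
    have h := powerSums_translate (x := fun i => (x i : ℤ)) (y := fun i => (y i : ℤ))
      (congrFun e) a j
    simp only [(class_param (hx _)).2, (class_param (hy _)).2, mul_pow, ← mul_sum] at h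
    exact mul_left_cancel₀ (pow_ne_zero _ (Nat.cast_ne_zero.2 hp)) h

/-- The tuples with entries distinct mod `p`. -/
def headSet (k P p : ℕ) : Finset (Fin k → ℕ) := by
  classical exact (box (range P) k).filter fun x => DistinctMod p x

theorem mem_headSet {x : Fin k → ℕ} :
    x ∈ headSet k P p ↔ (∀ i, x i < P) ∧ DistinctMod p x := by
  simp [headSet, box]

theorem card_headSet_le : (headSet k P p).card ≤ P ^ k := by
  classical
  refine (card_filter_le _ _).trans (le_of_eq ?_)
  simp [box]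

/-- The map on pairs. -/
def joint (k : ℕ) {s : ℕ} (z : (Fin k → ℕ) × (Fin s → ℕ)) : Fin k → ℤ :=
  powerSum k z.1 + ∑ i, moments k (z.2 i)

/-- `k` free variables, the rest in one class. -/
theorem energy_head_class_le (hp : p.Prime) (hkp : k < p) (hP : P ≤ p ^ k) (a : ℕ) :
    energy (headSet k P p ×ˢ box (classMod P p a) s) (joint k) ≤
      P ^ k * (k ^ k * p ^ (k * (k - 1) / 2)) * meanCount k s (P / p + 1) := by
  classical
  obtain ⟨C, hC⟩ : ∃ C, C = ((headSet k P p ×ˢ headSet k P p).filter fun z => ∀ j : Fin k,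
      (p : ℤ) ^ (j.1 + 1) ∣ ∑ i, ((z.1 i : ℤ) - a) ^ (j.1 + 1) -
        ∑ i, ((z.2 i : ℤ) - a) ^ (j.1 + 1)) := ⟨_, rfl⟩
  have hkey : ∀ {x : (Fin k → ℕ) × (Fin s → ℕ)}, x ∈ headSet k P p ×ˢ box (classMod P p a) s →
      ∀ {y}, y ∈ headSet k P p ×ˢ box (classMod P p a) s → joint k x = joint k y → ∀ j : Fin k,
        ∑ i, ((x.1 i : ℤ) - a) ^ (j.1 + 1) - ∑ i, ((y.1 i : ℤ) - a) ^ (j.1 + 1) =
          (p : ℤ) ^ (j.1 + 1) * (powerSum k (fun i => y.2 i / p) j -
            powerSum k (fun i => x.2 i / p) j) := by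
    intro x hx y hy e j
    rw [mem_product, box, Fintype.mem_piFinset] at hx hy
    have h := powerSums_translate (x := Sum.elim (fun i => (x.1 i : ℤ)) fun i => (x.2 i : ℤ))
      (y := Sum.elim (fun i => (y.1 i : ℤ)) fun i => (y.2 i : ℤ)) (fun j => by
        have := congrFun e j
        simp only [joint, powerSum, moments, Pi.add_apply, Finset.sum_apply] at this
        simpa [Fintype.sum_sum_type] using this) a j
    simp only [Fintype.sum_sum_type, Sum.elim_inl, Sum.elim_inr, (class_param (hx.2 _)).2,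
      (class_param (hy.2 _)).2, mul_pow, ← mul_sum] at h
    simp only [powerSum, mul_sub]
    linarith
  have hCcard : C.card ≤ P ^ k * (k ^ k * p ^ (k * (k - 1) / 2)) := by
    calc C.card ≤ (k ^ k * p ^ (k * (k - 1) / 2)) * (C.image Prod.snd).card :=
          card_le_mul_card_image C _ fun y _ => by
            refine le_trans ?_ (card_congruence_le hp hkp (S := range P)
              (fun z hz => (mem_range.1 hz).trans_le hP) (a : ℤ)
              (fun j => ∑ i, ((y i : ℤ) - a) ^ (j.1 + 1)) (F := (C.filter fun z => z.2 = y).image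
                Prod.fst) fun x hx => ?_)
            · refine le_of_eq (card_image_of_injOn fun u hu v hv e => Prod.ext e ?_).symm
              exact ((mem_filter.1 hu).2).trans (mem_filter.1 hv).2.symm
            · obtain ⟨z, hz, rfl⟩ := mem_image.1 hx
              obtain ⟨hzC, rfl⟩ := mem_filter.1 hz
              rw [hC, mem_filter, mem_product, mem_headSet] at hzC
              exact ⟨fun i => mem_range.2 (hzC.1.1.1 i), hzC.1.1.2, hzC.2⟩
      _ ≤ (k ^ k * p ^ (k * (k - 1) / 2)) * P ^ k := Nat.mul_le_mul_left _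
          ((card_le_card fun y hy => by
            obtain ⟨z, hz, rfl⟩ := mem_image.1 hy
            exact (mem_product.1 (mem_filter.1 (hC ▸ hz)).1).2).trans card_headSet_le)
      _ = _ := by ring
  obtain ⟨Z, hZ⟩ : ∃ Z, Z = (((headSet k P p ×ˢ box (classMod P p a) s) ×ˢ
      (headSet k P p ×ˢ box (classMod P p a) s)).filter fun z => joint k z.1 = joint k z.2) :=
    ⟨_, rfl⟩
  rw [energy, ← hZ]
  refine (card_le_mul_card_image_of_maps_to (f := fun z => (z.1.1, z.2.1)) (t := C)
    (fun z hz => ?_) (meanCount k s (P / p + 1)) fun c _ => ?_).trans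
      ((Nat.mul_le_mul_left _ hCcard).trans (le_of_eq (mul_comm _ _)))
  · rw [hZ, mem_filter, mem_product] at hz
    rw [hC, mem_filter, mem_product]
    exact ⟨⟨(mem_product.1 hz.1.1).1, (mem_product.1 hz.1.2).1⟩,
      fun j => ⟨_, hkey hz.1.1 hz.1.2 hz.2 j⟩⟩
  refine le_trans ?_ (card_sub_eq_le (box (range (P / p + 1)) s) (powerSum k) fun j : Fin k =>
    (∑ i, ((c.2 i : ℤ) - a) ^ (j.1 + 1) - ∑ i, ((c.1 i : ℤ) - a) ^ (j.1 + 1)) /
      (p : ℤ) ^ (j.1 + 1))
  refine card_le_card_of_injOn (fun z => (fun i => z.1.2 i / p, fun i => z.2.2 i / p))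
    (fun z hz => ?_) fun z hz w hw e => ?_
  · rw [mem_coe, mem_filter, hZ, mem_filter, mem_product] at hz
    obtain ⟨⟨⟨h1, h2⟩, he⟩, hc⟩ := hz
    rw [mem_coe, mem_filter, mem_product]
    refine ⟨⟨?_, ?_⟩, funext fun j => ?_⟩
    · rw [box, Fintype.mem_piFinset]
      exact fun i => (class_param (Fintype.mem_piFinset.1 (mem_product.1 h1).2 i)).1
    · rw [box, Fintype.mem_piFinset]
      exact fun i => (class_param (Fintype.mem_piFinset.1 (mem_product.1 h2).2 i)).1
    · simp only [Pi.sub_apply, ← hc]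
      refine (Int.ediv_eq_of_eq_mul_right (pow_ne_zero _ (Nat.cast_ne_zero.2 hp.ne_zero)) ?_).symm
      linarith [hkey h1 h2 he j]
  · rw [mem_coe, mem_filter, hZ, mem_filter, mem_product] at hz hw
    have h3 := congrArg Prod.fst (hz.2.trans hw.2.symm)
    have h4 := congrArg Prod.snd (hz.2.trans hw.2.symm)
    exact Prod.ext (Prod.ext h3 (class_injOn a (mem_product.1 hz.1.1.1).2
        (mem_product.1 hw.1.1.1).2 (congrArg Prod.fst e)))
      (Prod.ext h4 (class_injOn a (mem_product.1 hz.1.1.2).2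
        (mem_product.1 hw.1.1.2).2 (congrArg Prod.snd e)))

theorem energy_head_box_le (hp : p.Prime) (hkp : k < p) (hP : P ≤ p ^ k) (hs : 0 < s) :
    energy (headSet k P p ×ˢ box (range P) s) (joint k) ≤
      (p ^ s) ^ 2 * s * (P ^ k * (k ^ k * p ^ (k * (k - 1) / 2)) *
        meanCount k s (P / p + 1)) := by
  classical
  have hsub : headSet k P p ×ˢ box (range P) s ⊆ (box (range p) s).biUnion fun a =>
      headSet k P p ×ˢ Fintype.piFinset fun i => classMod P p (a i) := fun z hz => by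
    rw [mem_product, box, Fintype.mem_piFinset] at hz
    refine mem_biUnion.2 ⟨fun i => z.2 i % p, ?_, mem_product.2 ⟨hz.1, ?_⟩⟩
    · rw [box, Fintype.mem_piFinset]
      exact fun i => mem_range.2 (Nat.mod_lt _ hp.pos)
    · rw [Fintype.mem_piFinset]
      exact fun i => mem_filter.2 ⟨hz.2 i, rfl⟩
  have hcard : (box (range p) s).card = p ^ s := by simp [box]
  refine ((energy_mono hsub _).trans (energy_biUnion_le _ _ _)).trans ?_
  rw [sq, mul_assoc _ (p ^ s), mul_assoc (p ^ s), mul_assoc (p ^ s)]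
  refine Nat.mul_le_mul hcard.le (((sum_le_card_nsmul _ _ _ fun a _ => ?_).trans
    (le_of_eq (by rw [smul_eq_mul, hcard]))))
  refine (energy_pi_le hs _ (powerSum k) (moments k) fun i => classMod P p (a i)).trans
    ((sum_le_card_nsmul _ _ _ fun i _ => energy_head_class_le hp hkp hP (a i)).trans
      (le_of_eq (by simp)))

theorem exists_equiv_extending {n : ℕ} (hn : n = k + s) {e : Fin k → Fin n}
    (he : Function.Injective e) : ∃ σ : Fin k ⊕ Fin s ≃ Fin n, ∀ i, σ (Sum.inl i) = e i := by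
  classical
  have hc : Fintype.card {x : Fin n // ¬x ∈ Set.range e} = s := by
    rw [Fintype.card_subtype_compl, Fintype.card_fin, Fintype.card_subtype,
      show (univ.filter fun x => x ∈ Set.range e) = univ.image e by ext x; simp,
      card_image_of_injective _ he, card_univ, Fintype.card_fin]
    omega
  refine ⟨(Equiv.sumCongr (Equiv.ofInjective e he) (Fintype.equivFinOfCardEq hc).symm).trans
    (Equiv.sumCompl fun x => x ∈ Set.range e), fun i => ?_⟩
  simp

theorem energy_good_le {n : ℕ} (hn : n = k + s) (e : Fin k → Fin n) {A : Finset (Fin n → ℕ)}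
    (he : Function.Injective e) (hA : ∀ x ∈ A, (∀ i, x i < P) ∧ DistinctMod p (x ∘ e)) :
    energy A (powerSum k) ≤ energy (headSet k P p ×ˢ box (range P) s) (joint k) := by
  obtain ⟨σ, hσ⟩ := exists_equiv_extending hn he
  refine energy_le_of_injOn (fun x => (fun i => x (e i), fun i => x (σ (Sum.inr i))))
    (fun x hx => ?_) (fun x _ y _ h => funext fun i => ?_) fun x _ y _ h => ?_
  · rw [mem_product, mem_headSet, box, Fintype.mem_piFinset]
    exact ⟨⟨fun i => (hA x hx).1 _, (hA x hx).2⟩, fun i => mem_range.2 ((hA x hx).1 _)⟩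
  · obtain ⟨l, rfl⟩ := σ.surjective i
    rcases l with l | l
    · rw [hσ]; exact congrFun (congrArg Prod.fst h) l
    · exact congrFun (congrArg Prod.snd h) l
  · have e1 : ∀ x : Fin n → ℕ, joint k (fun i => x (e i), fun i => x (σ (Sum.inr i))) =
        powerSum k x := fun x => by
      rw [joint, powerSum_eq_sum, powerSum_eq_sum, ← Equiv.sum_comp σ, Fintype.sum_sum_type]
      simp [hσ]
    rw [e1, e1, h]

/-- **The step.** -/
theorem meanCount_step (hp : p.Prime) (hk : 0 < k) (hkp : k < p) (hP : P ≤ p ^ k) (hs : 0 < s) :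
    meanCount k (k + s) P ≤
      2 * ((k + s) ^ k) ^ 2 * ((p ^ s) ^ 2 * s *
          (P ^ k * (k ^ k * p ^ (k * (k - 1) / 2)) * meanCount k s (P / p + 1))) +
        2 * (p ^ (k - 1) * (k - 1) ^ (k + s)) ^ 2 * (k + s) *
          meanCount k (k + s) (P / p + 1) := by
  classical
  obtain ⟨n, hn⟩ : ∃ n, n = k + s := ⟨_, rfl⟩
  rw [← hn]
  obtain ⟨Inj, hInj⟩ : ∃ I, I = (univ : Finset (Fin k → Fin n)).filter Function.Injective :=
    ⟨_, rfl⟩
  obtain ⟨good, hgood⟩ : ∃ g, g = Inj.biUnion fun e =>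
      (box (range P) n).filter fun x => DistinctMod p (x ∘ e) := ⟨_, rfl⟩
  obtain ⟨R, hR⟩ : ∃ R, R = ((univ : Finset (Fin (k - 1) → Fin p)) ×ˢ
      (univ : Finset (Fin n → Fin (k - 1)))).image fun q i => (q.1 (q.2 i)).1 := ⟨_, rfl⟩
  obtain ⟨bad, hbad⟩ : ∃ b, b = R.biUnion fun a =>
      Fintype.piFinset fun i => classMod P p (a i) := ⟨_, rfl⟩
  have hsub : box (range P) n ⊆ good ∪ bad := fun x hx => by
    rw [box, Fintype.mem_piFinset] at hx
    rw [mem_union]
    obtain ⟨B, hB⟩ : ∃ B, B = univ.image fun i => x i % p := ⟨_, rfl⟩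
    rcases le_or_gt k B.card with hle | hlt
    · left
      obtain ⟨B', hB', hcard⟩ := exists_subset_card_eq hle
      have hpre : ∀ l : Fin k, ∃ i, x i % p = (B'.equivFinOfCardEq hcard).symm l := fun l => by
        obtain ⟨i, -, hi⟩ := mem_image.1 (hB ▸ hB' ((B'.equivFinOfCardEq hcard).symm l).2)
        exact ⟨i, hi⟩
      choose e he using hpre
      have hd : DistinctMod p (x ∘ e) := fun i l h => by
        simp only [Function.comp_apply, ZMod.natCast_eq_natCast_iff', he] at h
        exact (B'.equivFinOfCardEq hcard).symm.injective (Subtype.ext h)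
      rw [hgood, mem_biUnion]
      exact ⟨e, hInj ▸ mem_filter.2 ⟨mem_univ e, fun i l h => hd (by simp [h])⟩,
        mem_filter.2 ⟨Fintype.mem_piFinset.2 hx, hd⟩⟩
    · right
      have hn0 : 0 < n := by omega
      obtain ⟨em⟩ : Nonempty ({b // b ∈ B} ↪ Fin (k - 1)) :=
        Function.Embedding.nonempty_of_card_le (by simpa using (by omega : B.card ≤ k - 1))
      have hmem : ∀ i, x i % p ∈ B := fun i => hB ▸ mem_image_of_mem _ (mem_univ i)
      have : Nonempty {b // b ∈ B} := ⟨⟨_, hmem ⟨0, hn0⟩⟩⟩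
      rw [hbad, mem_biUnion]
      refine ⟨fun i => x i % p, hR ▸ mem_image.2 ⟨(fun l => ⟨(Function.invFun em l).1 % p,
        Nat.mod_lt _ hp.pos⟩, fun i => em ⟨_, hmem i⟩), mem_product.2 ⟨mem_univ _, mem_univ _⟩,
          funext fun i => ?_⟩, Fintype.mem_piFinset.2 fun i => mem_filter.2 ⟨hx i, rfl⟩⟩
      simp only [Function.leftInverse_invFun em.injective _, Nat.mod_mod]
  refine ((energy_mono hsub _).trans (energy_union_le _ _ _)).trans ?_
  rw [mul_add, mul_assoc 2 ((n ^ k) ^ 2), mul_assoc 2 ((p ^ (k - 1) * (k - 1) ^ n) ^ 2),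
    mul_assoc 2 ((p ^ (k - 1) * (k - 1) ^ n) ^ 2 * n)]
  refine add_le_add (Nat.mul_le_mul_left 2 ?_) (Nat.mul_le_mul_left 2 ?_)
  · have hIc : Inj.card ≤ n ^ k := hInj ▸ (card_filter_le _ _).trans (le_of_eq (by simp))
    rw [hgood, sq, mul_assoc (n ^ k)]
    refine (energy_biUnion_le _ _ _).trans (Nat.mul_le_mul hIc ((sum_le_card_nsmul _ _ _
      fun e he => ?_).trans (Nat.mul_le_mul_right _ hIc)))
    refine le_trans ?_ (energy_head_box_le hp hkp hP hs)
    refine energy_good_le hn e (mem_filter.1 (hInj ▸ he)).2 fun x hx => ?_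
    obtain ⟨h1, h2⟩ := mem_filter.1 hx
    exact ⟨fun i => mem_range.1 (Fintype.mem_piFinset.1 h1 i), h2⟩
  · have hRc : R.card ≤ p ^ (k - 1) * (k - 1) ^ n :=
      hR ▸ card_image_le.trans (le_of_eq (by simp))
    rw [hbad]
    refine (energy_biUnion_le _ _ _).trans ((Nat.mul_le_mul hRc ((sum_le_card_nsmul _ _
      (n * meanCount k n (P / p + 1)) fun a _ => ?_).trans
        (Nat.mul_le_mul_right (n * meanCount k n (P / p + 1)) hRc))).trans (le_of_eq (by ring)))
    have h := energy_pi_le (k := k) (show 0 < n by omega) {()} 0 (moments k)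
      fun i => classMod P p (a i)
    refine le_trans ?_ (h.trans ((sum_le_card_nsmul _ _ (meanCount k n (P / p + 1))
      fun i _ => ?_).trans (le_of_eq (by simp))))
    · exact energy_le_of_injOn (fun x => ((), x)) (fun x hx => by simp [hx])
        (fun x _ y _ h => congrArg Prod.snd h) fun x _ y _ h => by
          simpa [powerSum_eq_sum] using h
    · refine le_trans ?_ (energy_class_le hp.ne_zero (a i))
      exact energy_le_of_injOn Prod.snd (fun z hz => (mem_product.1 hz).2)
        (fun z _ w _ h => Prod.ext rfl h) fun z _ w _ h => by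
          simpa [powerSum_eq_sum] using h

end FA.Korobov

end
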