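import Fermat.Agent.Korobov.ZetaSum

/-!
# `ζ (σ + i t) = O (log ^ B |t| · |t| ^ (A (1 - σ) ^ (3/2)))`

Vinogradov's bound on dyadic blocks up to `t`, the Kuzmin–Landau lemma beyond.
-/

set_option autoImplicit false

noncomputable section

namespace FA.Korobov

open Finset FA.Subconvexity FA.ZeroFree
open scoped Real ComplexConjugate

/-- A block beyond `t`. -/
theorem norm_block_high_le {t : ℝ} (ht : 2 ≤ t) {N a b : ℕ} (hN : t < N) (ha : N ≤ a)
    (hb : b ≤ 2 * N) : ‖∑ n ∈ Ico a b, expI (phase t n)‖ ≤ 25 * (N : ℝ) / t + 1 := by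
  have ht0 : 0 < t := by linarith
  have hN0 : (0 : ℝ) < N := ht0.trans hN
  have hN1 : 1 ≤ N := Nat.cast_pos.1 hN0
  have hlam : 0 < t / (3 * (N : ℝ)) := by positivity
  have h := norm_kuzmin_le (φ := fun n => -phase t n) hlam (a := a) (b := b) (k := 0)
    (fun m hm => by
      obtain ⟨hma, hmb⟩ := mem_Ico.1 hm
      obtain ⟨e1, e2⟩ := first_diff_log (show 1 ≤ m by omega)
      have hmN : (N : ℝ) ≤ m := Nat.cast_le.2 (ha.trans hma)
      have hm3 : (m : ℝ) + 1 ≤ 3 * N := by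
        have : m + 1 ≤ 3 * N := by omega
        exact_mod_cast this
      have e : -phase t (m + 1) - -phase t m = t * (Real.log ((m : ℝ) + 1) - Real.log m) := by
        simp only [phase, Nat.cast_add, Nat.cast_one]; ring
      rw [e]
      constructor
      · simp only [Int.cast_zero, mul_zero, zero_add]
        refine le_trans ?_ (mul_le_mul_of_nonneg_left e1 ht0.le)
        rw [mul_one_div]
        exact div_le_div_of_nonneg_left ht0.le (by positivity) hm3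
      · simp only [Int.cast_zero, zero_add, mul_one]
        have h3 : t * (Real.log ((m : ℝ) + 1) - Real.log m) ≤ 1 := by
          refine (mul_le_mul_of_nonneg_left e2 ht0.le).trans ?_
          rw [mul_one_div, div_le_one (by linarith)]
          linarith
        have h4 : t / (3 * (N : ℝ)) ≤ 1 := by rw [div_le_one (by positivity)]; linarith
        linarith [Real.pi_gt_three])
    (Or.inr fun m hm hm2 => by
      obtain ⟨e1, -⟩ := second_diff_log (show 1 ≤ m by have := (mem_Ico.1 hm).1; omega)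
      have h3 : (0 : ℝ) ≤ 1 / ((m : ℝ) + 1) ^ 2 := by positivity
      have h4 : (0 : ℝ) ≤ t * (2 * Real.log ((m : ℝ) + 1) - Real.log ((m : ℝ) + 2) -
          Real.log m) := mul_nonneg ht0.le (by linarith)
      simp only [phase, Nat.cast_add, Nat.cast_ofNat, Nat.cast_one]
      linarith)
  rw [norm_sum_expI_neg (Ico a b) fun n => phase t n] at h
  refine h.trans ?_
  rw [add_comm]
  refine add_le_add ?_ le_rfl
  rw [div_div_eq_mul_div]
  exact div_le_div_of_nonneg_right (by nlinarith [Real.pi_le_four]) ht0.le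

theorem term_eq_weight {σ t : ℝ} {n : ℕ} (hn : 1 ≤ n) :
    1 / (n : ℂ) ^ ((σ : ℂ) + t * Complex.I) =
      (((n : ℝ) ^ (-σ) : ℝ) : ℂ) * expI (phase t n) := by
  have hn0 : (0 : ℝ) < n := Nat.cast_pos.2 hn
  have hnC : (n : ℂ) ≠ 0 := Nat.cast_ne_zero.2 (by omega)
  rw [one_div, ← Complex.cpow_neg, neg_add, Complex.cpow_add _ _ hnC, expI, phase]
  congr 1
  · rw [Complex.ofReal_cpow hn0.le]
    push_cast
    rfl
  · rw [Complex.cpow_def_of_ne_zero hnC, ← Complex.natCast_log]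
    push_cast
    ring_nf

/-- `A`. -/
def expConst : ℝ := 1900

/-- Where the saving wins and where it does not. -/
theorem saving_le {θ x l : ℝ} (hθ : 0 ≤ θ) (hx : 0 ≤ x) (hl : 0 < l) :
    (θ - x ^ 2 / (3600000 * l ^ 2)) * x ≤ expConst * θ ^ (3 / 2 : ℝ) * l := by
  rw [expConst]
  have h32 : θ ^ (3 / 2 : ℝ) = θ * √θ := by
    rcases eq_or_lt_of_le hθ with rfl | hpos
    · simp
    · rw [show (3 / 2 : ℝ) = 1 + 1 / 2 by norm_num, Real.rpow_add hpos, Real.rpow_one,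
        Real.sqrt_eq_rpow]
  rw [h32]
  rcases le_or_gt x (1900 * √θ * l) with h | h
  · have : 0 ≤ x ^ 2 / (3600000 * l ^ 2) := by positivity
    nlinarith [mul_le_mul_of_nonneg_left h hθ]
  · have h2 : θ ≤ x ^ 2 / (3600000 * l ^ 2) := by
      rw [le_div_iff₀ (by positivity)]
      nlinarith [Real.sq_sqrt hθ, mul_nonneg (Real.sqrt_nonneg θ) hl.le,
        mul_nonneg hθ (sq_nonneg l)]
    have : 0 ≤ 1900 * (θ * √θ) * l := by positivity
    nlinarith

/-- The uniform bound on a block. -/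
def blockBound (t θ : ℝ) : ℝ :=
  60 * (1280 * ell t) ^ 40 * Real.exp (expConst * θ ^ (3 / 2 : ℝ) * ell t)

theorem one_le_blockBound {t θ : ℝ} (hθ : 0 ≤ θ) : 60 ≤ blockBound t θ := by
  have hl := four_le_ell t
  have h1 : (1 : ℝ) ≤ (1280 * ell t) ^ 40 := one_le_pow₀ (by linarith)
  have h2 : (1 : ℝ) ≤ Real.exp (expConst * θ ^ (3 / 2 : ℝ) * ell t) :=
    Real.one_le_exp (by rw [expConst]; positivity)
  rw [blockBound]
  nlinarith [mul_le_mul h1 h2 zero_le_one (by linarith)]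

/-- A block up to `t`, with a linear phase. -/
theorem norm_tiltBlock_low_le {σ t θ : ℝ} (β : ℝ) (hσ : 0 ≤ σ) (ht : 3 ≤ t)
    (hθ : θ = max (1 - σ) 0) {N K : ℕ} (hN : 1 ≤ N) (hNK : N ≤ K) (hK : K ≤ 2 * N)
    (hlow : (N : ℝ) ≤ t) :
    ‖∑ n ∈ Ico N K, (((n : ℝ) ^ (-σ) : ℝ) : ℂ) * expI (phase t n + β * n)‖ ≤ blockBound t θ := by
  have hθ0 : 0 ≤ θ := hθ ▸ le_max_right _ _
  have hθσ : 1 - σ ≤ θ := hθ ▸ le_max_left _ _
  have hB := one_le_blockBound (t := t) hθ0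
  have hN0 : (0 : ℝ) < N := Nat.cast_pos.2 hN
  have hN1 : (1 : ℝ) ≤ N := by exact_mod_cast hN
  have hw : ∀ B, (∀ m, N ≤ m → m ≤ K → ‖∑ n ∈ Ico N m, expI (phase t n + β * n)‖ ≤ B) →
      ‖∑ n ∈ Ico N K, (((n : ℝ) ^ (-σ) : ℝ) : ℂ) * expI (phase t n + β * n)‖ ≤
        (N : ℝ) ^ (-σ) * B := fun B hB => by
    refine norm_sum_weight_le (w := fun n => (n : ℝ) ^ (-σ)) hNK (fun m _ _ => by positivity)
      (fun m hm _ => ?_) hB
    exact Real.rpow_le_rpow_of_nonpos (Nat.cast_pos.2 (by omega)) (Nat.cast_le.2 m.le_succ)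
      (by linarith)
  rcases lt_or_ge N 2 with hone | htwo
  · refine (hw 1 fun m hm hmK => (norm_sum_expI_le N m _).trans ?_).trans ?_
    · exact_mod_cast (show m - N ≤ 1 by omega)
    · rw [mul_one]
      linarith [Real.rpow_le_one_of_one_le_of_nonpos hN1 (show -σ ≤ 0 by linarith)]
  obtain ⟨L, hL⟩ : ∃ L, L = Nat.log N ⌊t⌋₊ := ⟨_, rfl⟩
  have hNfl : N ≤ ⌊t⌋₊ := Nat.le_floor hlow
  have hL0 : 1 ≤ L := hL ▸ Nat.le_log_of_pow_le htwo (by simpa using hNfl)
  have h1 : (N : ℝ) ^ L ≤ t := by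
    refine le_trans ?_ (Nat.floor_le (by linarith))
    exact_mod_cast hL ▸ Nat.pow_log_le_self N (by omega)
  have h2 : t ≤ (N : ℝ) ^ (L + 1) := by
    refine (Nat.lt_floor_add_one t).le.trans ?_
    exact_mod_cast hL ▸ Nat.lt_pow_succ_log_self htwo ⌊t⌋₊
  obtain ⟨x, hx⟩ : ∃ x, x = Real.log N := ⟨_, rfl⟩
  have hx2 : 1 / 2 ≤ x := by
    have h3 := Real.log_le_log two_pos (show (2 : ℝ) ≤ N by exact_mod_cast htwo)
    linarith [Real.log_two_gt_d9, hx]
  have hl := four_le_ell t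
  have hxL : (L : ℝ) * x ≤ ell t := by
    have h3 := Real.log_le_log (by positivity) h1
    rw [Real.log_pow] at h3
    rw [hx]
    refine h3.trans (Real.log_le_log (by linarith) ?_)
    linarith [le_abs_self t]
  have hL2 : (L : ℝ) ≤ 2 * ell t := by nlinarith [(Nat.cast_nonneg L : (0 : ℝ) ≤ L)]
  refine (hw _ fun m hm hmK => norm_tiltSum_le β hL0 hN hm (hmK.trans hK) h1 h2).trans ?_
  have hexp : (N : ℝ) ^ (-σ) * (N : ℝ) ^ (1 - korobovDelta L) ≤
      Real.exp (expConst * θ ^ (3 / 2 : ℝ) * ell t) := by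
    rw [← Real.rpow_add hN0, Real.rpow_def_of_pos hN0, Real.exp_le_exp, ← hx]
    refine le_trans ?_ (saving_le (x := x) hθ0 (by linarith) (ell_pos t))
    rw [mul_comm x (-σ + (1 - korobovDelta L))]
    refine mul_le_mul_of_nonneg_right ?_ (by linarith)
    have hd : x ^ 2 / (3600000 * ell t ^ 2) ≤ korobovDelta L := by
      rw [korobovDelta, div_le_div_iff₀ (by positivity) (by positivity)]
      have hx0 : 0 ≤ (L : ℝ) * x := mul_nonneg (Nat.cast_nonneg L) (by linarith)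
      nlinarith [pow_le_pow_left₀ hx0 hxL 2]
    linarith
  calc (N : ℝ) ^ (-σ) * ((640 * (L : ℝ)) ^ 40 * (N : ℝ) ^ (1 - korobovDelta L))
      = (640 * (L : ℝ)) ^ 40 * ((N : ℝ) ^ (-σ) * (N : ℝ) ^ (1 - korobovDelta L)) := by ring
    _ ≤ (1280 * ell t) ^ 40 * Real.exp (expConst * θ ^ (3 / 2 : ℝ) * ell t) :=
        mul_le_mul (pow_le_pow_left₀ (by positivity) (by linarith) 40) hexp (by positivity)
          (by positivity)
    _ ≤ _ := by
        rw [blockBound, mul_assoc (60 : ℝ)]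
        exact le_mul_of_one_le_left (by positivity) (by norm_num)

theorem norm_block_le {σ t θ : ℝ} (hσ : 1 / 2 ≤ σ) (ht : 3 ≤ t) (hθ : θ = max (1 - σ) 0)
    {N K : ℕ} (hN : 1 ≤ N) (hNK : N ≤ K) (hK : K ≤ 2 * N) (hNt : (N : ℝ) ≤ 4 * t ^ 2) :
    ‖∑ n ∈ Ico N K, 1 / (n : ℂ) ^ ((σ : ℂ) + t * Complex.I)‖ ≤ blockBound t θ := by
  have hθ0 : 0 ≤ θ := hθ ▸ le_max_right _ _
  have hθσ : 1 - σ ≤ θ := hθ ▸ le_max_left _ _
  have hθ2 : θ ≤ 1 / 2 := hθ ▸ max_le (by linarith) (by norm_num)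
  have hB := one_le_blockBound (t := t) hθ0
  have hN0 : (0 : ℝ) < N := Nat.cast_pos.2 hN
  have hN1 : (1 : ℝ) ≤ N := by exact_mod_cast hN
  have hw : ∀ B, (∀ m, N ≤ m → m ≤ K → ‖∑ n ∈ Ico N m, expI (phase t n)‖ ≤ B) →
      ‖∑ n ∈ Ico N K, 1 / (n : ℂ) ^ ((σ : ℂ) + t * Complex.I)‖ ≤ (N : ℝ) ^ (-σ) * B :=
      fun B hB => by
    rw [sum_congr rfl fun n hn => term_eq_weight (σ := σ) (t := t)
      (show 1 ≤ n by have := (mem_Ico.1 hn).1; omega)]
    refine norm_sum_weight_le (w := fun n => (n : ℝ) ^ (-σ)) hNK (fun m _ _ => by positivity)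
      (fun m hm _ => ?_) hB
    exact Real.rpow_le_rpow_of_nonpos (Nat.cast_pos.2 (by omega)) (Nat.cast_le.2 m.le_succ)
      (by linarith)
  rcases lt_or_ge t (N : ℝ) with hhigh | hlow
  · refine (hw _ fun m hm hmK => norm_block_high_le (by linarith) hhigh le_rfl
      (hmK.trans hK)).trans ?_
    rw [mul_add, mul_one]
    have h1 : (N : ℝ) ^ (-σ) ≤ 1 := Real.rpow_le_one_of_one_le_of_nonpos hN1 (by linarith)
    have h2 : (N : ℝ) ^ (-σ) * (25 * N / t) ≤ 50 := by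
      rw [mul_div_assoc', div_le_iff₀ (by linarith)]
      have e : (N : ℝ) ^ (-σ) * N ≤ √(N : ℝ) := by
        nth_rw 2 [← Real.rpow_one (N : ℝ)]
        rw [← Real.rpow_add hN0, Real.sqrt_eq_rpow]
        exact Real.rpow_le_rpow_of_exponent_le hN1 (by linarith)
      have e2 : √(N : ℝ) ≤ 2 * t - t / 25 + t / 25 := by
        rw [Real.sqrt_le_iff]
        constructor <;> nlinarith
      have e3 : √(N : ℝ) ≤ 2 * t := by linarith
      nlinarith
    linarith
  have h := norm_tiltBlock_low_le (σ := σ) 0 (by linarith) ht hθ hN hNK hK hlow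
  rw [sum_congr rfl fun n hn => term_eq_weight (σ := σ) (t := t)
    (show 1 ≤ n by have := (mem_Ico.1 hn).1; omega)]
  simpa using h

/-- Dyadic blocks make a partial sum. -/
theorem norm_dyadic_le {f : ℕ → ℂ} {B M : ℝ} (hB0 : 0 ≤ B)
    (hB : ∀ N K : ℕ, 1 ≤ N → N ≤ K → K ≤ 2 * N → (N : ℝ) ≤ M → ‖∑ n ∈ Ico N K, f n‖ ≤ B) :
    ∀ X : ℕ, (X : ℝ) ≤ M → ‖∑ n ∈ Icc 1 X, f n‖ ≤ (Nat.log 2 X + 1) * B := by
  intro X
  induction X using Nat.strong_induction_on with
  | h X ih =>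
    intro hX
    rcases Nat.eq_zero_or_pos X with rfl | hpos
    · simp only [show Icc 1 0 = (∅ : Finset ℕ) by rfl, sum_empty, norm_zero]
      positivity
    rcases Nat.lt_or_ge X 2 with hlt | hge
    · have hX1 : X = 1 := by omega
      subst hX1
      have := hB 1 2 le_rfl (by norm_num) le_rfl (by simpa using hX)
      simpa using this
    obtain ⟨h, hh⟩ : ∃ h, h = X / 2 := ⟨_, rfl⟩
    have hhX : (h : ℝ) ≤ M := le_trans (Nat.cast_le.2 (hh ▸ Nat.div_le_self X 2)) hX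
    have hlog : Nat.log 2 h + 1 = Nat.log 2 X := by
      rw [hh, Nat.log_div_base]
      have : 1 ≤ Nat.log 2 X := Nat.le_log_of_pow_le one_lt_two (by simpa using hge)
      omega
    rw [show Icc 1 X = Icc 1 h ∪ Ico (h + 1) (X + 1) by
      ext i; simp only [mem_union, mem_Icc, mem_Ico]; omega,
      Finset.sum_union (Finset.disjoint_left.2 fun i ha hb => by
        simp only [mem_Icc, mem_Ico] at ha hb; omega)]
    refine (norm_add_le _ _).trans ?_
    rw [← hlog]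
    push_cast
    rw [show ((Nat.log 2 h : ℝ) + 1 + 1) * B = ((Nat.log 2 h : ℝ) + 1) * B + B by ring]
    exact add_le_add (ih h (by omega) hhX) (hB _ _ (by omega) (by omega) (by omega)
      (le_trans (Nat.cast_le.2 (show h + 1 ≤ X by omega)) hX))

theorem norm_partial_le {σ t θ : ℝ} (hσ : 1 / 2 ≤ σ) (ht : 3 ≤ t) (hθ : θ = max (1 - σ) 0) :
    ∀ X : ℕ, (X : ℝ) ≤ 4 * t ^ 2 →
      ‖∑ n ∈ Icc 1 X, 1 / (n : ℂ) ^ ((σ : ℂ) + t * Complex.I)‖ ≤
        (Nat.log 2 X + 1) * blockBound t θ := by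
  intro X hX
  exact norm_dyadic_le (M := 4 * t ^ 2)
    (by linarith [one_le_blockBound (t := t) (show 0 ≤ θ from hθ ▸ le_max_right _ _)])
    (fun N K hN hNK hK hNt => norm_block_le hσ ht hθ hN hNK hK hNt) X hX

theorem norm_zeta_upper_le {σ t : ℝ} (hσ : 1 / 2 ≤ σ) (hσ2 : σ ≤ 3) (ht : 3 ≤ t) :
    ‖riemannZeta ((σ : ℂ) + t * Complex.I)‖ ≤
      400 * (1280 * ell t) ^ 41 * Real.exp (expConst * max (1 - σ) 0 ^ (3 / 2 : ℝ) * ell t) := by
  obtain ⟨θ, hθ⟩ : ∃ θ, θ = max (1 - σ) 0 := ⟨_, rfl⟩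
  rw [← hθ]
  have ht0 : 0 < t := by linarith
  obtain ⟨s, hs⟩ : ∃ s : ℂ, s = (σ : ℂ) + t * Complex.I := ⟨_, rfl⟩
  rw [← hs]
  have hre : s.re = σ := by simp [hs]
  have him : s.im = t := by simp [hs]
  have hs1 : s ≠ 1 := fun h => by
    have := congrArg Complex.im h
    simp [him] at this
    linarith
  obtain ⟨N, hN⟩ : ∃ N, N = ⌈t ^ 2⌉₊ := ⟨_, rfl⟩
  have hNlo : t ^ 2 ≤ (N : ℝ) := hN ▸ Nat.le_ceil _
  have hNhi : (N : ℝ) ≤ 4 * t ^ 2 := by
    have := (Nat.ceil_lt_add_one (sq_nonneg t)).le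
    rw [← hN] at this
    nlinarith
  have hN1 : 1 ≤ N := by
    have : (1 : ℝ) ≤ N := by nlinarith
    exact_mod_cast this
  have hN0 : (0 : ℝ) < N := Nat.cast_pos.2 hN1
  have hNσ : (N : ℝ) ^ (-σ) ≤ t⁻¹ := by
    refine (Real.rpow_le_rpow_of_nonpos (by positivity) hNlo (by linarith)).trans ?_
    rw [← Real.rpow_natCast t 2, ← Real.rpow_mul ht0.le, ← Real.rpow_neg_one]
    exact Real.rpow_le_rpow_of_exponent_le (by linarith) (by push_cast; linarith)
  rw [riemannZeta_truncated (by rw [hre]; linarith) hs1 hN1]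
  have t1 := norm_partial_le hσ ht hθ N hNhi
  rw [← hs] at t1
  have t2 : ‖(N : ℂ) ^ (1 - s) / (s - 1)‖ ≤ 4 := by
    have h1 : t ≤ ‖s - 1‖ := by
      have := Complex.abs_im_le_norm (s - 1)
      rwa [Complex.sub_im, him, Complex.one_im, sub_zero, abs_of_pos ht0] at this
    rw [norm_div, Complex.norm_natCast_cpow_of_pos hN1, Complex.sub_re, Complex.one_re, hre,
      div_le_iff₀ (lt_of_lt_of_le ht0 h1)]
    rw [show (1 : ℝ) - σ = 1 + -σ by ring, Real.rpow_add hN0, Real.rpow_one]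
    have h3 : (N : ℝ) * (N : ℝ) ^ (-σ) ≤ 4 * t ^ 2 * t⁻¹ :=
      mul_le_mul hNhi hNσ (Real.rpow_nonneg hN0.le _) (by positivity)
    rw [show 4 * t ^ 2 * t⁻¹ = 4 * t by field_simp] at h3
    linarith
  have t3 : ‖s * ∫ u in Set.Ioi (N : ℝ),
      ((u - (⌊u⌋₊ : ℝ) : ℝ) : ℂ) * (u : ℂ) ^ (-(s + 1))‖ ≤ 8 := by
    have hi : ‖∫ u in Set.Ioi (N : ℝ), ((u - (⌊u⌋₊ : ℝ) : ℝ) : ℂ) * (u : ℂ) ^ (-(s + 1))‖ ≤
        (N : ℝ) ^ (-s.re) / s.re := by
      refine (MeasureTheory.norm_integral_le_of_norm_le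
        (integrableOn_Ioi_rpow_of_lt (a := -(s.re + 1)) (by rw [hre]; linarith) hN0) ?_).trans
        (le_of_eq ?_)
      · filter_upwards [MeasureTheory.ae_restrict_mem measurableSet_Ioi] with u hu
        exact CycloGrowth.norm_fracIntegrand_le
          (lt_of_le_of_lt (Nat.one_le_cast.2 hN1) hu)
      · rw [integral_Ioi_rpow_of_lt (by rw [hre]; linarith) hN0,
          show -(s.re + 1) + 1 = -s.re by ring, neg_div_neg_eq]
    have hn : ‖s‖ ≤ 2 * t := by
      have := Complex.norm_le_abs_re_add_abs_im s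
      rw [hre, him, abs_of_pos ht0, abs_of_nonneg (by linarith)] at this
      linarith
    rw [norm_mul]
    refine (mul_le_mul hn hi (norm_nonneg _) (by linarith)).trans ?_
    rw [hre]
    calc 2 * t * ((N : ℝ) ^ (-σ) / σ) ≤ 2 * t * (t⁻¹ / (1 / 2)) := by
          gcongr
      _ = 4 := by field_simp; norm_num
      _ ≤ 8 := by norm_num
  have hlogN : (Nat.log 2 N : ℝ) + 1 ≤ 5 * ell t := by
    have hpow : ((2 ^ Nat.log 2 N : ℕ) : ℝ) ≤ N :=
      Nat.cast_le.2 (Nat.pow_log_le_self 2 (by omega))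
    push_cast at hpow
    have h1 := Real.log_le_log (by positivity) (hpow.trans (hNhi.trans
      (show 4 * t ^ 2 ≤ (|t| + 100) ^ 3 * 1 by
        rw [abs_of_pos ht0]; nlinarith [mul_pos ht0 ht0])))
    rw [mul_one, Real.log_pow, Real.log_pow, ← ell] at h1
    have hk : (0 : ℝ) ≤ (Nat.log 2 N : ℝ) := Nat.cast_nonneg _
    push_cast at h1
    nlinarith [four_le_ell t, Real.log_two_gt_d9]
  refine (norm_sub_le _ _).trans
    ((add_le_add ((norm_add_le _ _).trans (add_le_add t1 t2)) t3).trans ?_)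
  have hB := one_le_blockBound (t := t) (show 0 ≤ θ from hθ ▸ le_max_right _ _)
  have h4 : ((Nat.log 2 N : ℝ) + 1) * blockBound t θ ≤ 5 * ell t * blockBound t θ :=
    mul_le_mul_of_nonneg_right hlogN (by linarith)
  have h5 : 4 * blockBound t θ ≤ ell t * blockBound t θ :=
    mul_le_mul_of_nonneg_right (four_le_ell t) (by linarith)
  have h6 : 6 * ell t * blockBound t θ ≤
      400 * (1280 * ell t) ^ 41 * Real.exp (expConst * θ ^ (3 / 2 : ℝ) * ell t) := by
    rw [blockBound, pow_succ (1280 * ell t) 40]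
    nlinarith [show 0 ≤ ell t * ((1280 * ell t) ^ 40 *
      Real.exp (expConst * θ ^ (3 / 2 : ℝ) * ell t)) from mul_nonneg (ell_pos t).le (by positivity)]
  linarith

/-- **The Vinogradov–Korobov bound for `ζ`.** -/
theorem exists_zeta_bound : ∃ C, 0 < C ∧ ∀ s : ℂ, 3 ≤ |s.im| → 1 / 2 ≤ s.re → s.re ≤ 3 →
    ‖riemannZeta s‖ ≤
      C * ell s.im ^ 41 * Real.exp (expConst * max (1 - s.re) 0 ^ (3 / 2 : ℝ) * ell s.im) := by
  refine ⟨400 * 1280 ^ 41, by positivity, fun s ht hσ hσ2 => ?_⟩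
  rw [show (400 : ℝ) * 1280 ^ 41 * ell s.im ^ 41 = 400 * (1280 * ell s.im) ^ 41 by ring]
  rcases le_or_gt 0 s.im with hpos | hneg
  · rw [abs_of_nonneg hpos] at ht
    simpa only [Complex.re_add_im] using norm_zeta_upper_le hσ hσ2 ht
  · rw [abs_of_neg hneg] at ht
    have h := norm_zeta_upper_le hσ hσ2 ht
    rw [show ((s.re : ℂ)) + ((-s.im : ℝ) : ℂ) * Complex.I = conj s by
      apply Complex.ext <;> simp, riemannZeta_conj, Complex.norm_conj] at h
    simpa only [ell, abs_neg] using h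

end FA.Korobov

end
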