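import Fermat.Agent.Korobov.Bilinear
import Fermat.Agent.Subconvexity.ZetaLine
import Mathlib.Analysis.Complex.ExponentialBounds

/-!
# Vinogradov's bound for `∑ n ^ (-it)`

For `N ^ L ≤ t ≤ N ^ (L + 1)` the sum over `[N, 2 N)` is at most
`(640 L) ^ 40 N ^ (1 - 1 / (3600000 L²))`.
-/

set_option autoImplicit false

noncomputable section

namespace FA.Korobov

open Finset FA.Subconvexity
open scoped Real

theorem norm_expI_sub_le (a b : ℝ) : ‖expI a - expI b‖ ≤ |a - b| := by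
  have e : expI a - expI b = expI b * (expI (a - b) - 1) := by
    rw [mul_sub, mul_one, ← expI_add, add_sub_cancel]
  rw [e, norm_mul, norm_expI, one_mul, expI, mul_comm (((a - b : ℝ)) : ℂ)]
  exact Real.norm_exp_I_mul_ofReal_sub_one_le

/-- The Taylor coefficients of the phase at `n`. -/
def taylorCoeff (k : ℕ) (t : ℝ) (n : ℕ) : Fin k → ℝ :=
  fun j => -t * (-1) ^ j.1 / ((j.1 + 1 : ℝ) * (n : ℝ) ^ (j.1 + 1))

theorem abs_taylorCoeff {k n : ℕ} {t : ℝ} (ht : 0 ≤ t) (j : Fin k) :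
    |taylorCoeff k t n j| = t / ((j.1 + 1 : ℝ) * (n : ℝ) ^ (j.1 + 1)) := by
  rw [taylorCoeff, abs_div, abs_mul, abs_neg, abs_pow, abs_neg, abs_one, one_pow, mul_one,
    abs_of_nonneg ht, abs_of_nonneg (show 0 ≤ (j.1 + 1 : ℝ) * (n : ℝ) ^ (j.1 + 1) by positivity)]

theorem phase_taylor_le {k n x y : ℕ} {t : ℝ} (ht : 0 ≤ t) (hn : 0 < n)
    (hu : 2 * (x * y) ≤ n) :
    |phase t (n + x * y) -
      (phase t n + phaseDot (taylorCoeff k t n) (moments k x) (moments k y))| ≤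
      2 * t * (((x * y : ℕ) : ℝ) / n) ^ (k + 1) := by
  have hn0 : (0 : ℝ) < n := Nat.cast_pos.2 hn
  obtain ⟨u, hu'⟩ : ∃ u : ℝ, u = ((x * y : ℕ) : ℝ) / n := ⟨_, rfl⟩
  have hu0 : 0 ≤ u := hu' ▸ by positivity
  have hu2 : u ≤ 1 / 2 := by
    rw [hu', div_le_iff₀ hn0]
    have : ((2 * (x * y) : ℕ) : ℝ) ≤ n := Nat.cast_le.2 hu
    push_cast at this ⊢
    linarith
  have h := Real.abs_log_sub_add_sum_range_le (x := -u)
    (by rw [abs_neg, abs_of_nonneg hu0]; linarith) k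
  rw [abs_neg, abs_of_nonneg hu0, sub_neg_eq_add] at h
  have hlog : Real.log ((n + x * y : ℕ) : ℝ) = Real.log n + Real.log (1 + u) := by
    rw [← Real.log_mul hn0.ne' (by linarith), hu']
    congr 1
    push_cast
    field_simp
  have hdot : phaseDot (taylorCoeff k t n) (moments k x) (moments k y) =
      t * ∑ i ∈ range k, (-u) ^ (i + 1) / ((i : ℝ) + 1) := by
    rw [phaseDot, mul_sum, ← Fin.sum_univ_eq_sum_range
      (fun i => t * ((-u) ^ (i + 1) / ((i : ℝ) + 1)))]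
    refine sum_congr rfl fun j _ => ?_
    simp only [taylorCoeff, moments, hu']
    push_cast
    rw [show (-((x : ℝ) * y / n)) ^ (j.1 + 1) =
      (-1) ^ (j.1 + 1) * ((x : ℝ) ^ (j.1 + 1) * (y : ℝ) ^ (j.1 + 1)) / (n : ℝ) ^ (j.1 + 1) by
        rw [neg_pow, div_pow, mul_pow]; ring]
    field_simp
    ring
  rw [phase, phase, hlog, hdot, ← hu',
    show -(t * (Real.log n + Real.log (1 + u))) - (-(t * Real.log n) +
      t * ∑ i ∈ range k, (-u) ^ (i + 1) / ((i : ℝ) + 1)) =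
      -(t * ((∑ i ∈ range k, (-u) ^ (i + 1) / ((i : ℝ) + 1)) + Real.log (1 + u))) by ring,
    abs_neg, abs_mul, abs_of_nonneg ht]
  refine (mul_le_mul_of_nonneg_left h ht).trans ?_
  rw [mul_comm 2 t, mul_assoc]
  refine mul_le_mul_of_nonneg_left ?_ ht
  rw [div_le_iff₀ (by linarith)]
  nlinarith [pow_nonneg hu0 (k + 1)]

theorem norm_shift_le (N K h : ℕ) (hNK : N ≤ K) (f : ℕ → ℂ) (hf : ∀ n, ‖f n‖ ≤ 1) :
    ‖∑ n ∈ Ico N K, f n - ∑ n ∈ Ico N K, f (n + h)‖ ≤ 2 * (h : ℝ) := by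
  have e : ∑ n ∈ Ico N K, f (n + h) = ∑ n ∈ Ico (N + h) (K + h), f n := by
    rw [sum_Ico_add' f]
  have e1 := sum_Ico_consecutive f hNK (Nat.le_add_right K h)
  have e2 := sum_Ico_consecutive f (Nat.le_add_right N h) (Nat.add_le_add_right hNK h)
  rw [e, show ∑ n ∈ Ico N K, f n - ∑ n ∈ Ico (N + h) (K + h), f n =
    ∑ n ∈ Ico N (N + h), f n - ∑ n ∈ Ico K (K + h), f n by linear_combination e1 - e2]
  have hb : ∀ a, ‖∑ n ∈ Ico a (a + h), f n‖ ≤ (h : ℝ) := fun a => by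
    refine (norm_sum_le _ _).trans ((sum_le_card_nsmul _ _ 1 fun n _ => hf n).trans ?_)
    simp
  exact (norm_sub_le _ _).trans (by linarith [hb N, hb K])

theorem four_hundred_le_exp : (400 : ℝ) ≤ Real.exp 6 := by
  have h := Real.exp_one_gt_d9
  rw [show (6 : ℝ) = ((6 : ℕ) : ℝ) * 1 by norm_num, Real.exp_nat_mul]
  refine le_trans ?_ (pow_le_pow_left₀ (by norm_num)
    (show (2718 / 1000 : ℝ) ≤ Real.exp 1 by linarith) 6)
  norm_num

theorem eta_six_le {k : ℕ} (hk : 0 < k) : eta k (6 * k) ≤ (k : ℝ) ^ 2 / 800 := by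
  have h0 : 0 ≤ 1 - 1 / (k : ℝ) := by
    rw [sub_nonneg, div_le_one (Nat.cast_pos.2 hk)]
    exact_mod_cast hk
  have h : (1 - 1 / (k : ℝ)) ^ (6 * k) ≤ 1 / 400 := by
    refine (pow_le_pow_left₀ h0 (Real.one_sub_le_exp_neg _) _).trans ?_
    rw [← Real.exp_nat_mul, Nat.cast_mul, show ((6 : ℕ) : ℝ) * (k : ℝ) * -(1 / (k : ℝ)) = -6 by
      field_simp; norm_num, Real.exp_neg, inv_eq_one_div]
    exact one_div_le_one_div_of_le (by norm_num) four_hundred_le_exp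
  rw [eta]
  nlinarith [sq_nonneg (k : ℝ)]

theorem six_sq_le {X : ℝ} {k : ℕ} (hk : 1 ≤ k) (hX : 64 * (k : ℝ) ≤ X) :
    6 * (((6 * k ^ 2 : ℕ) : ℝ)) ^ 2 ≤ X ^ 5 := by
  have hk1 : (1 : ℝ) ≤ k := by exact_mod_cast hk
  push_cast
  calc 6 * (6 * (k : ℝ) ^ 2) ^ 2 = 216 * (k : ℝ) ^ 4 := by ring
    _ ≤ (64 * (k : ℝ)) ^ 5 := by
        rw [mul_pow]
        nlinarith [pow_le_pow_right₀ hk1 (show 4 ≤ 5 by norm_num),
          show (0 : ℝ) ≤ (k : ℝ) ^ 4 by positivity]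
    _ ≤ _ := pow_le_pow_left₀ (by positivity) hX 5

/-- The linear form for a middle degree. -/
theorem linForm_middle_le {N L M i n : ℕ} {t θ : ℝ} (hL : 1 ≤ L) (hN : 1 ≤ N) (hn : N ≤ n)
    (hn2 : n ≤ 2 * N) (h1 : (N : ℝ) ^ L ≤ t) (h2 : t ≤ (N : ℝ) ^ (L + 1))
    (hM1 : (N : ℝ) ^ (2 / 5 : ℝ) ≤ 2 * M) (hi : 2 * L + 1 ≤ i) (hi2 : i ≤ 3 * L)
    (hθ : θ = t / ((i : ℝ) * (n : ℝ) ^ i)) :
    linForm θ (6 * (10 * L) ^ 2 * M ^ i) ≤
      (640 * (L : ℝ)) ^ (30 * L) * (N : ℝ) ^ (-(3 * L / 10) : ℝ) * (M : ℝ) ^ (2 * i) := by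
  have hL1 : (1 : ℝ) ≤ L := by exact_mod_cast hL
  have hN1 : (1 : ℝ) ≤ N := by exact_mod_cast hN
  have hN0 : (0 : ℝ) < N := by linarith
  have hi0 : (0 : ℝ) < i := Nat.cast_pos.2 (by omega)
  have hn0 : (0 : ℝ) < n := Nat.cast_pos.2 (by omega)
  have hnN : (N : ℝ) ≤ n := Nat.cast_le.2 hn
  have hn2N : (n : ℝ) ≤ 2 * N := by exact_mod_cast hn2
  have ht0 : 0 < t := lt_of_lt_of_le (by positivity) h1
  have hθ0 : 0 < θ := hθ ▸ by positivity
  have hi1 : (1 : ℝ) ≤ i := by exact_mod_cast (show 1 ≤ i by omega)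
  obtain ⟨w, hw⟩ : ∃ w : ℝ, w = (N : ℝ) ^ (-(2 * L / 5) : ℝ) := ⟨_, rfl⟩
  have hθN : θ ≤ (N : ℝ) ^ (-(L : ℝ)) := by
    rw [hθ, div_le_iff₀ (by positivity)]
    refine h2.trans ?_
    calc (N : ℝ) ^ (L + 1) = (N : ℝ) ^ (-(L : ℝ)) * (N : ℝ) ^ (2 * L + 1) := by
          rw [← Real.rpow_natCast _ (L + 1), ← Real.rpow_natCast _ (2 * L + 1),
            ← Real.rpow_add hN0]
          congr 1
          push_cast
          ring
      _ ≤ (N : ℝ) ^ (-(L : ℝ)) * (1 * (n : ℝ) ^ i) := by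
          rw [one_mul]
          refine mul_le_mul_of_nonneg_left ?_ (by positivity)
          exact (pow_le_pow_right₀ hN1 hi).trans (pow_le_pow_left₀ hN0.le hnN i)
      _ ≤ _ := by gcongr
  have hθw : θ ≤ w := hθN.trans (hw ▸ Real.rpow_le_rpow_of_exponent_le hN1 (by linarith))
  have hθ1 : θ ≤ 1 := hθN.trans (Real.rpow_le_one_of_one_le_of_nonpos hN1 (by linarith))
  have hθinv : 1 / θ ≤ 3 * L * 2 ^ (3 * L) * (N : ℝ) ^ ((i : ℝ) - L) := by
    rw [hθ, one_div_div, div_le_iff₀ ht0]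
    calc (i : ℝ) * (n : ℝ) ^ i ≤ (3 * L) * (2 ^ (3 * L) * (N : ℝ) ^ i) := by
          refine mul_le_mul (by exact_mod_cast hi2) ?_ (by positivity) (by positivity)
          refine (pow_le_pow_left₀ hn0.le hn2N i).trans ?_
          rw [mul_pow]
          exact mul_le_mul_of_nonneg_right (pow_le_pow_right₀ one_le_two hi2) (by positivity)
      _ = 3 * L * 2 ^ (3 * L) * (N : ℝ) ^ ((i : ℝ) - L) * (N : ℝ) ^ L := by
          rw [Real.rpow_sub hN0, Real.rpow_natCast, Real.rpow_natCast]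
          field_simp
      _ ≤ _ := mul_le_mul_of_nonneg_left h1 (by positivity)
  obtain ⟨U, hU⟩ : ∃ U, U = 6 * (10 * L) ^ 2 * M ^ i := ⟨_, rfl⟩
  have hM0 : (0 : ℝ) < M := by
    have := Real.one_le_rpow hN1 (show (0 : ℝ) ≤ 2 / 5 by norm_num)
    linarith
  have hUM : (M : ℝ) ^ i ≤ U := by
    rw [hU]
    push_cast
    refine le_mul_of_one_le_left (by positivity) ?_
    nlinarith
  have hU1 : (1 : ℝ) ≤ U := by
    have : 1 ≤ U := hU ▸ Nat.mul_pos (by positivity)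
      (Nat.pow_pos (Nat.cast_pos.1 hM0 : 0 < M))
    exact_mod_cast this
  have hMinv : 1 / (M : ℝ) ^ i ≤ 2 ^ (3 * L) * (N : ℝ) ^ (-(2 * i / 5) : ℝ) := by
    have h3 : (N : ℝ) ^ (2 * i / 5 : ℝ) ≤ 2 ^ (3 * L) * (M : ℝ) ^ i := by
      calc (N : ℝ) ^ (2 * i / 5 : ℝ) = ((N : ℝ) ^ (2 / 5 : ℝ)) ^ i := by
            rw [← Real.rpow_natCast, ← Real.rpow_mul hN0.le]; ring_nf
        _ ≤ (2 * (M : ℝ)) ^ i := pow_le_pow_left₀ (by positivity) hM1 i
        _ ≤ _ := by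
            rw [mul_pow]
            exact mul_le_mul_of_nonneg_right (pow_le_pow_right₀ one_le_two hi2) (by positivity)
    rw [Real.rpow_neg hN0.le, ← div_eq_mul_inv, div_le_div_iff₀ (by positivity) (by positivity),
      one_mul]
    exact h3
  have hUinv : 1 / (U : ℝ) ≤ 2 ^ (3 * L) * w := by
    refine (one_div_le_one_div_of_le (by positivity) hUM).trans (hMinv.trans
      (mul_le_mul_of_nonneg_left (hw ▸ Real.rpow_le_rpow_of_exponent_le hN1 ?_) (by positivity)))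
    have : (2 * (L : ℝ) + 1) ≤ i := by exact_mod_cast hi
    linarith
  have hUθ : 1 / (θ * (U : ℝ) ^ 2) ≤ 3 * L * 2 ^ (9 * L) * w := by
    calc 1 / (θ * (U : ℝ) ^ 2) = 1 / θ * (1 / (U : ℝ)) ^ 2 := by field_simp
      _ ≤ 3 * L * 2 ^ (3 * L) * (N : ℝ) ^ ((i : ℝ) - L) *
            (2 ^ (3 * L) * (N : ℝ) ^ (-(2 * i / 5) : ℝ)) ^ 2 := by
          refine mul_le_mul hθinv (pow_le_pow_left₀ (by positivity)
            ((one_div_le_one_div_of_le (by positivity) hUM).trans hMinv) 2) (by positivity)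
            (by positivity)
      _ = 3 * L * 2 ^ (9 * L) * (N : ℝ) ^ ((i : ℝ) / 5 - L) := by
          rw [show (i : ℝ) / 5 - L = ((i : ℝ) - L) + (-(2 * i / 5)) + (-(2 * i / 5)) by ring,
            Real.rpow_add hN0, Real.rpow_add hN0, show 9 * L = 3 * L + 3 * L + 3 * L by ring,
            pow_add, pow_add]
          ring
      _ ≤ _ := by
          refine mul_le_mul_of_nonneg_left (hw ▸ Real.rpow_le_rpow_of_exponent_le hN1 ?_)
            (by positivity)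
          have : (i : ℝ) ≤ 3 * L := by exact_mod_cast hi2
          linarith
  obtain ⟨X, hX⟩ : ∃ X : ℝ, X = 640 * (L : ℝ) := ⟨_, rfl⟩
  have hX2 : (2 : ℝ) ≤ X := by linarith
  have hX1 : (1 : ℝ) ≤ X := by linarith
  have h23 : (2 : ℝ) ^ (3 * L) ≤ X ^ (3 * L) := pow_le_pow_left₀ two_pos.le hX2 _
  have h29 : (2 : ℝ) ^ (9 * L) ≤ X ^ (9 * L) := pow_le_pow_left₀ two_pos.le hX2 _
  have hLg : 1 + Real.log (9 / θ) ≤ X ^ (2 + 3 * L) * (N : ℝ) ^ (L / 10 : ℝ) := by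
    have h4 : 9 / θ ≤ (27 * L * 2 ^ (3 * L)) * (N : ℝ) ^ ((i : ℝ) - L) := by
      calc 9 / θ = 9 * (1 / θ) := by ring
        _ ≤ 9 * (3 * L * 2 ^ (3 * L) * (N : ℝ) ^ ((i : ℝ) - L)) :=
            mul_le_mul_of_nonneg_left hθinv (by norm_num)
        _ = _ := by ring
    have h5 := Real.log_le_log (by positivity) h4
    rw [Real.log_mul (by positivity) (by positivity), Real.log_rpow hN0] at h5
    have h6 : Real.log (27 * L * 2 ^ (3 * L)) ≤ 27 * L * 2 ^ (3 * L) :=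
      Real.log_le_self (by positivity)
    have h7 := Real.log_le_rpow_div hN0.le (show (0 : ℝ) < L / 10 by positivity)
    have h8 : ((i : ℝ) - L) * Real.log N ≤ 2 * L * ((N : ℝ) ^ (L / 10 : ℝ) / (L / 10)) := by
      refine mul_le_mul ?_ h7 (Real.log_nonneg hN1) (by positivity)
      have : (i : ℝ) ≤ 3 * L := by exact_mod_cast hi2
      linarith
    rw [show 2 * (L : ℝ) * ((N : ℝ) ^ (L / 10 : ℝ) / (L / 10)) = 20 * (N : ℝ) ^ (L / 10 : ℝ) by
      field_simp; norm_num] at h8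
    have hP : 1 ≤ (N : ℝ) ^ (L / 10 : ℝ) := Real.one_le_rpow hN1 (by positivity)
    have h9 : 21 + 27 * L * 2 ^ (3 * L) ≤ X ^ (2 + 3 * L) := by
      have : (1 : ℝ) ≤ 2 ^ (3 * L) := one_le_pow₀ one_le_two
      calc 21 + 27 * (L : ℝ) * 2 ^ (3 * L) ≤ 48 * L * 2 ^ (3 * L) := by nlinarith
        _ ≤ X ^ 2 * X ^ (3 * L) := mul_le_mul (by rw [hX]; nlinarith) h23 (by positivity)
            (by positivity)
        _ = _ := by rw [pow_add]
    nlinarith [mul_le_mul_of_nonneg_right h9 (show (0 : ℝ) ≤ (N : ℝ) ^ (L / 10 : ℝ) by positivity),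
      show (0 : ℝ) ≤ 27 * L * 2 ^ (3 * L) by positivity]
  have hlog1 : 1 ≤ 1 + Real.log (9 / θ) := by
    have : 0 ≤ Real.log (9 / θ) := Real.log_nonneg (by rw [one_le_div hθ0]; linarith)
    linarith
  rw [← hU]
  refine (linForm_le hθ0 hθ1 U).trans ?_
  calc (θ * U + 3) * (4 * ((U : ℝ) + 1) + 7 / θ * (1 + Real.log (9 / θ)))
      ≤ (θ * U + 3) * (8 * U + 7 / θ * (1 + Real.log (9 / θ))) :=
        mul_le_mul_of_nonneg_left (add_le_add (by linarith) le_rfl) (by positivity)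
    _ = 8 * θ * (U : ℝ) ^ 2 + 24 * U + 7 * U * (1 + Real.log (9 / θ)) +
          21 / θ * (1 + Real.log (9 / θ)) := by field_simp; ring
    _ ≤ 8 * θ * (U : ℝ) ^ 2 * (1 + Real.log (9 / θ)) + 24 * U * (1 + Real.log (9 / θ)) +
          7 * U * (1 + Real.log (9 / θ)) + 21 / θ * (1 + Real.log (9 / θ)) := by
        have a1 := le_mul_of_one_le_right (show 0 ≤ 8 * θ * (U : ℝ) ^ 2 by positivity) hlog1
        have a2 := le_mul_of_one_le_right (show (0 : ℝ) ≤ 24 * U by positivity) hlog1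
        linarith
    _ = (U : ℝ) ^ 2 * (1 + Real.log (9 / θ)) *
          (8 * θ + 31 * (1 / (U : ℝ)) + 21 * (1 / (θ * (U : ℝ) ^ 2))) := by field_simp; ring
    _ ≤ (U : ℝ) ^ 2 * (X ^ (2 + 3 * L) * (N : ℝ) ^ (L / 10 : ℝ)) *
          (8 * w + 31 * (2 ^ (3 * L) * w) + 21 * (3 * L * 2 ^ (9 * L) * w)) := by
        have : 0 ≤ w := hw ▸ by positivity
        gcongr
    _ ≤ (X ^ 5 * (M : ℝ) ^ (2 * i)) * (X ^ (2 + 3 * L) * (N : ℝ) ^ (L / 10 : ℝ)) *
          (X ^ (1 + 9 * L) * w) := by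
        have hw0 : 0 ≤ w := hw ▸ by positivity
        have h10 : (U : ℝ) ^ 2 ≤ X ^ 5 * (M : ℝ) ^ (2 * i) := by
          rw [hU, Nat.cast_mul, Nat.cast_pow M, mul_pow, ← pow_mul, mul_comm i 2]
          refine mul_le_mul_of_nonneg_right (le_trans ?_
            (six_sq_le (k := 10 * L) (X := X) (by omega) (by rw [hX]; push_cast; linarith)))
            (by positivity)
          exact le_mul_of_one_le_left (sq_nonneg _) (by norm_num)
        have h11 : 8 * w + 31 * (2 ^ (3 * L) * w) + 21 * (3 * L * 2 ^ (9 * L) * w) ≤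
            X ^ (1 + 9 * L) * w := by
          have h12 : (2 : ℝ) ^ (3 * L) ≤ 2 ^ (9 * L) := pow_le_pow_right₀ one_le_two (by omega)
          have h13 : (1 : ℝ) ≤ 2 ^ (9 * L) := one_le_pow₀ one_le_two
          calc 8 * w + 31 * (2 ^ (3 * L) * w) + 21 * (3 * L * 2 ^ (9 * L) * w)
              = (8 + 31 * 2 ^ (3 * L) + 63 * L * 2 ^ (9 * L)) * w := by ring
            _ ≤ (8 * (L * 2 ^ (9 * L)) + 31 * (L * 2 ^ (9 * L)) + 63 * L * 2 ^ (9 * L)) * w := by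
                gcongr
                · nlinarith
                · nlinarith
            _ = 102 * L * 2 ^ (9 * L) * w := by ring
            _ ≤ X * X ^ (9 * L) * w := by
                refine mul_le_mul_of_nonneg_right 
                  (mul_le_mul ?_ h29 (by positivity) (by linarith)) hw0
                rw [hX]; linarith
            _ = _ := by rw [pow_add, pow_one]
        gcongr
    _ = X ^ (5 + (2 + 3 * L) + (1 + 9 * L)) * (N : ℝ) ^ (-(3 * L / 10) : ℝ) *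
          (M : ℝ) ^ (2 * i) := by
        rw [hw, show (-(3 * L / 10) : ℝ) = L / 10 + -(2 * L / 5) by ring, Real.rpow_add hN0,
          pow_add, pow_add]
        ring
    _ ≤ _ := by
        rw [← hX]
        gcongr
        omega

/-- The product of the linear forms. -/
theorem prod_linForm_le {N L M n : ℕ} {t : ℝ} {α : Fin (10 * L) → ℝ}
    (hα : ∀ j, 1 ≤ j.1 → α j = taylorCoeff (10 * L) t n j) (hL : 1 ≤ L) (hN : 1 ≤ N) (hn : N ≤ n)
    (hn2 : n ≤ 2 * N) (h1 : (N : ℝ) ^ L ≤ t) (h2 : t ≤ (N : ℝ) ^ (L + 1))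
    (hM1 : (N : ℝ) ^ (2 / 5 : ℝ) ≤ 2 * M) :
    ∏ j : Fin (10 * L), linForm (α j) (6 * (10 * L) ^ 2 * M ^ (j.1 + 1)) ≤
      (640 * (L : ℝ)) ^ (350 * L ^ 2) * (N : ℝ) ^ (-(3 * (L : ℝ) ^ 2 / 10) : ℝ) *
        (M : ℝ) ^ ((10 * L) * (10 * L + 1)) := by
  have hN0 : (0 : ℝ) < N := Nat.cast_pos.2 hN
  have ht : 0 ≤ t := le_trans (by positivity) h1
  have hL1 : (1 : ℝ) ≤ L := by exact_mod_cast hL
  obtain ⟨X, hX⟩ : ∃ X : ℝ, X = 640 * (L : ℝ) := ⟨_, rfl⟩
  have hX1 : (1 : ℝ) ≤ X := by linarith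
  have hM0 : (1 : ℝ) ≤ M := by
    have : 0 < M := by
      have := Real.one_le_rpow (show (1 : ℝ) ≤ N by exact_mod_cast hN)
        (show (0 : ℝ) ≤ 2 / 5 by norm_num)
      exact_mod_cast (show (0 : ℝ) < M by linarith)
    exact_mod_cast this
  have hterm : ∀ j : Fin (10 * L),
      linForm (α j) (6 * (10 * L) ^ 2 * M ^ (j.1 + 1)) ≤
        X ^ (35 * L) * (if 2 * L ≤ j.1 ∧ j.1 < 3 * L then (N : ℝ) ^ (-(3 * L / 10) : ℝ) else 1) *
          (M : ℝ) ^ (2 * (j.1 + 1)) := fun j => by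
    rw [← linForm_abs]
    split_ifs with hj
    · refine (linForm_middle_le hL hN hn hn2 h1 h2 hM1 (i := j.1 + 1) (by omega) (by omega)
        (by rw [hα j (by omega), abs_taylorCoeff ht]; push_cast; ring)).trans ?_
      rw [← hX]
      gcongr
      omega
    · rw [mul_one]
      refine (linForm_trivial _ _).trans ?_
      obtain ⟨U, hU⟩ : ∃ U, U = 6 * (10 * L) ^ 2 * M ^ (j.1 + 1) := ⟨_, rfl⟩
      rw [← hU]
      have hU1 : (1 : ℝ) ≤ U := by
        have : 0 < U := hU ▸ Nat.mul_pos (by positivity)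
          (Nat.pow_pos (by exact_mod_cast (show (0 : ℝ) < M by linarith)))
        exact_mod_cast this
      calc (2 * (U : ℝ) + 1) * (U + 1) ≤ 6 * (U : ℝ) ^ 2 := by nlinarith
        _ = 6 * (((6 * (10 * L) ^ 2 : ℕ) : ℝ)) ^ 2 * (M : ℝ) ^ (2 * (j.1 + 1)) := by
            rw [hU]; push_cast; rw [mul_pow, ← pow_mul, mul_comm (j.1 + 1) 2]; ring
        _ ≤ X ^ 5 * (M : ℝ) ^ (2 * (j.1 + 1)) :=
            mul_le_mul_of_nonneg_right
              (six_sq_le (k := 10 * L) (by omega) (by rw [hX]; push_cast; linarith))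
              (by positivity)
        _ ≤ _ := by gcongr; omega
  refine (prod_le_prod (fun j _ => linForm_nonneg _ _) fun j _ => hterm j).trans (le_of_eq ?_)
  rw [prod_mul_distrib, prod_mul_distrib, prod_const, card_univ, Fintype.card_fin, ← pow_mul,
    prod_pow_eq_pow_sum, ← hX,
    show 35 * L * (10 * L) = 350 * L ^ 2 by ring]
  congr 2
  · rw [Fin.prod_univ_eq_prod_range
      (fun j => if 2 * L ≤ j ∧ j < 3 * L then (N : ℝ) ^ (-(3 * L / 10) : ℝ) else 1) (10 * L),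
      ← prod_filter, prod_const,
      show (range (10 * L)).filter (fun j => 2 * L ≤ j ∧ j < 3 * L) = Ico (2 * L) (3 * L) by
        ext j; simp only [mem_filter, mem_range, mem_Ico]; omega,
      Nat.card_Ico, show 3 * L - 2 * L = L by omega, ← Real.rpow_natCast, ← Real.rpow_mul hN0.le]
    congr 1
    ring
  · rw [← mul_sum, Fin.sum_univ_eq_sum_range (fun j => j + 1), sum_add_distrib, sum_const,
      card_range, smul_eq_mul, mul_one, mul_add, mul_comm 2 (∑ x ∈ range (10 * L), x),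
      sum_range_id_mul_two]
    rcases (10 * L) with _ | m
    · simp
    · simp only [Nat.add_sub_cancel]
      ring

/-- The saving. -/
def korobovDelta (L : ℕ) : ℝ := 1 / (3600000 * (L : ℝ) ^ 2)

theorem korobovDelta_bounds {L : ℕ} (hL : 1 ≤ L) :
    0 < korobovDelta L ∧ korobovDelta L ≤ 1 / 5 := by
  have h : (1 : ℝ) ≤ (L : ℝ) ^ 2 := one_le_pow₀ (by exact_mod_cast hL)
  refine ⟨by rw [korobovDelta]; positivity, ?_⟩
  rw [korobovDelta]
  exact one_div_le_one_div_of_le (by norm_num) (by linarith)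

/-- The bilinear sum at one `n`. -/
theorem norm_bilinear_taylor_le {N L M n : ℕ} {t : ℝ} {α : Fin (10 * L) → ℝ}
    (hα : ∀ j, 1 ≤ j.1 → α j = taylorCoeff (10 * L) t n j) (hL : 1 ≤ L) (hN : 1 ≤ N) (hn : N ≤ n)
    (hn2 : n ≤ 2 * N) (h1 : (N : ℝ) ^ L ≤ t) (h2 : t ≤ (N : ℝ) ^ (L + 1))
    (hM1 : (N : ℝ) ^ (2 / 5 : ℝ) ≤ 2 * M) (hM2 : (M : ℝ) ≤ (N : ℝ) ^ (2 / 5 : ℝ)) :
    ‖bilinear α M‖ ≤
      (640 * (L : ℝ)) ^ 39 * (M : ℝ) ^ 2 * (N : ℝ) ^ (-korobovDelta L) := by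
  obtain ⟨k, hk⟩ : ∃ k, k = 10 * L := ⟨_, rfl⟩
  obtain ⟨s, hs⟩ : ∃ s, s = k * (6 * k) := ⟨_, rfl⟩
  obtain ⟨X, hX⟩ : ∃ X : ℝ, X = 640 * (L : ℝ) := ⟨_, rfl⟩
  have hL1 : (1 : ℝ) ≤ L := by exact_mod_cast hL
  have hX1 : (1 : ℝ) ≤ X := by linarith
  have hN0 : (0 : ℝ) < N := Nat.cast_pos.2 hN
  have hN1 : (1 : ℝ) ≤ N := by exact_mod_cast hN
  have hM0 : (1 : ℝ) ≤ M := by
    have : 0 < M := by
      have := Real.one_le_rpow hN1 (show (0 : ℝ) ≤ 2 / 5 by norm_num)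
      exact_mod_cast (show (0 : ℝ) < M by linarith)
    exact_mod_cast this
  have hk0 : 0 < k := by omega
  have hs1 : 1 ≤ s := hs ▸ Nat.mul_pos hk0 (by omega)
  have hm := meanCount_le hk0 (6 * k) (by omega) M (by exact_mod_cast hM0)
  have hC : mvConst k (6 * k) ≤ X ^ (1344 * k ^ 4) := by
    rw [mvConst, show (64 : ℝ) * k = X by rw [hX, hk]; push_cast; ring]
    refine pow_le_pow_right₀ hX1 ?_
    nlinarith [Nat.mul_le_mul hk0 (le_refl (k ^ 3))]
  have hprod' : ∀ α : Fin (10 * L) → ℝ,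
      (∀ j : Fin (10 * L), 1 ≤ j.1 → α j = taylorCoeff (10 * L) t n j) →
        ∏ j : Fin (10 * L), linForm (α j) (6 * (10 * L) ^ 2 * M ^ (j.1 + 1)) ≤
          X ^ (350 * L ^ 2) * (N : ℝ) ^ (-(3 * (L : ℝ) ^ 2 / 10) : ℝ) *
            (M : ℝ) ^ ((10 * L) * (10 * L + 1)) :=
    fun α hα => hX ▸ prod_linForm_le hα hL hN hn hn2 h1 h2 hM1
  revert α
  rw [← hk] at hprod' ⊢
  intro α hα
  have hprod := hprod' α hα
  have hsk : s = 6 * k ^ 2 := by rw [hs]; ring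
  have hb := norm_bilinear_pow_le (M := M) α hs1
  rw [hsk] at hb
  refine le_of_pow_le_pow_left₀ (n := 2 * s * s) (Nat.mul_pos (by omega) hs1).ne' (by positivity) ?_
  rw [← hX]
  rw [← hsk] at hb hprod
  refine hb.trans ?_
  have hs2 : (k : ℝ) * ((6 * k : ℕ) : ℝ) = (s : ℝ) := by rw [hs]; push_cast; ring
  calc (M : ℝ) ^ (4 * s * (s - 1)) * (meanCount k s M : ℝ) ^ 2 *
      ∏ j : Fin k, linForm (α j) (s * M ^ (j.1 + 1))
      ≤ (M : ℝ) ^ (4 * s * (s - 1)) * (mvConst k (6 * k) * (M : ℝ) ^ mvExp k (6 * k)) ^ 2 *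
          (X ^ (350 * L ^ 2) * (N : ℝ) ^ (-(3 * (L : ℝ) ^ 2 / 10) : ℝ) *
            (M : ℝ) ^ (k * (k + 1))) := by
        rw [← hs] at hm
        exact mul_le_mul (mul_le_mul_of_nonneg_left
          (pow_le_pow_left₀ (Nat.cast_nonneg _) hm 2) (by positivity)) hprod
          (prod_nonneg fun j _ => linForm_nonneg _ _)
          (by have : (0 : ℝ) ≤ mvConst k (6 * k) := by rw [mvConst]; positivity
              positivity)
    _ = mvConst k (6 * k) ^ 2 * X ^ (350 * L ^ 2) * (M : ℝ) ^ (4 * s * s) *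
          ((M : ℝ) ^ (2 * eta k (6 * k)) * (N : ℝ) ^ (-(3 * (L : ℝ) ^ 2 / 10) : ℝ)) := by
        have hMp : (0 : ℝ) < M := by linarith
        have e : (M : ℝ) ^ (4 * s * (s - 1)) * ((M : ℝ) ^ mvExp k (6 * k)) ^ 2 *
            (M : ℝ) ^ (k * (k + 1)) =
            (M : ℝ) ^ (4 * s * s) * (M : ℝ) ^ (2 * eta k (6 * k)) := by
          simp only [← Real.rpow_natCast, ← Real.rpow_mul hMp.le, ← Real.rpow_add hMp]
          congr 1
          rw [mvExp]
          push_cast [Nat.cast_sub hs1]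
          push_cast at hs2 ⊢
          linear_combination 4 * hs2
        linear_combination (mvConst k (6 * k) ^ 2 * X ^ (350 * L ^ 2) *
          (N : ℝ) ^ (-(3 * (L : ℝ) ^ 2 / 10) : ℝ)) * e
    _ ≤ X ^ (2688 * k ^ 4) * X ^ (350 * L ^ 2) * (M : ℝ) ^ (4 * s * s) *
          (N : ℝ) ^ (-((k : ℝ) ^ 2 / 500)) := by
        have h3 : (M : ℝ) ^ (2 * eta k (6 * k)) ≤ (N : ℝ) ^ ((k : ℝ) ^ 2 / 1000) := by
          refine (Real.rpow_le_rpow (by linarith) hM2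
            (by linarith [(eta_bounds hk0 (6 * k)).1])).trans ?_
          rw [← Real.rpow_mul hN0.le]
          exact Real.rpow_le_rpow_of_exponent_le hN1 (by linarith [eta_six_le hk0])
        have h4 : mvConst k (6 * k) ^ 2 ≤ X ^ (2688 * k ^ 4) := by
          refine (pow_le_pow_left₀ (by rw [mvConst]; positivity) hC 2).trans (le_of_eq ?_)
          rw [← pow_mul]
          congr 1
          ring
        have h5 : (M : ℝ) ^ (2 * eta k (6 * k)) * (N : ℝ) ^ (-(3 * (L : ℝ) ^ 2 / 10) : ℝ) ≤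
            (N : ℝ) ^ (-((k : ℝ) ^ 2 / 500)) := by
          refine (mul_le_mul_of_nonneg_right h3 (by positivity)).trans (le_of_eq ?_)
          rw [← Real.rpow_add hN0, hk]
          congr 1
          push_cast
          ring
        have : (0 : ℝ) ≤ mvConst k (6 * k) := by rw [mvConst]; positivity
        gcongr
    _ ≤ X ^ (39 * (2 * s * s)) * (M : ℝ) ^ (4 * s * s) * (N : ℝ) ^ (-((k : ℝ) ^ 2 / 500)) := by
        rw [← pow_add]
        gcongr
        rw [hs, show 39 * (2 * (k * (6 * k)) * (k * (6 * k))) = 2808 * k ^ 4 by ring]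
        have : 350 * L ^ 2 ≤ 120 * k ^ 4 := by
          rw [hk]
          nlinarith [Nat.mul_le_mul (Nat.mul_le_mul hL hL) (le_refl (L ^ 2))]
        omega
    _ = _ := by
        rw [mul_pow, mul_pow, ← pow_mul, ← pow_mul, ← Real.rpow_natCast ((N : ℝ) ^ _),
          ← Real.rpow_mul hN0.le, show 2 * (2 * s * s) = 4 * s * s by ring]
        congr 2
        rw [korobovDelta, hs, hk]
        push_cast
        field_simp
        ring

/-- **Vinogradov's bound**, with a linear phase added. -/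
theorem norm_tiltSum_le {N K L : ℕ} {t : ℝ} (β : ℝ) (hL : 1 ≤ L) (hN : 1 ≤ N) (hNK : N ≤ K)
    (hK : K ≤ 2 * N) (h1 : (N : ℝ) ^ L ≤ t) (h2 : t ≤ (N : ℝ) ^ (L + 1)) :
    ‖∑ n ∈ Ico N K, expI (phase t n + β * n)‖ ≤
      (640 * (L : ℝ)) ^ 40 * (N : ℝ) ^ (1 - korobovDelta L) := by
  obtain ⟨φ, hφ⟩ : ∃ φ : ℕ → ℝ, φ = fun n => phase t n + β * n := ⟨_, rfl⟩
  rw [show ∑ n ∈ Ico N K, expI (phase t n + β * n) = ∑ n ∈ Ico N K, expI (φ n) by simp [hφ]]
  obtain ⟨hd0, hd⟩ := korobovDelta_bounds hL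
  obtain ⟨X, hX⟩ : ∃ X : ℝ, X = 640 * (L : ℝ) := ⟨_, rfl⟩
  rw [← hX]
  have hL1 : (1 : ℝ) ≤ L := by exact_mod_cast hL
  have hX1 : (640 : ℝ) ≤ X := by linarith
  have hN0 : (0 : ℝ) < N := Nat.cast_pos.2 hN
  have hN1 : (1 : ℝ) ≤ N := by exact_mod_cast hN
  have hKN : ((K - N : ℕ) : ℝ) ≤ N := by exact_mod_cast (show K - N ≤ N by omega)
  have htriv : ‖∑ n ∈ Ico N K, expI (φ n)‖ ≤ (N : ℝ) :=
    (norm_sum_expI_le N K _).trans hKN
  rcases lt_or_ge N 32 with hsmall | hbig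
  · refine htriv.trans ?_
    rw [Real.rpow_sub hN0, Real.rpow_one, ← mul_div_assoc, le_div_iff₀ (by positivity), mul_comm]
    refine mul_le_mul_of_nonneg_right ?_ hN0.le
    calc (N : ℝ) ^ korobovDelta L ≤ (N : ℝ) ^ (1 : ℝ) :=
          Real.rpow_le_rpow_of_exponent_le hN1 (by linarith)
      _ ≤ X := by
          rw [Real.rpow_one]
          linarith [show (N : ℝ) ≤ 32 by exact_mod_cast hsmall.le]
      _ ≤ _ := le_self_pow₀ (by linarith) (by norm_num)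
  obtain ⟨M, hM⟩ : ∃ M, M = ⌊(N : ℝ) ^ (2 / 5 : ℝ)⌋₊ := ⟨_, rfl⟩
  have hM2 : (M : ℝ) ≤ (N : ℝ) ^ (2 / 5 : ℝ) := hM ▸ Nat.floor_le (by positivity)
  have hM1 : (N : ℝ) ^ (2 / 5 : ℝ) ≤ 2 * M := by
    have h := Nat.lt_floor_add_one ((N : ℝ) ^ (2 / 5 : ℝ))
    have h' : 1 ≤ M := hM ▸ Nat.one_le_floor_iff _ |>.2 (Real.one_le_rpow hN1 (by norm_num))
    rw [← hM] at h
    have : (1 : ℝ) ≤ M := by exact_mod_cast h'
    linarith
  have hM0 : (0 : ℝ) < M := by linarith [Real.one_le_rpow hN1 (show (0 : ℝ) ≤ 2 / 5 by norm_num)]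
  have hMM : (M : ℝ) ^ 2 ≤ (N : ℝ) ^ (4 / 5 : ℝ) := by
    refine (pow_le_pow_left₀ hM0.le hM2 2).trans (le_of_eq ?_)
    rw [← Real.rpow_natCast, ← Real.rpow_mul hN0.le]
    norm_num
  have h45 : (N : ℝ) ^ (4 / 5 : ℝ) = (N : ℝ) * (N : ℝ) ^ (-(1 / 5) : ℝ) := by
    rw [show (4 / 5 : ℝ) = 1 + -(1 / 5) by norm_num, Real.rpow_add hN0, Real.rpow_one]
  have h15 : (N : ℝ) ^ (-(1 / 5) : ℝ) ≤ 1 / 2 := by
    rw [Real.rpow_neg hN0.le, inv_eq_one_div]
    refine one_div_le_one_div_of_le two_pos ?_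
    calc (2 : ℝ) = ((32 : ℕ) : ℝ) ^ (1 / 5 : ℝ) := by
          rw [show ((32 : ℕ) : ℝ) = (2 : ℝ) ^ (5 : ℕ) by norm_num, ← Real.rpow_natCast,
            ← Real.rpow_mul two_pos.le]
          norm_num
      _ ≤ _ := Real.rpow_le_rpow (Nat.cast_nonneg _) (Nat.cast_le.2 hbig) (by norm_num)
  have ht0 : 0 ≤ t := le_trans (by positivity) h1
  obtain ⟨α, hα⟩ : ∃ α : ℕ → Fin (10 * L) → ℝ,
      α = fun n j => taylorCoeff (10 * L) t n j + if j.1 = 0 then β else 0 := ⟨_, rfl⟩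
  have hdot : ∀ n x y, phaseDot (α n) (moments (10 * L) x) (moments (10 * L) y) =
      phaseDot (taylorCoeff (10 * L) t n) (moments (10 * L) x) (moments (10 * L) y) +
        β * ((x * y : ℕ) : ℝ) := fun n x y => by
    rw [hα]
    simp only [phaseDot, add_mul, sum_add_distrib]
    congr 1
    rw [sum_eq_single (⟨0, by omega⟩ : Fin (10 * L))
      (fun j _ hj => by rw [if_neg fun h => hj (Fin.ext h)]; simp) (by simp)]
    simp [moments]
    ring
  obtain ⟨W, hW⟩ : ∃ W : ℕ → ℂ,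
      W = fun n => ∑ x ∈ range M, ∑ y ∈ range M, expI (φ (n + x * y)) := ⟨_, rfl⟩
  have hWn : ∀ n ∈ Ico N K, ‖W n‖ ≤
      (M : ℝ) ^ 2 * ((X ^ 39 + 2) * (N : ℝ) ^ (-korobovDelta L)) := fun n hn => by
    rw [mem_Ico] at hn
    have hnN : (N : ℝ) ≤ n := Nat.cast_le.2 hn.1
    have hu : ∀ x ∈ range M, ∀ y ∈ range M, ((x * y : ℕ) : ℝ) / n ≤ (N : ℝ) ^ (-(1 / 5) : ℝ) := by
      intro x hx y hy
      rw [div_le_iff₀ (by linarith)]
      have hxy : ((x * y : ℕ) : ℝ) ≤ (M : ℝ) ^ 2 := by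
        rw [sq, Nat.cast_mul]
        exact mul_le_mul (Nat.cast_le.2 (mem_range.1 hx).le) (Nat.cast_le.2 (mem_range.1 hy).le)
          (Nat.cast_nonneg _) hM0.le
      refine hxy.trans (hMM.trans (h45.le.trans ?_))
      rw [mul_comm]
      exact mul_le_mul_of_nonneg_left hnN (by positivity)
    have herr : ∀ x ∈ range M, ∀ y ∈ range M,
        ‖expI (φ (n + x * y)) - expI (φ n) *
          expI (phaseDot (α n) (moments (10 * L) x) (moments (10 * L) y))‖ ≤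
        2 * (N : ℝ) ^ (-korobovDelta L) := by
      intro x hx y hy
      rw [← expI_add]
      refine (norm_expI_sub_le _ _).trans (le_trans (le_of_eq ?_)
        ((phase_taylor_le (k := 10 * L) (x := x) (y := y) ht0 (show 0 < n by omega) ?_).trans ?_))
      · rw [hdot, hφ]
        congr 1
        push_cast
        ring
      · have := (hu x hx y hy).trans h15
        rw [div_le_iff₀ (by linarith)] at this
        have h6 : ((2 * (x * y) : ℕ) : ℝ) ≤ n := by push_cast at this ⊢; linarith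
        exact_mod_cast h6
      rw [mul_assoc]
      refine mul_le_mul_of_nonneg_left ?_ two_pos.le
      calc t * (((x * y : ℕ) : ℝ) / n) ^ (10 * L + 1)
          ≤ (N : ℝ) ^ (L + 1) * ((N : ℝ) ^ (-(1 / 5) : ℝ)) ^ (10 * L + 1) :=
            mul_le_mul h2 (pow_le_pow_left₀ (by positivity) (hu x hx y hy) _) (by positivity)
              (by positivity)
        _ ≤ _ := by
            rw [← Real.rpow_natCast, ← Real.rpow_natCast, ← Real.rpow_mul hN0.le,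
              ← Real.rpow_add hN0]
            refine Real.rpow_le_rpow_of_exponent_le hN1 ?_
            push_cast
            linarith
    have hbl := norm_bilinear_taylor_le (α := α n)
      (fun j hj => by rw [hα]; simp [Nat.one_le_iff_ne_zero.1 hj]) hL hN hn.1 (by omega) h1 h2
      hM1 hM2
    rw [← hX] at hbl
    have e : ‖∑ x ∈ range M, ∑ y ∈ range M, (expI (φ (n + x * y)) - expI (φ n) *
        expI (phaseDot (α n) (moments (10 * L) x) (moments (10 * L) y)))‖ ≤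
          (M : ℝ) * ((M : ℝ) * (2 * (N : ℝ) ^ (-korobovDelta L))) := by
      refine (norm_sum_le _ _).trans ((sum_le_card_nsmul _ _ _ fun x hx =>
        (norm_sum_le _ _).trans (sum_le_card_nsmul _ _ _ fun y hy => herr x hx y hy)).trans ?_)
      simp
    simp only [sum_sub_distrib, ← mul_sum] at e
    rw [hW]
    refine (norm_le_norm_sub_add _ (expI (φ n) * bilinear (α n) M)).trans
      ((add_le_add e (((norm_mul_le (expI (φ n))
        (bilinear (α n) M)).trans_eq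
          (by rw [norm_expI, one_mul])).trans hbl)).trans (le_of_eq ?_))
    ring
  have hid : ‖(M : ℂ) ^ 2 * ∑ n ∈ Ico N K, expI (φ n) - ∑ n ∈ Ico N K, W n‖ ≤
      (M : ℝ) * ((M : ℝ) * (2 * (M : ℝ) ^ 2)) := by
    have e : ∑ n ∈ Ico N K, W n =
        ∑ x ∈ range M, ∑ y ∈ range M, ∑ n ∈ Ico N K, expI (φ (n + x * y)) := by
      rw [hW, sum_comm]
      exact sum_congr rfl fun x _ => sum_comm
    rw [e, show (M : ℂ) ^ 2 * ∑ n ∈ Ico N K, expI (φ n) =
      ∑ _x ∈ range M, ∑ _y ∈ range M, ∑ n ∈ Ico N K, expI (φ n) by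
        simp only [sum_const, card_range, nsmul_eq_mul]; ring, ← sum_sub_distrib]
    refine (norm_sum_le _ _).trans ((sum_le_card_nsmul _ _ ((M : ℝ) * (2 * (M : ℝ) ^ 2))
      fun x hx => ?_).trans (by simp))
    rw [← sum_sub_distrib]
    refine (norm_sum_le _ _).trans ((sum_le_card_nsmul _ _ (2 * (M : ℝ) ^ 2)
      fun y hy => ?_).trans (by simp))
    refine (norm_shift_le N K (x * y) hNK (fun n => expI (φ n))
      fun n => (norm_expI _).le).trans ?_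
    rw [sq, Nat.cast_mul]
    exact mul_le_mul_of_nonneg_left (mul_le_mul (Nat.cast_le.2 (mem_range.1 hx).le)
      (Nat.cast_le.2 (mem_range.1 hy).le) (Nat.cast_nonneg _) hM0.le) two_pos.le
  have hWsum : ‖∑ n ∈ Ico N K, W n‖ ≤
      (N : ℝ) * ((M : ℝ) ^ 2 * ((X ^ 39 + 2) * (N : ℝ) ^ (-korobovDelta L))) := by
    refine (norm_sum_le _ _).trans ((sum_le_card_nsmul _ _ _ hWn).trans ?_)
    rw [Nat.card_Ico, nsmul_eq_mul]
    exact mul_le_mul_of_nonneg_right hKN (by positivity)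
  have hS : (M : ℝ) ^ 2 * ‖∑ n ∈ Ico N K, expI (φ n)‖ ≤
      (M : ℝ) ^ 2 * ((N : ℝ) * ((X ^ 39 + 4) * (N : ℝ) ^ (-korobovDelta L))) := by
    have e1 : ‖(M : ℂ) ^ 2 * ∑ n ∈ Ico N K, expI (φ n)‖ =
        (M : ℝ) ^ 2 * ‖∑ n ∈ Ico N K, expI (φ n)‖ := by
      rw [norm_mul, norm_pow, Complex.norm_natCast]
    rw [← e1]
    refine (norm_le_norm_sub_add _ (∑ n ∈ Ico N K, W n)).trans
      ((add_le_add hid hWsum).trans ?_)
    have e2 : 2 * (M : ℝ) ^ 2 ≤ (N : ℝ) * (1 * (N : ℝ) ^ (-korobovDelta L)) * 2 := by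
      have : (N : ℝ) ^ (-(1 / 5) : ℝ) ≤ (N : ℝ) ^ (-korobovDelta L) :=
        Real.rpow_le_rpow_of_exponent_le hN1 (by linarith)
      nlinarith [mul_le_mul_of_nonneg_left this hN0.le]
    nlinarith [mul_le_mul_of_nonneg_left e2 (sq_nonneg (M : ℝ)),
      show (0 : ℝ) ≤ (M : ℝ) ^ 2 * ((N : ℝ) * (N : ℝ) ^ (-korobovDelta L)) by positivity]
  refine (le_of_mul_le_mul_left hS (by positivity)).trans ?_
  rw [show (1 : ℝ) - korobovDelta L = 1 + -korobovDelta L by ring, Real.rpow_add hN0,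
    Real.rpow_one]
  have hX39 : X ^ 39 + 4 ≤ X ^ 40 := by
    have : (1 : ℝ) ≤ X ^ 39 := one_le_pow₀ (by linarith)
    rw [pow_succ X 39]
    nlinarith
  nlinarith [mul_le_mul_of_nonneg_left hX39
    (show (0 : ℝ) ≤ (N : ℝ) * (N : ℝ) ^ (-korobovDelta L) by positivity)]

/-- **Vinogradov's bound** for `∑ n ^ (-it)`. -/
theorem norm_zetaSum_le {N K L : ℕ} {t : ℝ} (hL : 1 ≤ L) (hN : 1 ≤ N) (hNK : N ≤ K)
    (hK : K ≤ 2 * N) (h1 : (N : ℝ) ^ L ≤ t) (h2 : t ≤ (N : ℝ) ^ (L + 1)) :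
    ‖∑ n ∈ Ico N K, expI (phase t n)‖ ≤
      (640 * (L : ℝ)) ^ 40 * (N : ℝ) ^ (1 - korobovDelta L) := by
  simpa using norm_tiltSum_le 0 hL hN hNK hK h1 h2

end FA.Korobov

end
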